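import Mathlib

set_option autoImplicit false

noncomputable section

open Polynomial

namespace Fermat.FF.Gen

section FieldTheory

variable (k N : Type*) [Field k] [Field N] [Algebra k N]

theorem isPurelyInseparable_fixedField [Normal k N] :
    IsPurelyInseparable k (IntermediateField.fixedField (⊤ : Subgroup (N ≃ₐ[k] N))) := by
  classical
  rw [isPurelyInseparable_iff_natSepDegree_eq_one]
  intro x
  have hx : ∀ σ : N ≃ₐ[k] N, σ (x : N) = x := fun σ =>
    (IntermediateField.mem_fixedField_iff _ _).mp x.2 σ (Subgroup.mem_top σ)
  have hmin : minpoly k x = minpoly k (x : N) :=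
    (minpoly.algebraMap_eq (algebraMap (IntermediateField.fixedField (⊤ : Subgroup (N ≃ₐ[k] N))) N).injective x).symm
  rw [hmin, natSepDegree_eq_of_splits (E := N) _ (Normal.splits inferInstance _)]
  have hint : IsIntegral k (x : N) := Algebra.IsIntegral.isIntegral _
  have : ((minpoly k (x : N)).aroots N).toFinset = {(x : N)} := by
    ext y
    rw [Multiset.mem_toFinset, mem_aroots, Finset.mem_singleton]
    constructor
    · rintro ⟨-, hy⟩
      obtain ⟨σ, hσ⟩ := minpoly.exists_algEquiv_of_root (Algebra.IsAlgebraic.isAlgebraic (x : N)) hy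
      exact σ.injective (hσ.trans (hx σ).symm)
    · rintro rfl
      exact ⟨minpoly.ne_zero hint, minpoly.aeval _ _⟩
  rw [this, Finset.card_singleton]

theorem isSeparable_fixedField [FiniteDimensional k N] :
    Algebra.IsSeparable (IntermediateField.fixedField (⊤ : Subgroup (N ≃ₐ[k] N))) N := by
  have : IsGalois (IntermediateField.fixedField (⊤ : Subgroup (N ≃ₐ[k] N))) N := by
    exact IsGalois.of_fixed_field N (⊤ : Subgroup (N ≃ₐ[k] N))
  infer_instance

end FieldTheory

section PurelyInsep

/-- descending an integral fraction into an integrally closed domain. -/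
theorem exists_of_integral_fraction {R' Ω : Type*} [CommRing R'] [IsDomain R'] [IsIntegrallyClosed R']
    [Field Ω] [Algebra R' Ω] [FaithfulSMul R' Ω] {x : Ω} (hx : IsIntegral R' x) {d r : R'}
    (hd : d ≠ 0) (h : algebraMap R' Ω d * x = algebraMap R' Ω r) :
    ∃ s : R', algebraMap R' Ω s = x := by
  let _ : Algebra (FractionRing R') Ω := FractionRing.liftAlgebra R' Ω
  have hd' : algebraMap R' (FractionRing R') d ≠ 0 := by
    rwa [Ne, FaithfulSMul.algebraMap_eq_zero_iff]
  have hd'' : algebraMap R' Ω d ≠ 0 := by
    rwa [Ne, FaithfulSMul.algebraMap_eq_zero_iff]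
  have hx' : algebraMap (FractionRing R') Ω
      (algebraMap R' (FractionRing R') r / algebraMap R' (FractionRing R') d) = x := by
    rw [map_div₀, ← IsScalarTower.algebraMap_apply, ← IsScalarTower.algebraMap_apply,
      div_eq_iff hd'', ← h, mul_comm]
  rw [← hx'] at hx
  rw [isIntegral_algebraMap_iff (algebraMap (FractionRing R') Ω).injective] at hx
  obtain ⟨s, hs⟩ := IsIntegrallyClosed.isIntegral_iff.mp hx
  refine ⟨s, ?_⟩
  rw [← hx', ← hs, ← IsScalarTower.algebraMap_apply]

variable {K k E : Type*} [Field K] [Field k] [Field E] [Algebra K[X] k] [IsFractionRing K[X] k]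
  [Algebra k E] [Algebra K[X] E] [IsScalarTower K[X] k E] [FiniteDimensional k E]
  [Algebra K E] [IsScalarTower K K[X] E]

theorem finite_of_purelyInseparable [IsPurelyInseparable k E] :
    Module.Finite K[X] (integralClosure K[X] E) := by
  classical
  obtain ⟨p, hp⟩ := ExpChar.exists K
  have hinjkE : Function.Injective (algebraMap K[X] E) := by
    rw [IsScalarTower.algebraMap_eq K[X] k E]
    exact (algebraMap k E).injective.comp (IsFractionRing.injective K[X] k)
  have hpk : ExpChar k p := by
    have : ExpChar K[X] p := expChar_of_injective_ringHom (C_injective (R := K)) p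
    exact expChar_of_injective_ringHom (IsFractionRing.injective K[X] k) p
  have hpE : ExpChar E p := expChar_of_injective_ringHom (algebraMap k E).injective p
  set Ω := AlgebraicClosure E
  have hpΩ : ExpChar Ω p := expChar_of_injective_ringHom (algebraMap E Ω).injective p
  -- a basis of integral elements
  obtain ⟨s, b, hb⟩ := FiniteDimensional.exists_is_basis_integral K[X] k E
  -- common exponent
  have h1 := (isPurelyInseparable_iff_pow_mem k (E := E) p).mp inferInstance
  choose m hm using fun i => h1 (b i)
  set M := ∑ i, m i with hM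
  set q := p ^ M with hq
  have hq0 : 0 < q := pow_pos (expChar_pos K p) _
  have h2 : ∀ i, ∃ f : K[X], algebraMap K[X] E f = b i ^ q := by
    intro i
    have hle : m i ≤ M := Finset.single_le_sum (fun _ _ => Nat.zero_le _) (Finset.mem_univ i)
    obtain ⟨a, ha⟩ := hm i
    have h3 : algebraMap k E (a ^ p ^ (M - m i)) = b i ^ q := by
      rw [map_pow, ha, ← pow_mul, ← pow_add, Nat.add_sub_cancel' hle]
    have h4 : IsIntegral K[X] (a ^ p ^ (M - m i)) := by
      rw [← isIntegral_algebraMap_iff (algebraMap k E).injective, h3]
      exact (hb i).pow _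
    obtain ⟨f, hf⟩ := IsIntegrallyClosed.isIntegral_iff.mp h4
    refine ⟨f, ?_⟩
    rw [IsScalarTower.algebraMap_apply K[X] k E, hf, h3]
  choose f hf using h2
  -- roots
  have h3 : ∀ c : K, ∃ z : Ω, z ^ q = algebraMap K Ω c := fun c =>
    IsAlgClosed.exists_pow_nat_eq _ hq0
  choose r hr using h3
  obtain ⟨y, hy⟩ : ∃ z : Ω, z ^ q = algebraMap K[X] Ω X := IsAlgClosed.exists_pow_nat_eq _ hq0
  set T : Set Ω := ⋃ i : s, ((fun j => r ((f i).coeff j)) '' ((f i).support : Set ℕ)) with hT
  have hTfin : T.Finite := Set.finite_iUnion fun i => (Finset.finite_toSet _).image _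
  have hrint : ∀ c, IsIntegral K (r c) := fun c =>
    IsIntegral.of_pow hq0 (by rw [hr]; exact isIntegral_algebraMap)
  have hTint : ∀ z ∈ T, IsIntegral K z := by
    intro z hz
    rw [hT, Set.mem_iUnion] at hz
    obtain ⟨i, j, -, rfl⟩ := hz
    exact hrint _
  -- the field `K'`
  let K' : IntermediateField K Ω := IntermediateField.adjoin K T
  have hK'alg : Algebra.IsAlgebraic K K' := by
    have : Algebra.IsIntegral K K' := by
      have := IntermediateField.isAlgebraic_adjoin (K := K) (S := T) hTint
      exact Algebra.isAlgebraic_iff_isIntegral.mp this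
    infer_instance
  have hX : Transcendental K (algebraMap K[X] Ω X) := by
    have hinj : Function.Injective (algebraMap K[X] Ω) := by
      rw [IsScalarTower.algebraMap_eq K[X] E Ω]
      exact (algebraMap E Ω).injective.comp hinjkE
    exact (transcendental_algebraMap_iff hinj).mpr (transcendental_X K)
  have hy1 : Transcendental K y := by
    intro hcon
    apply hX
    rw [← hy]
    exact hcon.pow q
  have hy2 : Transcendental K' y := by
    intro hcon
    exact hy1 (hcon.restrictScalars K)
  let R' : Subalgebra K' Ω := Algebra.adjoin K' {y}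
  have hR'ic : IsIntegrallyClosed R' :=
    IsIntegrallyClosed.of_equiv (Polynomial.algEquivOfTranscendental K' y hy2).toRingEquiv
  -- `R'' = K[X][T, y]`
  let R'' : Subalgebra K[X] Ω := Algebra.adjoin K[X] (T ∪ {y})
  have hR''fin : Module.Finite K[X] R'' := by
    refine Algebra.finite_adjoin_of_finite_of_isIntegral (hTfin.union (Set.finite_singleton y)) ?_
    rintro z (hz | hz)
    · exact (hTint z hz).tower_top
    · rw [Set.mem_singleton_iff] at hz
      rw [hz]
      exact IsIntegral.of_pow hq0 (by rw [hy]; exact isIntegral_algebraMap)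
  have hTR'' : ∀ z ∈ Algebra.adjoin K T, z ∈ R'' := by
    intro z hz
    induction hz using Algebra.adjoin_induction with
    | mem x hx => exact Algebra.subset_adjoin (Or.inl hx)
    | algebraMap c =>
      rw [IsScalarTower.algebraMap_apply K K[X] Ω]
      exact R''.algebraMap_mem _
    | add x y _ _ hx hy => exact add_mem hx hy
    | mul x y _ _ hx hy => exact mul_mem hx hy
  have hK'R'' : ∀ z ∈ K', z ∈ R'' := by
    intro z hz
    apply hTR''
    rw [← IntermediateField.adjoin_toSubalgebra_of_isAlgebraic
      (fun x hx => (hTint x hx).isAlgebraic)]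
    exact hz
  have hR'R'' : ∀ z ∈ R', z ∈ R'' := by
    intro z hz
    induction hz using Algebra.adjoin_induction with
    | mem x hx =>
      rw [Set.mem_singleton_iff] at hx
      rw [hx]
      exact Algebra.subset_adjoin (Or.inr rfl)
    | algebraMap c => exact hK'R'' _ c.2
    | add x y _ _ hx hy => exact add_mem hx hy
    | mul x y _ _ hx hy => exact mul_mem hx hy
  have hyR' : y ∈ R' := Algebra.self_mem_adjoin_singleton _ _
  have hK'R' : ∀ z ∈ K', z ∈ R' := fun z hz => R'.algebraMap_mem ⟨z, hz⟩
  -- `K[X] → R'`
  have hKXR' : ∀ g : K[X], algebraMap K[X] Ω g ∈ R' := by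
    intro g
    induction g using Polynomial.induction_on' with
    | add g h hg hh => rw [map_add]; exact add_mem hg hh
    | monomial n c =>
      rw [← C_mul_X_pow_eq_monomial, map_mul, map_pow, ← hy, ← algebraMap_eq,
        ← IsScalarTower.algebraMap_apply K K[X] Ω]
      exact mul_mem (hK'R' _ (K'.algebraMap_mem c)) (pow_mem (pow_mem hyR' _) _)
  let alg : Algebra K[X] R' :=
    ((algebraMap K[X] Ω).codRestrict R'.toSubring hKXR').toAlgebra
  have : IsScalarTower K[X] R' Ω := IsScalarTower.of_algebraMap_eq fun _ => rfl
  -- the basis elements are in `R'`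
  have hbR' : ∀ i, algebraMap E Ω (b i) ∈ R' := by
    intro i
    have h4 : algebraMap E Ω (b i) = ∑ j ∈ (f i).support, r ((f i).coeff j) * y ^ j := by
      apply iterateFrobenius_inj Ω p M
      simp only [iterateFrobenius_def, ← hq]
      rw [← map_pow, ← hf i, ← IsScalarTower.algebraMap_apply, hq, sum_pow_char_pow, ← hq]
      conv_lhs => rw [(f i).as_sum_support_C_mul_X_pow]
      rw [map_sum]
      refine Finset.sum_congr rfl fun j _ => ?_
      rw [map_mul, map_pow, ← hy, ← algebraMap_eq, ← IsScalarTower.algebraMap_apply K K[X] Ω,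
        mul_pow, hr, ← pow_mul, ← pow_mul, mul_comm q j]
    rw [h4]
    refine sum_mem fun j hj => mul_mem (hK'R' _ ?_) (pow_mem hyR' _)
    refine IntermediateField.subset_adjoin K T ?_
    rw [hT, Set.mem_iUnion]
    exact ⟨i, j, hj, rfl⟩
  -- conclusion
  have key : ∀ x : integralClosure K[X] E, algebraMap E Ω (x : E) ∈ R'' := by
    intro x
    apply hR'R''
    obtain ⟨d, hd⟩ := IsLocalization.exist_integer_multiples_of_finset (nonZeroDivisors K[X])
      (Finset.univ.image fun i => b.repr (x : E) i)
    have hd' : ∀ i, ∃ u : K[X], algebraMap K[X] k u = algebraMap K[X] k d * b.repr (x : E) i := by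
      intro i
      obtain ⟨u, hu⟩ := hd _ (Finset.mem_image_of_mem _ (Finset.mem_univ i))
      refine ⟨u, ?_⟩
      rw [hu, Algebra.smul_def]
    choose u hu using hd'
    have h5 : algebraMap K[X] E d * (x : E) = ∑ i, algebraMap K[X] E (u i) * b i := by
      conv_lhs => rw [← b.sum_repr (x : E)]
      rw [Finset.mul_sum]
      refine Finset.sum_congr rfl fun i _ => ?_
      rw [IsScalarTower.algebraMap_apply K[X] k E (u i), hu, map_mul,
        ← IsScalarTower.algebraMap_apply, Algebra.smul_def, mul_assoc]
    have hxint : IsIntegral R' (algebraMap E Ω (x : E)) := by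
      have : IsIntegral K[X] (algebraMap E Ω (x : E)) := x.2.map (IsScalarTower.toAlgHom K[X] E Ω)
      exact this.tower_top
    have hsum : ∑ i, algebraMap K[X] Ω (u i) * algebraMap E Ω (b i) ∈ R' :=
      sum_mem fun i _ => mul_mem (hKXR' _) (hbR' i)
    have hdne : algebraMap K[X] R' d ≠ 0 := by
      intro h0
      have h6 := congrArg (algebraMap R' Ω) h0
      rw [← IsScalarTower.algebraMap_apply, map_zero,
        IsScalarTower.algebraMap_apply K[X] E Ω] at h6
      have h7 := (map_eq_zero _).mp h6
      exact nonZeroDivisors.coe_ne_zero d (hinjkE (by rw [h7, map_zero]))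
    obtain ⟨z, hz⟩ := exists_of_integral_fraction hxint hdne (r := ⟨_, hsum⟩) (by
      rw [← IsScalarTower.algebraMap_apply, IsScalarTower.algebraMap_apply K[X] E Ω, ← map_mul, h5,
        map_sum]
      show _ = ∑ i, algebraMap K[X] Ω (u i) * algebraMap E Ω (b i)
      refine Finset.sum_congr rfl fun i _ => ?_
      rw [map_mul, ← IsScalarTower.algebraMap_apply])
    rw [← hz]
    exact z.2
  let g : integralClosure K[X] E →ₗ[K[X]] R'' :=
    { toFun := fun x => ⟨algebraMap E Ω (x : E), key x⟩
      map_add' := fun x y => Subtype.ext (by simp)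
      map_smul' := fun c x => Subtype.ext
        ((IsScalarTower.toAlgHom K[X] E Ω).toLinearMap.map_smul c (x : E)) }
  refine Module.Finite.of_injective g fun x y hxy => ?_
  have := congrArg Subtype.val hxy
  exact Subtype.ext ((algebraMap E Ω).injective this)

end PurelyInsep

section Step

variable {R L E N RE : Type*} [CommRing R] [IsNoetherianRing R] [CommRing RE] [IsDomain RE]
  [Field L] [Field E] [Field N]
  [Algebra R RE] [Module.Finite R RE] [Algebra RE E] [IsFractionRing RE E] [IsIntegrallyClosed RE]
  [Algebra E N] [Algebra RE N] [IsScalarTower RE E N] [FiniteDimensional E N]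
  [Algebra.IsSeparable E N] [Algebra R N] [IsScalarTower R RE N] [Algebra R L] [Algebra L N]
  [IsScalarTower R L N]

variable (R L E N RE) in
include E N RE in
theorem finite_step : Module.Finite R (integralClosure R L) := by
  have hRE3 : IsNoetherianRing RE :=
    isNoetherianRing_iff.mpr (isNoetherian_of_tower R (inferInstance : IsNoetherian R RE))
  have hC : Module.Finite RE (integralClosure RE N) := IsIntegralClosure.finite RE E N _
  have : Module.Finite R (integralClosure RE N) := Module.Finite.trans RE _
  let g : integralClosure R L →ₗ[R] integralClosure RE N :=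
    { toFun := fun x => ⟨algebraMap L N (x : L), by
        have h1 : IsIntegral R (algebraMap L N (x : L)) :=
          x.2.map (IsScalarTower.toAlgHom R L N)
        exact h1.tower_top⟩
      map_add' := fun x y => Subtype.ext (by simp)
      map_smul' := fun c x => Subtype.ext
        ((IsScalarTower.toAlgHom R L N).toLinearMap.map_smul c (x : L)) }
  refine Module.Finite.of_injective g fun x y hxy => ?_
  have := congrArg Subtype.val hxy
  exact Subtype.ext ((algebraMap L N).injective this)

end Step

section Main

variable (K k L : Type*) [Field K] [Field k] [Field L] [Algebra K[X] k] [IsFractionRing K[X] k]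
  [Algebra k L] [Algebra K[X] L] [IsScalarTower K[X] k L] [FiniteDimensional k L]

include k in
/-- **Finiteness of integral closure** (no separability, arbitrary field): for a finite extension
`L` of `k = Frac K[X]`, the integral closure of `K[X]` in `L` is a finite `K[X]`-module. -/
theorem finite_integralClosure_polynomial : Module.Finite K[X] (integralClosure K[X] L) := by
  let Ω := AlgebraicClosure L
  let N := IntermediateField.normalClosure k L Ω
  have hNn : Normal k N := inferInstance
  have hNf : FiniteDimensional k N := inferInstance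
  let E := IntermediateField.fixedField (⊤ : Subgroup (N ≃ₐ[k] N))
  have hE1 : IsPurelyInseparable k E := isPurelyInseparable_fixedField k N
  have hE2 : Algebra.IsSeparable E N := isSeparable_fixedField k N
  let _ : Algebra K E := ((algebraMap K[X] E).comp C).toAlgebra
  have : IsScalarTower K K[X] E := IsScalarTower.of_algebraMap_eq fun _ => rfl
  let RE := integralClosure K[X] E
  have hRE : Module.Finite K[X] RE := finite_of_purelyInseparable (k := k)
  have hRE1 : IsFractionRing RE E := integralClosure.isFractionRing_of_finite_extension k E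
  have hRE2 : IsIntegrallyClosed RE := integralClosure.isIntegrallyClosedOfFiniteExtension k
  have hfin : FiniteDimensional E N := inferInstance
  have htow : IsScalarTower K[X] RE N := IsScalarTower.of_algebraMap_eq fun x => rfl
  have htow2 : IsScalarTower K[X] L N := IsScalarTower.of_algebraMap_eq fun x =>
    Subtype.ext (IsScalarTower.algebraMap_apply K[X] L Ω x)
  exact finite_step K[X] L E N RE

end Main

end Fermat.FF.Gen
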