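import Mathlib
import Fermat.Prelude.Def_AlgebraicCurve_Repartitions

set_option autoImplicit false

noncomputable section

open AlgebraicCurve IsDedekindDomain WithZero IsLocalRing

namespace Fermat.FF

section Basic

variable {K F : Type*} [Field K] [Field F] [Algebra K F] (v : Place K F)

theorem mem_iff_val_le_one (f : F) :
    f ∈ v.toValuationSubring ↔ v.adicValuation f ≤ 1 := by
  constructor
  · exact fun h => v.adicValuation_le_one_of_mem h
  · intro h
    rcases v.toValuationSubring.mem_or_inv_mem f with h1 | h1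
    · exact h1
    · rcases eq_or_ne f 0 with rfl | hf
      · exact zero_mem _
      have h2 := v.adicValuation_le_one_of_mem h1
      have h3 : v.adicValuation f * v.adicValuation f⁻¹ = 1 := by
        rw [← map_mul, mul_inv_cancel₀ hf, map_one]
      have h4 : v.adicValuation f⁻¹ = 1 := by
        apply le_antisymm h2
        by_contra h5
        rw [not_le] at h5
        have : v.adicValuation f * v.adicValuation f⁻¹ < 1 := by
          calc v.adicValuation f * v.adicValuation f⁻¹ ≤ 1 * v.adicValuation f⁻¹ :=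
                mul_le_mul_left h _
            _ = v.adicValuation f⁻¹ := one_mul _
            _ < 1 := h5
        exact absurd h3 this.ne
      have h5 : IsUnit (⟨f⁻¹, h1⟩ : v.toValuationSubring) :=
        (v.adicValuation_coe_eq_one_iff ⟨f⁻¹, h1⟩).mp h4
      obtain ⟨b, hb⟩ := isUnit_iff_exists_inv.mp h5
      have hb' : f⁻¹ * (b : F) = 1 := congrArg Subtype.val hb
      have : f = b := by
        rw [inv_mul_eq_one₀ hf] at hb'
        exact hb'
      rw [this]
      exact b.2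

theorem mem_iff_ord {f : F} (hf : f ≠ 0) : f ∈ v.toValuationSubring ↔ 0 ≤ v.ord f := by
  rw [mem_iff_val_le_one, v.adicValuation_le_one_iff, or_iff_right hf]

theorem ord_nonneg_of_mem {f : F} (h : f ∈ v.toValuationSubring) : 0 ≤ v.ord f := by
  rcases eq_or_ne f 0 with rfl | hf
  · simp
  · exact (mem_iff_ord v hf).mp h

theorem not_mem_iff_ord {f : F} : f ∉ v.toValuationSubring ↔ v.ord f < 0 := by
  rw [mem_iff_val_le_one, v.not_adicValuation_le_one_iff]

theorem val_lt_one_iff {f : F} : v.adicValuation f < 1 ↔ f = 0 ∨ 0 < v.ord f := by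
  rcases eq_or_ne f 0 with rfl | hf
  · simp
  · rw [or_iff_right hf, v.adicValuation_eq_exp_neg_ord hf, ← exp_zero, exp_lt_exp]
    omega

theorem ord_pos_of_val_lt_one {f : F} (hf : f ≠ 0) (h : v.adicValuation f < 1) : 0 < v.ord f := by
  rcases (val_lt_one_iff v).mp h with h | h
  · exact absurd h hf
  · exact h

theorem mem_maximalIdeal_iff (a : v.toValuationSubring) :
    a ∈ maximalIdeal v.toValuationSubring ↔ v.adicValuation (a : F) < 1 := by
  rw [IsLocalRing.mem_maximalIdeal, mem_nonunits_iff, ← v.adicValuation_coe_eq_one_iff]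
  have := v.adicValuation_le_one_of_mem a.2
  exact ⟨fun h => lt_of_le_of_ne this h, fun h => h.ne⟩

theorem ord_eq_zero_iff_val {f : F} (hf : f ≠ 0) : v.ord f = 0 ↔ v.adicValuation f = 1 := by
  rw [v.adicValuation_eq_exp_neg_ord hf, ← exp_zero, exp_inj]
  omega

theorem ord_algebraMap (a : K) : v.ord (algebraMap K F a) = 0 := by
  rcases eq_or_ne a 0 with rfl | ha
  · simp
  have h1 := ord_nonneg_of_mem v (v.algebraMap_mem' a)
  have h2 := ord_nonneg_of_mem v (v.algebraMap_mem' a⁻¹)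
  rw [map_inv₀, v.ord_inv] at h2
  omega

theorem ord_neg (f : F) : v.ord (-f) = v.ord f := by
  unfold Place.ord
  rw [Valuation.map_neg]

theorem ord_add_of_lt {f g : F} (hf : f ≠ 0) (hg : g ≠ 0) (h : v.ord f < v.ord g) :
    v.ord (f + g) = v.ord f := by
  unfold Place.ord
  rw [Valuation.map_add_eq_of_lt_left]
  rw [v.adicValuation_eq_exp_neg_ord hf, v.adicValuation_eq_exp_neg_ord hg, exp_lt_exp]
  omega

theorem le_ord_iff {f : F} (hf : f ≠ 0) {n : ℤ} : n ≤ v.ord f ↔ v.adicValuation f ≤ exp (-n) := by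
  rw [v.adicValuation_eq_exp_neg_ord hf, exp_le_exp]
  omega

theorem ord_add_ge {f g : F} (hfg : f + g ≠ 0) {n : ℤ} (hf : f = 0 ∨ n ≤ v.ord f)
    (hg : g = 0 ∨ n ≤ v.ord g) : n ≤ v.ord (f + g) := by
  rw [le_ord_iff v hfg]
  refine (Valuation.map_add _ _ _).trans (max_le ?_ ?_)
  · rcases hf with rfl | h
    · simp
    · rcases eq_or_ne f 0 with rfl | hf
      · simp
      · exact (le_ord_iff v hf).mp h
  · rcases hg with rfl | h
    · simp
    · rcases eq_or_ne g 0 with rfl | hg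
      · simp
      · exact (le_ord_iff v hg).mp h

theorem exists_ord_eq_one : ∃ t : F, v.ord t = 1 := by
  obtain ⟨π, hπ⟩ := IsDiscreteValuationRing.exists_irreducible v.toValuationSubring
  exact ⟨π, v.ord_coe_irreducible hπ⟩

theorem ne_zero_of_ord_ne_zero {f : F} (h : v.ord f ≠ 0) : f ≠ 0 := by
  rintro rfl
  exact h v.ord_zero

theorem ord_pow (f : F) (n : ℕ) : v.ord (f ^ n) = n * v.ord f := by
  rw [← zpow_natCast, v.ord_zpow]

/-- A place whose valuation ring is contained in that of another one is equal to it. -/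
theorem place_eq_of_le {v w : Place K F} (h : v.toValuationSubring ≤ w.toValuationSubring) :
    v = w := by
  ext1
  refine le_antisymm h fun x hx => ?_
  by_contra hxv
  apply w.ne_top'
  refine SetLike.ext fun y => ⟨fun _ => ValuationSubring.mem_top y, fun _ => ?_⟩
  rcases eq_or_ne y 0 with rfl | hy
  · exact zero_mem _
  have hx0 : x ≠ 0 := fun h0 => hxv (h0 ▸ zero_mem _)
  have hneg : v.ord x < 0 := (not_mem_iff_ord v).mp hxv
  obtain ⟨n, hn⟩ : ∃ n : ℕ, 0 ≤ v.ord (y * (x ^ n)⁻¹) := by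
    refine ⟨(v.ord y).natAbs, ?_⟩
    rw [v.ord_mul hy (inv_ne_zero (pow_ne_zero _ hx0)), v.ord_inv, ord_pow]
    have h1 : -(v.ord y) ≤ ((v.ord y).natAbs : ℤ) := by omega
    nlinarith [Int.natCast_nonneg (v.ord y).natAbs]
  have hmem : y * (x ^ n)⁻¹ ∈ w.toValuationSubring :=
    h ((mem_iff_ord v (mul_ne_zero hy (inv_ne_zero (pow_ne_zero _ hx0)))).mpr hn)
  have : y = y * (x ^ n)⁻¹ * x ^ n := by
    field_simp
  rw [this]
  exact mul_mem hmem (pow_mem hx n)

/-- Uniqueness of the normalised order function. -/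
theorem ord_unique {o₁ o₂ : F → ℤ}
    (hm₁ : ∀ f g : F, f ≠ 0 → g ≠ 0 → o₁ (f * g) = o₁ f + o₁ g)
    (hm₂ : ∀ f g : F, f ≠ 0 → g ≠ 0 → o₂ (f * g) = o₂ f + o₂ g)
    (h : ∀ f : F, f ≠ 0 → (0 ≤ o₁ f ↔ 0 ≤ o₂ f))
    {π₁ π₂ : F} (hπ₁ : π₁ ≠ 0) (hπ₂ : π₂ ≠ 0) (h₁ : o₁ π₁ = 1) (h₂ : o₂ π₂ = 1)
    {f : F} (hf : f ≠ 0) : o₁ f = o₂ f := by
  have one₁ : o₁ 1 = 0 := by
    have := hm₁ 1 1 one_ne_zero one_ne_zero
    rw [one_mul] at this; omega
  have one₂ : o₂ 1 = 0 := by
    have := hm₂ 1 1 one_ne_zero one_ne_zero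
    rw [one_mul] at this; omega
  have inv₁ : ∀ g : F, g ≠ 0 → o₁ g⁻¹ = - o₁ g := fun g hg => by
    have := hm₁ g g⁻¹ hg (inv_ne_zero hg)
    rw [mul_inv_cancel₀ hg, one₁] at this; omega
  have inv₂ : ∀ g : F, g ≠ 0 → o₂ g⁻¹ = - o₂ g := fun g hg => by
    have := hm₂ g g⁻¹ hg (inv_ne_zero hg)
    rw [mul_inv_cancel₀ hg, one₂] at this; omega
  have pow₁ : ∀ (g : F), g ≠ 0 → ∀ n : ℕ, o₁ (g ^ n) = n * o₁ g := fun g hg n => by
    induction n with
    | zero => simp [one₁]
    | succ n ih => rw [pow_succ, hm₁ _ _ (pow_ne_zero _ hg) hg, ih]; push_cast; ring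
  have pow₂ : ∀ (g : F), g ≠ 0 → ∀ n : ℕ, o₂ (g ^ n) = n * o₂ g := fun g hg n => by
    induction n with
    | zero => simp [one₂]
    | succ n ih => rw [pow_succ, hm₂ _ _ (pow_ne_zero _ hg) hg, ih]; push_cast; ring
  have zpow₁ : ∀ (g : F), g ≠ 0 → ∀ n : ℤ, o₁ (g ^ n) = n * o₁ g := fun g hg n => by
    obtain ⟨m, rfl | rfl⟩ := n.eq_nat_or_neg
    · rw [zpow_natCast, pow₁ g hg]
    · rw [zpow_neg, zpow_natCast, inv₁ _ (pow_ne_zero _ hg), pow₁ g hg]; ring
  have zpow₂ : ∀ (g : F), g ≠ 0 → ∀ n : ℤ, o₂ (g ^ n) = n * o₂ g := fun g hg n => by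
    obtain ⟨m, rfl | rfl⟩ := n.eq_nat_or_neg
    · rw [zpow_natCast, pow₂ g hg]
    · rw [zpow_neg, zpow_natCast, inv₂ _ (pow_ne_zero _ hg), pow₂ g hg]; ring
  -- key: o₂ g = o₁ g * o₂ π₁
  have key : ∀ g : F, g ≠ 0 → o₂ g = o₁ g * o₂ π₁ := fun g hg => by
    have hne : g * π₁ ^ (-(o₁ g)) ≠ 0 := mul_ne_zero hg (zpow_ne_zero _ hπ₁)
    have h0 : o₁ (g * π₁ ^ (-(o₁ g))) = 0 := by
      rw [hm₁ _ _ hg (zpow_ne_zero _ hπ₁), zpow₁ _ hπ₁, h₁]; ring
    have h0' : o₁ (g * π₁ ^ (-(o₁ g)))⁻¹ = 0 := by rw [inv₁ _ hne, h0, neg_zero]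
    have h3 := (h _ hne).mp h0.ge
    have h4 := (h _ (inv_ne_zero hne)).mp h0'.ge
    rw [inv₂ _ hne] at h4
    rw [hm₂ _ _ hg (zpow_ne_zero _ hπ₁), zpow₂ _ hπ₁] at h3 h4
    linarith
  have hpos : 0 ≤ o₂ π₁ := (h _ hπ₁).mp (by omega)
  have h5 := key π₂ hπ₂
  rw [h₂] at h5
  have h6 : o₂ π₁ = 1 := by
    rcases Int.eq_one_or_neg_one_of_mul_eq_one' h5.symm with ⟨_, h⟩ | ⟨_, h⟩
    · exact h
    · omega
  rw [key f hf, h6, mul_one]

end Basic

section Dedekind

variable {K F : Type*} [Field K] [Field F] [Algebra K F]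
variable {R : Type*} [CommRing R] [IsDedekindDomain R] [Algebra R F] [IsFractionRing R F]
  [Algebra K R] [IsScalarTower K R F]

theorem ord_ofHeightOneSpectrum (P : HeightOneSpectrum R) {f : F} (hf : f ≠ 0) :
    (Place.ofHeightOneSpectrum (K := K) P).ord f = -(WithZero.log (P.valuation F f)) := by
  obtain ⟨t, ht⟩ := exists_ord_eq_one (Place.ofHeightOneSpectrum (K := K) (F := F) P)
  obtain ⟨π, hπ⟩ := P.valuation_exists_uniformizer F
  have hne : ∀ g : F, g ≠ 0 → P.valuation F g ≠ 0 := fun g hg => (Valuation.ne_zero_iff _).mpr hg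
  have hπ0 : π ≠ 0 := by
    rintro rfl
    rw [map_zero] at hπ
    exact WithZero.coe_ne_zero hπ.symm
  refine ord_unique (o₁ := (Place.ofHeightOneSpectrum (K := K) (F := F) P).ord)
    (o₂ := fun f => -(WithZero.log (P.valuation F f)))
    (fun f g hf hg => Place.ord_mul _ hf hg)
    (fun f g hf hg => ?_) (fun f hf => ?_) (ne_zero_of_ord_ne_zero _ (by rw [ht]; exact one_ne_zero))
    hπ0 ht ?_ hf
  · simp only [map_mul]
    rw [WithZero.log_mul (hne f hf) (hne g hg)]
    ring
  · rw [← mem_iff_ord _ hf, Place.ofHeightOneSpectrum_toValuationSubring,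
      Valuation.mem_valuationSubring_iff]
    simp only [Left.nonneg_neg_iff]
    rw [← WithZero.log_one (M := ℤ), WithZero.log_le_log (hne f hf) one_ne_zero]
  · simp only [hπ]
    simp

/-- The maximal ideal of `w` pulled back to a ring `R ⊆ O_w`. -/
def centre (w : Place K F) (hR : ∀ r : R, algebraMap R F r ∈ w.toValuationSubring) : Ideal R :=
  Ideal.comap ((algebraMap R F).codRestrict w.toValuationSubring.toSubring hR)
    (maximalIdeal w.toValuationSubring)

omit [IsDedekindDomain R] [IsFractionRing R F] [Algebra K R] [IsScalarTower K R F] in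
theorem mem_centre {w : Place K F} {hR : ∀ r : R, algebraMap R F r ∈ w.toValuationSubring} {r : R} :
    r ∈ centre w hR ↔ w.adicValuation (algebraMap R F r) < 1 := by
  unfold centre
  rw [Ideal.mem_comap, mem_maximalIdeal_iff]
  rfl

instance centre_isPrime (w : Place K F) (hR : ∀ r : R, algebraMap R F r ∈ w.toValuationSubring) :
    (centre w hR).IsPrime :=
  Ideal.IsPrime.comap _

theorem centre_ne_bot (w : Place K F) (hR : ∀ r : R, algebraMap R F r ∈ w.toValuationSubring) :
    centre w hR ≠ ⊥ := by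
  intro hbot
  apply w.ne_top'
  refine SetLike.ext fun y => ⟨fun _ => ValuationSubring.mem_top y, fun _ => ?_⟩
  obtain ⟨a, b, hb, rfl⟩ := IsFractionRing.div_surjective (A := R) y
  have hb0 : b ≠ 0 := nonZeroDivisors.ne_zero hb
  have hnot : b ∉ centre w hR := by
    rw [hbot]
    exact hb0
  rw [mem_centre, not_lt] at hnot
  rw [mem_iff_val_le_one, map_div₀]
  have h1 := w.adicValuation_le_one_of_mem (hR a)
  have h2 : w.adicValuation (algebraMap R F b) = 1 :=
    le_antisymm (w.adicValuation_le_one_of_mem (hR b)) hnot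
  rw [h2, div_one]
  exact h1

theorem eq_ofHeightOneSpectrum (w : Place K F)
    (hR : ∀ r : R, algebraMap R F r ∈ w.toValuationSubring) :
    w = Place.ofHeightOneSpectrum (K := K) (R := R)
      ⟨centre w hR, centre_isPrime w hR, centre_ne_bot w hR⟩ := by
  symm
  apply place_eq_of_le
  intro x hx
  rw [Place.ofHeightOneSpectrum_toValuationSubring,
    ← HeightOneSpectrum.valuationSubringAtPrime_eq_valuationSubring] at hx
  obtain ⟨a, s, hs, rfl⟩ := hx
  have hs' : s ∉ centre w hR := hs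
  rw [mem_centre, not_lt] at hs'
  have h2 : w.adicValuation (algebraMap R F s) = 1 :=
    le_antisymm (w.adicValuation_le_one_of_mem (hR s)) hs'
  rw [mem_iff_val_le_one, map_mul, map_inv₀, h2, inv_one, mul_one]
  exact w.adicValuation_le_one_of_mem (hR a)

theorem ord_ofHeightOneSpectrum_algebraMap (P : HeightOneSpectrum R) {r : R} (hr : r ≠ 0) :
    (Place.ofHeightOneSpectrum (K := K) (F := F) P).ord (algebraMap R F r) =
      multiplicity P.asIdeal (Ideal.span {r}) := by
  have hr' : algebraMap R F r ≠ 0 := by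
    rwa [Ne, FaithfulSMul.algebraMap_eq_zero_iff]
  rw [ord_ofHeightOneSpectrum P hr', HeightOneSpectrum.valuation_of_algebraMap,
    HeightOneSpectrum.intValuation_eq_exp_neg_multiplicity _ hr, WithZero.log_exp, neg_neg]

theorem val_ofHeightOneSpectrum_lt_one_iff (P : HeightOneSpectrum R) {r : R} :
    (Place.ofHeightOneSpectrum (K := K) (F := F) P).adicValuation (algebraMap R F r) < 1 ↔
      r ∈ P.asIdeal := by
  rcases eq_or_ne r 0 with rfl | hr
  · simp
  have hr' : algebraMap R F r ≠ 0 := by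
    rwa [Ne, FaithfulSMul.algebraMap_eq_zero_iff]
  rw [val_lt_one_iff, or_iff_right hr', ord_ofHeightOneSpectrum P hr',
    ← HeightOneSpectrum.valuation_lt_one_iff_mem (K := F), Left.neg_pos_iff,
    ← WithZero.log_one (M := ℤ), WithZero.log_lt_log ((Valuation.ne_zero_iff _).mpr hr') one_ne_zero]

theorem centre_ofHeightOneSpectrum (P : HeightOneSpectrum R)
    (hR : ∀ r : R, algebraMap R F r ∈
      (Place.ofHeightOneSpectrum (K := K) (F := F) P).toValuationSubring) :
    centre (Place.ofHeightOneSpectrum (K := K) (F := F) P) hR = P.asIdeal := by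
  ext r
  rw [mem_centre, val_ofHeightOneSpectrum_lt_one_iff]

end Dedekind

end Fermat.FF
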