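import Mathlib
import Fermat.Agent.FF.Basic

set_option autoImplicit false

noncomputable section

open AlgebraicCurve IsDedekindDomain WithZero IsLocalRing

namespace Fermat.FF

section Integral

variable {K F : Type*} [Field K] [Field F] [Algebra K F]
variable {R : Type*} [CommRing R] [Algebra R F]

theorem integralClosure_le_of_le {v : Place K F}
    (hR : ∀ r : R, algebraMap R F r ∈ v.toValuationSubring) :
    ∀ b : integralClosure R F, algebraMap (integralClosure R F) F b ∈ v.toValuationSubring := by
  intro b
  have hb : IsIntegral R (b : F) := b.2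
  let : Algebra R v.toValuationSubring :=
    ((algebraMap R F).codRestrict v.toValuationSubring.toSubring hR).toAlgebra
  have : IsScalarTower R v.toValuationSubring F := IsScalarTower.of_algebraMap_eq fun r => rfl
  have hx : IsIntegral v.toValuationSubring (b : F) := hb.tower_top
  obtain ⟨y, hy⟩ := IsIntegrallyClosed.isIntegral_iff.mp hx
  show (b : F) ∈ v.toValuationSubring
  rw [← hy]
  exact y.2

end Integral

section Fiber

variable (K F : Type*) [Field K] [Field F] [Algebra K F]
variable {R : Type*} [CommRing R] [Algebra R F]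

/-- The set of places of `F` centred above the prime element `ϖ` of `R`. -/
def fiberSet (ϖ : R) : Set (Place K F) :=
  {v | (∀ r : R, algebraMap R F r ∈ v.toValuationSubring) ∧
    v.adicValuation (algebraMap R F ϖ) < 1}

end Fiber

section Main

variable {K F : Type*} [Field K] [Field F] [Algebra K F] 
variable {R : Type*} [CommRing R] [IsDomain R] [IsPrincipalIdealRing R] [Algebra K R]
  [Algebra R F] [IsScalarTower K R F]
variable (k : Type*) [Field k] [Algebra R k] [IsFractionRing R k] [Algebra k F]
  [IsScalarTower R k F] [FiniteDimensional k F] [Algebra.IsSeparable k F]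

include k

omit [IsDomain R] [IsPrincipalIdealRing R] [FiniteDimensional k F] [Algebra.IsSeparable k F] in
theorem faithful_of_tower : FaithfulSMul R F := by
  rw [faithfulSMul_iff_algebraMap_injective, IsScalarTower.algebraMap_eq R k F]
  exact (algebraMap k F).injective.comp (IsFractionRing.injective R k)

/-- places above `ϖ` are the same as primes of the integral closure above `(ϖ)`. -/
def fiberEquiv (ϖ : R) (hϖ : Irreducible ϖ) :
    fiberSet K F ϖ ≃ (Ideal.span {ϖ}).primesOver (integralClosure R F) := by
  haveI : FaithfulSMul R F := faithful_of_tower k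
  haveI : IsDedekindDomain (integralClosure R F) := integralClosure.isDedekindDomain R k F
  haveI : IsFractionRing (integralClosure R F) F :=
    integralClosure.isFractionRing_of_finite_extension k F
  have hmax : (Ideal.span {ϖ}).IsMaximal := PrincipalIdealRing.isMaximal_of_irreducible hϖ
  refine
    { toFun := fun v => ⟨centre v.1 (integralClosure_le_of_le v.2.1), centre_isPrime _ _, ⟨?_⟩⟩
      invFun := fun P => ⟨Place.ofHeightOneSpectrum (K := K) (R := integralClosure R F)
        ⟨P.1, P.2.1, ?_⟩, ?_, ?_⟩
      left_inv := ?_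
      right_inv := ?_ }
  · -- lies over
    refine hmax.eq_of_le ?_ ?_
    · intro h
      have h1 : (1 : integralClosure R F) ∈ centre v.1 (integralClosure_le_of_le v.2.1) := by
        have : (1 : R) ∈ Ideal.under R (centre v.1 (integralClosure_le_of_le v.2.1)) := by
          rw [h]; trivial
        rw [Ideal.under_def, Ideal.mem_comap, map_one] at this
        exact this
      exact (centre_isPrime v.1 (integralClosure_le_of_le v.2.1)).ne_top
        ((Ideal.eq_top_iff_one _).mpr h1)
    · rw [Ideal.span_singleton_le_iff_mem, Ideal.under_def, Ideal.mem_comap, mem_centre]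
      exact v.2.2
  · -- ne bot
    intro hbot
    have h1 := P.2.2.over
    have h2 : ϖ ∈ Ideal.under R P.1 := h1 ▸ Ideal.mem_span_singleton_self ϖ
    rw [Ideal.under_def, Ideal.mem_comap, hbot, Ideal.mem_bot] at h2
    exact hϖ.ne_zero ((FaithfulSMul.algebraMap_eq_zero_iff R (integralClosure R F)).mp h2)
  · intro r
    rw [Place.ofHeightOneSpectrum_toValuationSubring, Valuation.mem_valuationSubring_iff,
      IsScalarTower.algebraMap_apply R (integralClosure R F) F]
    exact HeightOneSpectrum.valuation_le_one _ _
  · rw [IsScalarTower.algebraMap_apply R (integralClosure R F) F,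
      val_ofHeightOneSpectrum_lt_one_iff]
    have h1 := P.2.2.over
    have h2 : ϖ ∈ Ideal.under R P.1 := h1 ▸ Ideal.mem_span_singleton_self ϖ
    exact h2
  · intro v
    apply Subtype.ext
    exact (eq_ofHeightOneSpectrum v.1 (integralClosure_le_of_le v.2.1)).symm
  · intro P
    apply Subtype.ext
    exact centre_ofHeightOneSpectrum _ _

theorem fiberEquiv_val (ϖ : R) (hϖ : Irreducible ϖ) (v : fiberSet K F ϖ) :
    ((fiberEquiv (K := K) k ϖ hϖ v : Ideal (integralClosure R F))) =
      centre v.1 (integralClosure_le_of_le v.2.1) := rfl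

theorem fiberSet_finite (ϖ : R) (hϖ : Irreducible ϖ) : (fiberSet K F ϖ).Finite := by
  have : IsDedekindDomain (integralClosure R F) := integralClosure.isDedekindDomain R k F
  have : Module.Finite R (integralClosure R F) := IsIntegralClosure.finite R k F _
  have : Finite ((Ideal.span {ϖ}).primesOver (integralClosure R F)) :=
    Algebra.QuasiFinite.finite_primesOver _
  exact Finite.of_equiv _ (fiberEquiv (K := K) k ϖ hϖ).symm

theorem inertiaDeg_eq_one [IsAlgClosed K] (ϖ : R) (hϖ : Irreducible ϖ)
    (hres : ∀ r : R, ∃ c : K, ϖ ∣ r - algebraMap K R c)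
    (q : (Ideal.span {ϖ}).primesOver (integralClosure R F)) :
    q.1.inertiaDeg R = 1 := by
  have : FaithfulSMul R F := faithful_of_tower k
  have : IsDedekindDomain (integralClosure R F) := integralClosure.isDedekindDomain R k F
  have hmax : (Ideal.span {ϖ}).IsMaximal := PrincipalIdealRing.isMaximal_of_irreducible hϖ
  have hq1 := q.2.1
  have hq2 := q.2.2
  have hfin : Module.Finite R (integralClosure R F) := IsIntegralClosure.finite R k F _
  have hqmax : q.1.IsMaximal := Ideal.IsMaximal.of_liesOver_isMaximal q.1 (Ideal.span {ϖ})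
  rw [Ideal.inertiaDeg_eq_of_isMaximal (Ideal.span {ϖ}) q.1]
  let : Field (R ⧸ Ideal.span {ϖ}) := Ideal.Quotient.field _
  let : Field (integralClosure R F ⧸ q.1) := Ideal.Quotient.field _
  have hbij : Function.Bijective (algebraMap K (R ⧸ Ideal.span {ϖ})) := by
    refine ⟨(algebraMap K (R ⧸ Ideal.span {ϖ})).injective, fun x => ?_⟩
    obtain ⟨r, rfl⟩ := Ideal.Quotient.mk_surjective x
    obtain ⟨c, hc⟩ := hres r
    refine ⟨c, ?_⟩
    rw [IsScalarTower.algebraMap_apply K R (R ⧸ Ideal.span {ϖ})]
    symm
    rw [← sub_eq_zero]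
    change Ideal.Quotient.mk _ r - Ideal.Quotient.mk _ (algebraMap K R c) = 0
    rw [← map_sub, Ideal.Quotient.eq_zero_iff_mem, Ideal.mem_span_singleton]
    exact hc
  have hKR : Algebra.IsIntegral K (R ⧸ Ideal.span {ϖ}) := by
    refine ⟨fun x => ?_⟩
    obtain ⟨c, rfl⟩ := hbij.2 x
    exact isIntegral_algebraMap
  have htow : IsScalarTower K (R ⧸ Ideal.span {ϖ}) (integralClosure R F ⧸ q.1) := by
    refine IsScalarTower.of_algebraMap_eq fun c => ?_
    rw [IsScalarTower.algebraMap_apply K R (R ⧸ Ideal.span {ϖ}),
      ← IsScalarTower.algebraMap_apply R (R ⧸ Ideal.span {ϖ}) (integralClosure R F ⧸ q.1),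
      ← IsScalarTower.algebraMap_apply K R (integralClosure R F ⧸ q.1)]
  have hint2 : Algebra.IsIntegral (R ⧸ Ideal.span {ϖ}) (integralClosure R F ⧸ q.1) := inferInstance
  have hint3 : Algebra.IsIntegral K (integralClosure R F ⧸ q.1) :=
    Algebra.IsIntegral.trans (R ⧸ Ideal.span {ϖ})
  have hb3 : Function.Bijective (algebraMap K (integralClosure R F ⧸ q.1)) :=
    IsAlgClosed.algebraMap_bijective_of_isIntegral
  have hb2 : Function.Bijective (algebraMap (R ⧸ Ideal.span {ϖ}) (integralClosure R F ⧸ q.1)) := by
    refine ⟨FaithfulSMul.algebraMap_injective (R ⧸ Ideal.span {ϖ}) (integralClosure R F ⧸ q.1), fun x => ?_⟩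
    obtain ⟨c, rfl⟩ := hb3.2 x
    exact ⟨algebraMap K _ c, (IsScalarTower.algebraMap_apply K (R ⧸ Ideal.span {ϖ}) _ c).symm⟩
  rw [← Module.finrank_self (R ⧸ Ideal.span {ϖ})]
  exact ((AlgEquiv.ofBijective (Algebra.ofId _ _) hb2).toLinearEquiv.finrank_eq).symm

theorem sum_ord_fiber [IsAlgClosed K] (ϖ : R) (hϖ : Irreducible ϖ)
    (hres : ∀ r : R, ∃ c : K, ϖ ∣ r - algebraMap K R c) :
    ∑ v ∈ (fiberSet_finite (K := K) (F := F) k ϖ hϖ).toFinset, v.ord (algebraMap R F ϖ) =
      Module.finrank k F := by
  classical
  have : FaithfulSMul R F := faithful_of_tower k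
  have : IsDedekindDomain (integralClosure R F) := integralClosure.isDedekindDomain R k F
  have : IsFractionRing (integralClosure R F) F :=
    integralClosure.isFractionRing_of_finite_extension k F
  have : Module.Finite R (integralClosure R F) := IsIntegralClosure.finite R k F _
  have : Module.IsTorsionFree R F := inferInstance
  have : Module.Free R (integralClosure R F) := IsIntegralClosure.module_free R k F _
  have hmax : (Ideal.span {ϖ}).IsMaximal := PrincipalIdealRing.isMaximal_of_irreducible hϖ
  have hfin : Finite ((Ideal.span {ϖ}).primesOver (integralClosure R F)) :=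
    Algebra.QuasiFinite.finite_primesOver _
  let : Fintype ((Ideal.span {ϖ}).primesOver (integralClosure R F)) := Fintype.ofFinite _
  let : Fintype (fiberSet K F ϖ) := (fiberSet_finite (K := K) (F := F) k ϖ hϖ).fintype
  have h1 := Ideal.sum_ramification_inertia_eq_finrank (Ideal.span {ϖ}) (integralClosure R F)
  rw [IsIntegralClosure.rank R k F (integralClosure R F)] at h1
  rw [← h1]
  push_cast
  have h2 : ∑ v ∈ (fiberSet_finite (K := K) (F := F) k ϖ hϖ).toFinset, v.ord (algebraMap R F ϖ) =
      ∑ v : fiberSet K F ϖ, v.1.ord (algebraMap R F ϖ) := by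
    rw [← Finset.sum_coe_sort]
    exact Fintype.sum_equiv (Equiv.subtypeEquivRight (by simp)) _ _ (fun _ => rfl)
  rw [h2]
  refine Fintype.sum_equiv (fiberEquiv (K := K) k ϖ hϖ) _ _ fun v => ?_
  rw [inertiaDeg_eq_one k ϖ hϖ hres, Nat.cast_one, mul_one]
  have hq1 := (fiberEquiv (K := K) k ϖ hϖ v).2.1
  have hq2 := (fiberEquiv (K := K) k ϖ hϖ v).2.2
  have hinj : Function.Injective (algebraMap R (integralClosure R F)) :=
    FaithfulSMul.algebraMap_injective _ _
  have hne : algebraMap R (integralClosure R F) ϖ ≠ 0 := by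
    rw [Ne, FaithfulSMul.algebraMap_eq_zero_iff]
    exact hϖ.ne_zero
  have hmap : (Ideal.span {ϖ}).map (algebraMap R (integralClosure R F)) =
      Ideal.span {algebraMap R (integralClosure R F) ϖ} := by
    rw [Ideal.map_span, Set.image_singleton]
  rw [Ideal.IsDedekindDomain.ramificationIdx_eq_multiplicity (Ideal.span {ϖ}) _
    (by rw [hmap]; simpa using hne), hmap]
  have h3 := ord_ofHeightOneSpectrum_algebraMap (K := K) (F := F)
    ⟨centre v.1 (integralClosure_le_of_le v.2.1), centre_isPrime _ _, centre_ne_bot _ _⟩ hne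
  rw [← eq_ofHeightOneSpectrum v.1 (integralClosure_le_of_le v.2.1),
    ← IsScalarTower.algebraMap_apply R (integralClosure R F) F] at h3
  exact h3

end Main

end Fermat.FF
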