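import Mathlib
import Fermat.Agent.FF.Fiber

set_option autoImplicit false

noncomputable section

open AlgebraicCurve IsDedekindDomain WithZero IsLocalRing Polynomial IntermediateField

namespace Fermat.FF

/-- `F/K` is an algebraic function field of one variable: a finite extension of `K(x)` with `x`
transcendental. -/
class IsFF1 (K F : Type*) [Field K] [Field F] [Algebra K F] : Prop where
  exists_finite : ∃ x : F, Transcendental K x ∧ FiniteDimensional K⟮x⟯ F

section FF1

open IntermediateField.algebraAdjoinAdjoin

variable (K F : Type*) [Field K] [Field F] [Algebra K F] [h : IsFF1 K F]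

theorem IsFF1.trdeg_eq_one : Algebra.trdeg K F = 1 := by
  obtain ⟨x, hx, hfin⟩ := h.exists_finite
  have h1 : AlgebraicIndependent K (fun _ : Unit => x) :=
    algebraicIndependent_unique_type_iff.mpr hx
  have h2 : IsTranscendenceBasis K (fun _ : Unit => x) := by
    have h3 : Algebra.IsAlgebraic (Algebra.adjoin K {x}) K⟮x⟯ := inferInstance
    have h4 : Algebra.IsAlgebraic K⟮x⟯ F := inferInstance
    have h5 : Algebra.IsAlgebraic (Algebra.adjoin K {x}) F := 
      Algebra.IsAlgebraic.trans (Algebra.adjoin K {x}) K⟮x⟯ F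
    refine h1.isTranscendenceBasis_iff_isAlgebraic.mpr ?_
    rw [Set.range_const]
    exact h5
  have h3 := h2.lift_cardinalMk_eq_trdeg
  simpa using h3.symm

theorem IsFF1.essFiniteType : Algebra.EssFiniteType K F := by
  obtain ⟨x, hx, hfin⟩ := h.exists_finite
  have h1 : Algebra.EssFiniteType K K⟮x⟯ :=
    IntermediateField.essFiniteType_iff.mpr ⟨{x}, by simp⟩
  exact Algebra.EssFiniteType.comp K K⟮x⟯ F

variable {K F}

theorem IsFF1.finiteDimensional_adjoin {y : F} (hy : Transcendental K y) :
    FiniteDimensional K⟮y⟯ F := by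
  have h1 : AlgebraicIndependent K (fun _ : Unit => y) :=
    algebraicIndependent_unique_type_iff.mpr hy
  have h2 : IsTranscendenceBasis K (fun _ : Unit => y) := by
    refine h1.isTranscendenceBasis_of_lift_trdeg_le_of_finite ?_
    rw [IsFF1.trdeg_eq_one K F]
    simp
  have h3 : Algebra.IsAlgebraic (Algebra.adjoin K {y}) F := by
    have := h2.isAlgebraic
    rwa [Set.range_const] at this
  have h4 : Algebra.IsAlgebraic K⟮y⟯ F :=
    Algebra.IsAlgebraic.extendScalars (R := Algebra.adjoin K {y})
      (FaithfulSMul.algebraMap_injective (Algebra.adjoin K {y}) K⟮y⟯)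
  have h5 : Algebra.EssFiniteType K F := IsFF1.essFiniteType K F
  have h6 : Algebra.EssFiniteType K⟮y⟯ F := Algebra.EssFiniteType.of_comp K K⟮y⟯ F
  obtain ⟨s, hs⟩ := IntermediateField.fg_top K⟮y⟯ F
  have h7 : FiniteDimensional K⟮y⟯ (IntermediateField.adjoin K⟮y⟯ (s : Set F)) :=
    IntermediateField.finiteDimensional_adjoin fun x _ => Algebra.IsIntegral.isIntegral x
  rw [hs] at h7
  exact Module.Finite.equiv IntermediateField.topEquiv.toLinearEquiv

end FF1

section SumOrd

open IntermediateField.algebraAdjoinAdjoin

variable {K F : Type*} [Field K] [Field F] [Algebra K F]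

theorem adjoin_isPrincipalIdealRing {y : F} (hy : Transcendental K y) :
    IsPrincipalIdealRing (Algebra.adjoin K {y}) :=
  IsPrincipalIdealRing.of_surjective (Polynomial.algEquivOfTranscendental K y hy).toRingEquiv.toRingHom
    (Polynomial.algEquivOfTranscendental K y hy).surjective

/-- the element `y - a` of `K[y]`. -/
def shiftGen (y : F) (a : K) : Algebra.adjoin K {y} :=
  ⟨y, Algebra.self_mem_adjoin_singleton K y⟩ - algebraMap K _ a

@[simp]
theorem algebraMap_shiftGen (y : F) (a : K) :
    algebraMap (Algebra.adjoin K {y}) F (shiftGen y a) = y - algebraMap K F a := rfl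

theorem algEquivOfTranscendental_X_sub_C {y : F} (hy : Transcendental K y) (a : K) :
    Polynomial.algEquivOfTranscendental K y hy (X - C a) = shiftGen y a := by
  apply Subtype.ext
  rw [Polynomial.algEquivOfTranscendental_apply]
  simp [shiftGen]

theorem shiftGen_irreducible {y : F} (hy : Transcendental K y) (a : K) :
    Irreducible (shiftGen y a) := by
  rw [← algEquivOfTranscendental_X_sub_C hy a,
    MulEquiv.irreducible_iff (Polynomial.algEquivOfTranscendental K y hy)]
  exact irreducible_X_sub_C a

theorem shiftGen_res {y : F} (hy : Transcendental K y) (a : K) (r : Algebra.adjoin K {y}) :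
    ∃ c : K, shiftGen y a ∣ r - algebraMap K _ c := by
  obtain ⟨P, rfl⟩ := (Polynomial.algEquivOfTranscendental K y hy).surjective r
  refine ⟨P.eval a, ?_⟩
  have h1 : (X - C a) ∣ P - C (P.eval a) := by
    rw [dvd_iff_isRoot]
    simp
  obtain ⟨Q, hQ⟩ := h1
  refine ⟨Polynomial.algEquivOfTranscendental K y hy Q, ?_⟩
  rw [← algEquivOfTranscendental_X_sub_C hy a, ← map_mul, ← hQ, map_sub]
  congr 1
  rw [← AlgEquiv.commutes (Polynomial.algEquivOfTranscendental K y hy)]
  rfl

theorem fiberSet_shiftGen (y : F) (a : K) :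
    fiberSet K F (shiftGen y a) = {v | v.adicValuation (y - algebraMap K F a) < 1} := by
  ext v
  simp only [fiberSet, algebraMap_shiftGen, Set.mem_ofPred_eq, and_iff_right_iff_imp]
  intro h r
  have h1 : y ∈ v.toValuationSubring := by
    have h2 : y - algebraMap K F a ∈ v.toValuationSubring := (mem_iff_val_le_one v _).mpr h.le
    have h3 := add_mem h2 (v.algebraMap_mem' a)
    simpa using h3
  have h2 : Algebra.adjoin K {y} ≤
      { v.toValuationSubring.toSubring.toSubsemiring with
        algebraMap_mem' := v.algebraMap_mem' } := by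
    apply Algebra.adjoin_le
    rintro _ rfl
    exact h1
  exact h2 r.2

variable [IsFF1 K F]

theorem posSet_finite' [CharZero K] {y : F} (hy : Transcendental K y) (a : K) :
    {v : Place K F | v.adicValuation (y - algebraMap K F a) < 1}.Finite := by
  have := adjoin_isPrincipalIdealRing hy
  have := IsFF1.finiteDimensional_adjoin hy
  rw [← fiberSet_shiftGen]
  exact fiberSet_finite K⟮y⟯ _ (shiftGen_irreducible hy a)

theorem sum_ord_sub_eq [CharZero K] [IsAlgClosed K] {y : F} (hy : Transcendental K y) (a : K) :
    ∑ v ∈ (posSet_finite' hy a).toFinset, v.ord (y - algebraMap K F a) =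
      Module.finrank K⟮y⟯ F := by
  have := adjoin_isPrincipalIdealRing hy
  have := IsFF1.finiteDimensional_adjoin hy
  rw [← sum_ord_fiber (K := K) K⟮y⟯ _ (shiftGen_irreducible hy a) (shiftGen_res hy a)]
  refine Finset.sum_congr ?_ fun v _ => rfl
  ext v
  simp only [Set.Finite.mem_toFinset]
  rw [fiberSet_shiftGen]

end SumOrd

end Fermat.FF
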