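import Mathlib
import Fermat.Agent.FF.GenNagata
import Fermat.Agent.FF.Line

set_option autoImplicit false

noncomputable section

open Polynomial AlgebraicCurve IsDedekindDomain

namespace Fermat.FF.Gen

section Transfer

variable {K R : Type*} (k L : Type*) [Field K] [CommRing R] [Field k] [Field L] [Algebra R k]
  [IsFractionRing R k] [Algebra k L] [Algebra R L] [IsScalarTower R k L] [FiniteDimensional k L]

include k in
theorem finite_integralClosure_of_ringEquiv (e : K[X] ≃+* R) :
    Module.Finite R (integralClosure R L) := by
  let _ : Algebra K[X] R := e.toRingHom.toAlgebra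
  let _ : Algebra K[X] k := ((algebraMap R k).comp e.toRingHom).toAlgebra
  let _ : Algebra K[X] L := ((algebraMap R L).comp e.toRingHom).toAlgebra
  have : IsScalarTower K[X] R L := IsScalarTower.of_algebraMap_eq fun _ => rfl
  have : IsScalarTower K[X] k L := IsScalarTower.of_algebraMap_eq fun x => by
    show algebraMap R L (e x) = algebraMap k L (algebraMap R k (e x))
    rw [← IsScalarTower.algebraMap_apply]
  have : IsFractionRing K[X] k := by
    have := (IsFractionRing.isFractionRing_iff_of_base_ringEquiv (S := k) e.symm).mp inferInstance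
    exact this
  have h1 : Module.Finite K[X] (integralClosure K[X] L) := finite_integralClosure_polynomial K k L
  let g : integralClosure K[X] L →ₗ[K[X]] integralClosure R L :=
    { toFun := fun x => ⟨(x : L), x.2.tower_top⟩
      map_add' := fun x y => rfl
      map_smul' := fun c x => rfl }
  have h2 : Function.Surjective g := fun x => by
    have h3 : Algebra.IsIntegral K[X] R := ⟨fun r => by
      obtain ⟨s, rfl⟩ := e.surjective r
      exact isIntegral_algebraMap (R := K[X]) (x := s)⟩
    exact ⟨⟨(x : L), isIntegral_trans (R := K[X]) (x : L) x.2⟩, rfl⟩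
  have h4 : Module.Finite K[X] (integralClosure R L) := Module.Finite.of_surjective g h2
  exact Module.Finite.of_restrictScalars_finite K[X] R _

end Transfer

section Adjoin

open IntermediateField IntermediateField.algebraAdjoinAdjoin

variable {K F : Type*} [Field K] [Field F] [Algebra K F]

theorem finite_integralClosure_adjoin {y : F} (hy : Transcendental K y) (L : Type*) [Field L]
    [Algebra F L] [FiniteDimensional K⟮y⟯ L] : 
    Module.Finite (Algebra.adjoin K {y}) (integralClosure (Algebra.adjoin K {y}) L) := 
  finite_integralClosure_of_ringEquiv K⟮y⟯ L (Polynomial.algEquivOfTranscendental K y hy).toRingEquiv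

end Adjoin

section Dedekind

variable (R k L : Type*) [CommRing R] [IsDedekindDomain R] [Field k] [Field L] [Algebra R k]
  [IsFractionRing R k] [Algebra k L] [Algebra R L] [IsScalarTower R k L] [FiniteDimensional k L]
  [Module.Finite R (integralClosure R L)]

include k in
/-- The integral closure of a Dedekind domain in a finite extension is Dedekind as soon as it is
a finite module. -/
theorem isDedekindDomain_integralClosure : IsDedekindDomain (integralClosure R L) := by
  have h1 : IsFractionRing (integralClosure R L) L :=
    integralClosure.isFractionRing_of_finite_extension k L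
  have h2 : IsIntegrallyClosed (integralClosure R L) :=
    integralClosure.isIntegrallyClosedOfFiniteExtension k
  have h3 : IsNoetherianRing (integralClosure R L) :=
    isNoetherianRing_iff.mpr (isNoetherian_of_tower R
      (inferInstance : IsNoetherian R (integralClosure R L)))
  have h4 : Ring.DimensionLEOne (integralClosure R L) :=
    Ring.DimensionLEOne.of_isIntegral R _
  exact { h3, h4, h2 with : IsDedekindDomain (integralClosure R L) }

end Dedekind

section Local

variable {K F : Type*} [Field K] [Field F] [Algebra K F]
variable {A : Type*} [CommRing A] [IsDedekindDomain A] [Algebra A F] [IsFractionRing A F]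
  [Algebra K A] [IsScalarTower K A F]

include K in
theorem exists_div_of_mem (w : Place K F)
    (hA : ∀ r : A, algebraMap A F r ∈ w.toValuationSubring) {x : F}
    (hx : x ∈ w.toValuationSubring) :
    ∃ a s : A, w.adicValuation (algebraMap A F s) = 1 ∧ 
      algebraMap A F s * x = algebraMap A F a := by
  rw [eq_ofHeightOneSpectrum w hA] at hx
  rw [Place.ofHeightOneSpectrum_toValuationSubring,
    ← HeightOneSpectrum.valuationSubringAtPrime_eq_valuationSubring] at hx
  obtain ⟨a, s, hs, rfl⟩ := hx
  have hs' : s ∉ centre w hA := hs
  rw [mem_centre, not_lt] at hs'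
  have h2 : w.adicValuation (algebraMap A F s) = 1 :=
    le_antisymm (w.adicValuation_le_one_of_mem (hA s)) hs'
  refine ⟨a, s, h2, ?_⟩
  have h3 : algebraMap A F s ≠ 0 := by
    intro h
    rw [h, map_zero] at h2
    exact zero_ne_one h2
  rw [mul_comm, mul_assoc, inv_mul_cancel₀ h3, mul_one]

/-- common denominators. -/
theorem exists_common_denominator (w : Place K F)
    (hA : ∀ r : A, algebraMap A F r ∈ w.toValuationSubring) (P : F[X])
    (hP : ∀ i, P.coeff i ∈ w.toValuationSubring) :
    ∃ s : A, w.adicValuation (algebraMap A F s) = 1 ∧ 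
      ∀ i, ∃ a : A, algebraMap A F s * P.coeff i = algebraMap A F a := by
  classical
  have h1 : ∀ T : Finset ℕ, ∃ s : A, w.adicValuation (algebraMap A F s) = 1 ∧ 
      ∀ i ∈ T, ∃ a : A, algebraMap A F s * P.coeff i = algebraMap A F a := by
    intro T
    induction T using Finset.induction_on with
    | empty => exact ⟨1, by simp, by simp⟩
    | insert i T hi ih =>
      obtain ⟨s, hs, h⟩ := ih
      obtain ⟨a, t, ht, ha⟩ := exists_div_of_mem w hA (hP i)
      refine ⟨s * t, by rw [map_mul, map_mul, hs, ht, one_mul], fun j hj => ?_⟩
      rcases Finset.mem_insert.mp hj with rfl | hj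
      · exact ⟨s * a, by rw [map_mul, map_mul, mul_assoc, ha]⟩
      · obtain ⟨b, hb⟩ := h j hj
        exact ⟨t * b, by rw [map_mul, map_mul, ← hb]; ring⟩
  obtain ⟨s, hs, h⟩ := h1 P.support
  refine ⟨s, hs, fun i => ?_⟩
  by_cases hi : i ∈ P.support
  · exact h i hi
  · rw [notMem_support_iff] at hi
    exact ⟨0, by rw [hi, mul_zero, map_zero]⟩

variable {F' : Type*} [Field F'] [Algebra F F'] [Algebra A F'] [IsScalarTower A F F']

theorem exists_unit_mul_integral (w : Place K F)
    (hA : ∀ r : A, algebraMap A F r ∈ w.toValuationSubring) {b : F'}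
    (hb : IsIntegral w.toValuationSubring b) :
    ∃ s : A, w.adicValuation (algebraMap A F s) = 1 ∧ IsIntegral A (algebraMap A F' s * b) := by
  obtain ⟨P, hP, hPb⟩ := hb
  obtain ⟨s, hs, h⟩ := exists_common_denominator w hA (P.map (algebraMap w.toValuationSubring F))
    (fun i => by rw [coeff_map]; exact (P.coeff i).2)
  choose a ha using h
  refine ⟨s, hs, ?_⟩
  set P' := P.map (algebraMap w.toValuationSubring F) with hP'
  have hmon : P'.Monic := hP.map _
  set Q := P'.scaleRoots (algebraMap A F s) with hQ
  have hQmon : Q.Monic := (monic_scaleRoots_iff _).mpr hmon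
  have hlift : Q ∈ Polynomial.lifts (algebraMap A F) := by
    rw [Polynomial.lifts_iff_coeff_lifts]
    intro i
    rw [hQ, coeff_scaleRoots]
    rcases lt_trichotomy i P'.natDegree with hi | hi | hi
    · obtain ⟨m, hm⟩ : ∃ m, P'.natDegree - i = m + 1 := ⟨P'.natDegree - i - 1, by omega⟩
      rw [hm, pow_succ']
      refine ⟨a i * s ^ m, ?_⟩
      rw [map_mul, map_pow, ← ha i]
      ring
    · refine ⟨1, ?_⟩
      rw [hi, Nat.sub_self, pow_zero, mul_one, map_one]
      exact hmon.coeff_natDegree.symm
    · refine ⟨0, ?_⟩
      rw [coeff_eq_zero_of_natDegree_lt hi, zero_mul, map_zero]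
  obtain ⟨q, hq, -, hqm⟩ := lifts_and_natDegree_eq_and_monic hlift hQmon
  refine ⟨q, hqm, ?_⟩
  have h1 : eval₂ (algebraMap A F') (algebraMap A F' s * b) q =
      eval₂ (algebraMap F F') (algebraMap F F' (algebraMap A F s) * b) Q := by
    rw [← hq, eval₂_map, ← IsScalarTower.algebraMap_eq, ← IsScalarTower.algebraMap_apply]
  rw [h1, hQ]
  apply scaleRoots_eval₂_eq_zero
  rw [hP', eval₂_map]
  exact hPb

end Local

section Place

variable {K F : Type*} [Field K] [Field F] [Algebra K F]

theorem mem_of_isAlgebraic (v : Place K F) {t : F} (ht : IsAlgebraic K t) :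
    t ∈ v.toValuationSubring :=
  integralClosure_le_of_le (R := K) v.algebraMap_mem' ⟨t, ht.isIntegral⟩

theorem ord_eq_zero_of_isAlgebraic (v : Place K F) {t : F} (ht : IsAlgebraic K t) :
    v.ord t = 0 := by
  have h1 := ord_nonneg_of_mem v (mem_of_isAlgebraic v ht)
  have h2 := ord_nonneg_of_mem v (mem_of_isAlgebraic v ht.inv)
  rw [v.ord_inv] at h2
  omega

theorem transcendental_of_ord_ne_zero {v : Place K F} {t : F} (ht : v.ord t ≠ 0) :
    Transcendental K t := fun h => ht (ord_eq_zero_of_isAlgebraic v h)

theorem adjoin_le_of_mem (v : Place K F) {t : F} (ht : t ∈ v.toValuationSubring)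
    (r : Algebra.adjoin K {t}) : (r : F) ∈ v.toValuationSubring := by
  have h2 : Algebra.adjoin K {t} ≤
      { v.toValuationSubring.toSubring.toSubsemiring with
        algebraMap_mem' := v.algebraMap_mem' } := by
    apply Algebra.adjoin_le
    rintro _ rfl
    exact ht
  exact h2 r.2

open IntermediateField IntermediateField.algebraAdjoinAdjoin

/-- **Local finiteness**: for a finite extension `F'/F` of function fields, the integral closure
of the valuation ring of a place of `F` in `F'` is a finite module. No separability. -/
theorem finite_integralClosure_valuationSubring [IsFF1 K F] (F' : Type*) [Field F'] [Algebra F F']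
    [FiniteDimensional F F'] (v : Place K F) :
    Module.Finite v.toValuationSubring (integralClosure v.toValuationSubring F') := by
  classical
  obtain ⟨t, ht⟩ := exists_ord_eq_one v
  have htr : Transcendental K t := transcendental_of_ord_ne_zero (by rw [ht]; exact one_ne_zero)
  have htm : t ∈ v.toValuationSubring :=
    (mem_iff_ord v (ne_zero_of_ord_ne_zero v (by rw [ht]; exact one_ne_zero))).mpr (by omega)
  have hfin1 : FiniteDimensional K⟮t⟯ F := IsFF1.finiteDimensional_adjoin htr
  have hfin2 : FiniteDimensional K⟮t⟯ F' := FiniteDimensional.trans K⟮t⟯ F F'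
  set R := Algebra.adjoin K {t} with hR
  have hPID : IsPrincipalIdealRing R := adjoin_isPrincipalIdealRing htr
  have hA0 : Module.Finite R (integralClosure R F) := finite_integralClosure_adjoin htr F
  have hA' : Module.Finite R (integralClosure R F') := finite_integralClosure_adjoin htr F'
  set A := integralClosure R F with hA
  have hA1 : IsDedekindDomain A := isDedekindDomain_integralClosure R K⟮t⟯ F
  have hA2 : IsFractionRing A F := integralClosure.isFractionRing_of_finite_extension K⟮t⟯ F
  have hAv : ∀ r : A, algebraMap A F r ∈ v.toValuationSubring :=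
    integralClosure_le_of_le (R := R) (adjoin_le_of_mem v htm)
  set O := v.toValuationSubring with hO
  set B := integralClosure O F' with hB
  let _ : Algebra R O := ((algebraMap R F).codRestrict O.toSubring
    (fun r => adjoin_le_of_mem v htm r)).toAlgebra
  have : IsScalarTower R O F := IsScalarTower.of_algebraMap_eq fun _ => rfl
  have htow : IsScalarTower R O F' := IsScalarTower.of_algebraMap_eq fun x => by
    rw [IsScalarTower.algebraMap_apply R F F', IsScalarTower.algebraMap_apply O F F']
    rfl
  obtain ⟨S, hS⟩ := hA'.fg_top
  let ι : integralClosure R F' → B := fun x => ⟨(x : F'), x.2.tower_top⟩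
  refine ⟨⟨S.image ι, ?_⟩⟩
  rw [eq_top_iff]
  rintro b -
  obtain ⟨s, hs, hsb⟩ := exists_unit_mul_integral v hAv b.2
  have hsb' : IsIntegral R (algebraMap A F' s * (b : F')) := isIntegral_trans (R := R) _ hsb
  have hs0 : algebraMap A F s ≠ 0 := by
    intro h
    rw [h, map_zero] at hs
    exact zero_ne_one hs
  -- the inverse of `s` in `O`
  have hsinv : (algebraMap A F s)⁻¹ ∈ O := by
    rw [hO, mem_iff_val_le_one, map_inv₀, hs, inv_one]
  have key : ∀ x : integralClosure R F', ι x ∈ Submodule.span O ((S.image ι : Finset B) : Set B) := by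
    intro x
    have hx : x ∈ Submodule.span R (S : Set (integralClosure R F')) := hS ▸ Submodule.mem_top
    induction hx using Submodule.span_induction with
    | mem x hx => exact Submodule.subset_span (by simpa using ⟨_, _, hx, rfl⟩)
    | zero =>
      have : ι 0 = 0 := rfl
      rw [this]
      exact Submodule.zero_mem _
    | add x y _ _ hx hy =>
      have : ι (x + y) = ι x + ι y := rfl
      rw [this]
      exact Submodule.add_mem _ hx hy
    | smul c x _ hx =>
      have : ι (c • x) = (algebraMap R O c) • ι x := by
        apply Subtype.ext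
        show c • (x : F') = (algebraMap R O c) • (x : F')
        rw [algebraMap_smul]
      rw [this]
      exact Submodule.smul_mem _ _ hx
  have hb : b = (⟨_, hsinv⟩ : O) • ι ⟨_, hsb'⟩ := by
    apply Subtype.ext
    show (b : F') = (⟨_, hsinv⟩ : O) • (algebraMap A F' s * (b : F'))
    rw [Algebra.smul_def, IsScalarTower.algebraMap_apply O F F', IsScalarTower.algebraMap_apply A F F',
      ← mul_assoc, ← map_mul]
    show (b : F') = algebraMap F F' ((algebraMap A F s)⁻¹ * algebraMap A F s) * b
    rw [inv_mul_cancel₀ hs0, map_one, one_mul]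
  rw [hb]
  exact Submodule.smul_mem _ _ (key _)

end Place

end Fermat.FF.Gen
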