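import Mathlib
import Fermat.Agent.FF.Line
import Fermat.Prelude.Def_AlgebraicCurve_IsCurveOver

set_option autoImplicit false

noncomputable section

open AlgebraicCurve IsDedekindDomain WithZero IsLocalRing Polynomial IntermediateField

namespace Fermat.FF

section Residue

variable {K F : Type*} [Field K] [Field F] [Algebra K F] [IsAlgClosed K]

theorem transcendental_of_not_mem_range {y : F} (hy : y ∉ Set.range (algebraMap K F)) :
    Transcendental K y := by
  intro halg
  apply hy
  have h1 := IsAlgClosed.degree_eq_one_of_irreducible K (minpoly.irreducible halg.isIntegral)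
  exact minpoly.mem_range_of_degree_eq_one K y h1

theorem transcendental_of_ord_ne_zero {v : Place K F} {y : F} (hy : v.ord y ≠ 0) :
    Transcendental K y := by
  apply transcendental_of_not_mem_range
  rintro ⟨a, rfl⟩
  exact hy (ord_algebraMap v a)

theorem exists_const_of_mem [IsFF1 K F] (v : Place K F) {u : F} (hu : u ∈ v.toValuationSubring) :
    ∃ c : K, v.adicValuation (u - algebraMap K F c) < 1 := by
  by_cases hmem : u ∈ Set.range (algebraMap K F)
  · obtain ⟨c, rfl⟩ := hmem
    exact ⟨c, by simp⟩
  have htr := transcendental_of_not_mem_range hmem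
  -- there is a nonzero polynomial with `v (P u) < 1`
  by_contra hcon
  push Not at hcon
  have hval : ∀ c : K, v.adicValuation (u - algebraMap K F c) = 1 := fun c =>
    le_antisymm (v.adicValuation_le_one_of_mem (sub_mem hu (v.algebraMap_mem' c))) (hcon c)
  have hP : ∀ P : K[X], P ≠ 0 → v.adicValuation (aeval u P) = 1 := by
    intro P hP0
    have hs := IsAlgClosed.splits P
    have h1 := hs.eq_prod_roots
    rw [h1]
    simp only [map_mul, aeval_C, map_multiset_prod, Multiset.map_map, Function.comp_def,
      map_sub, aeval_X]
    have h2 : v.adicValuation (algebraMap K F P.leadingCoeff) = 1 := by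
      have hne : algebraMap K F P.leadingCoeff ≠ 0 := by
        simpa using hP0
      rw [← ord_eq_zero_iff_val v hne, ord_algebraMap]
    rw [h2, one_mul]
    have h3 : (P.roots.map fun x => v.adicValuation (u - algebraMap K F x)) =
        P.roots.map fun _ => 1 := Multiset.map_congr rfl fun x _ => hval x
    rw [h3]
    simp
  have hfin := IsFF1.finiteDimensional_adjoin htr
  -- all of `K(u)` is in `O_v`
  have hKu : ∀ z : K⟮u⟯, algebraMap K⟮u⟯ F z ∈ v.toValuationSubring := by
    rintro ⟨z, hz⟩
    obtain ⟨r, s, rfl⟩ := (IntermediateField.mem_adjoin_simple_iff K z).mp hz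
    show aeval u r / aeval u s ∈ v.toValuationSubring
    rw [mem_iff_val_le_one]
    by_cases hr : r = 0
    · simp [hr]
    by_cases hs : s = 0
    · simp [hs]
    rw [map_div₀, hP r hr, hP s hs, div_one]
  apply v.ne_top'
  refine SetLike.ext fun x => ⟨fun _ => ValuationSubring.mem_top x, fun _ => ?_⟩
  have hx : IsIntegral K⟮u⟯ x := Algebra.IsIntegral.isIntegral x
  exact integralClosure_le_of_le (R := K⟮u⟯) hKu ⟨x, hx⟩

theorem bijective_algebraMap_residueField [IsFF1 K F] (v : Place K F) :
    Function.Bijective (algebraMap K v.ResidueField) := by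
  refine ⟨(algebraMap K v.ResidueField).injective, fun x => ?_⟩
  obtain ⟨u, rfl⟩ := IsLocalRing.residue_surjective x
  obtain ⟨c, hc⟩ := exists_const_of_mem v u.2
  refine ⟨c, ?_⟩
  have h1 : algebraMap K v.ResidueField c =
      IsLocalRing.residue v.toValuationSubring (algebraMap K v.toValuationSubring c) := rfl
  rw [h1, eq_comm, ← sub_eq_zero, ← map_sub, IsLocalRing.residue_eq_zero_iff,
    mem_maximalIdeal_iff]
  exact hc

theorem finite_residueField [IsFF1 K F] (v : Place K F) : Module.Finite K v.ResidueField :=
  Module.Finite.of_surjective (Algebra.linearMap K v.ResidueField)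
    (bijective_algebraMap_residueField v).2

theorem deg_eq_one [IsFF1 K F] (v : Place K F) : v.deg = 1 := by
  have := finite_residueField v
  exact v.deg_eq_one_of_isAlgClosed_of_finite

end Residue

section Principal

variable {K F : Type*} [Field K] [Field F] [Algebra K F] [IsAlgClosed K] [CharZero K] [IsFF1 K F]

omit [IsAlgClosed K] in
theorem posSet_finite {y : F} (hy : Transcendental K y) :
    {v : Place K F | 0 < v.ord y}.Finite := by
  refine (posSet_finite' hy 0).subset fun v hv => ?_
  simp only [Set.mem_ofPred_eq, map_zero, sub_zero] at hv ⊢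
  rw [val_lt_one_iff]
  exact Or.inr hv

omit [IsAlgClosed K] [CharZero K] [IsFF1 K F] in
theorem transcendental_ne_zero {y : F} (hy : Transcendental K y) : y ≠ 0 := by
  rintro rfl
  exact hy isAlgebraic_zero

theorem sum_pos_ord {y : F} (hy : Transcendental K y) :
    ∑ v ∈ (posSet_finite hy).toFinset, v.ord y = Module.finrank K⟮y⟯ F := by
  rw [← sum_ord_sub_eq hy 0]
  refine Finset.sum_congr ?_ fun v _ => by simp
  ext v
  simp only [Set.Finite.mem_toFinset, Set.mem_ofPred_eq, map_zero, sub_zero]
  rw [val_lt_one_iff, or_iff_right (transcendental_ne_zero hy)]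

omit [IsAlgClosed K] [CharZero K] [IsFF1 K F] in
theorem transcendental_inv {y : F} (hy : Transcendental K y) : Transcendental K y⁻¹ := by
  intro h
  exact hy (by simpa using h.inv)

omit [IsAlgClosed K] [CharZero K] [IsFF1 K F] in
theorem adjoin_inv (y : F) : K⟮y⁻¹⟯ = K⟮y⟯ := by
  apply le_antisymm
  · rw [IntermediateField.adjoin_simple_le_iff]
    exact inv_mem (IntermediateField.mem_adjoin_simple_self K y)
  · rw [IntermediateField.adjoin_simple_le_iff]
    have := inv_mem (IntermediateField.mem_adjoin_simple_self K y⁻¹)
    rwa [inv_inv] at this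

theorem sum_pos_ord_inv {y : F} (hy : Transcendental K y) :
    ∑ v ∈ (posSet_finite (transcendental_inv hy)).toFinset, v.ord y⁻¹ =
      Module.finrank K⟮y⟯ F := by
  rw [sum_pos_ord (transcendental_inv hy)]
  rw [adjoin_inv]

/-- On a function field of one variable over an algebraically closed field of characteristic zero,
principal divisors exist and have degree zero. -/
theorem hasPrincipalDivisors : HasPrincipalDivisors K F := by
  classical
  refine ⟨fun f hf => ?_⟩
  by_cases hmem : f ∈ Set.range (algebraMap K F)
  · obtain ⟨a, rfl⟩ := hmem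
    exact ⟨0, fun v => by simp [ord_algebraMap], map_zero _⟩
  have htr := transcendental_of_not_mem_range hmem
  have htr' := transcendental_inv htr
  set Z := (posSet_finite htr).toFinset with hZ
  set P := (posSet_finite htr').toFinset with hP
  refine ⟨Finsupp.onFinset (Z ∪ P) (fun v => v.ord f) fun v hv => ?_, fun v => rfl, ?_⟩
  · rw [Finset.mem_union, hZ, hP, Set.Finite.mem_toFinset, Set.Finite.mem_toFinset]
    simp only [Set.mem_ofPred_eq]
    rw [v.ord_inv]
    omega
  · have h1 : ∀ D : Divisor K F, Divisor.degree D = ∑ v ∈ D.support, D v := by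
      intro D
      rw [Divisor.degree, Finsupp.liftAddHom_apply, Finsupp.sum]
      refine Finset.sum_congr rfl fun v _ => ?_
      simp [deg_eq_one]
    rw [h1, Finset.sum_subset Finsupp.support_onFinset_subset
      (fun v _ hv => Finsupp.notMem_support_iff.mp hv)]
    simp only [Finsupp.onFinset_apply]
    have hdisj : Disjoint Z P := by
      rw [Finset.disjoint_left]
      intro v hv hv'
      rw [hZ, Set.Finite.mem_toFinset, Set.mem_ofPred_eq] at hv
      rw [hP, Set.Finite.mem_toFinset, Set.mem_ofPred_eq, v.ord_inv] at hv'
      omega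
    rw [Finset.sum_union hdisj, sum_pos_ord htr]
    have h2 := sum_pos_ord_inv htr
    rw [← hP, Finset.sum_congr rfl (fun v _ => v.ord_inv f), Finset.sum_neg_distrib] at h2
    linarith

end Principal

end Fermat.FF
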