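import Mathlib
import Fermat.Agent.FF.Principal
import Fermat.Prelude.Def_AlgebraicCurve_DivisorPushPull

/-!
# Relative local theory of places in a finite extension `F'/F`

No separability and no hypothesis on the characteristic or on the constant field; the only input
is the finiteness of the integral closure `B` of `O_v` in `F'`.
-/

set_option autoImplicit false

noncomputable section

open AlgebraicCurve IsDedekindDomain WithZero IsLocalRing

namespace Fermat.FF.Rel

section Length

theorem length_quotient_span_eq_ord_norm {R S : Type*} [CommRing R] [IsDomain R]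
    [IsPrincipalIdealRing R] [CommRing S] [IsDomain S] [Algebra R S] [Module.Free R S]
    [Module.Finite R S] {f : S} (hf : f ≠ 0) :
    Module.length R (S ⧸ Ideal.span {f}) = Ring.ord R (Algebra.norm R f) := by
  classical
  let b := Module.Free.chooseBasis R S
  have hI : Ideal.span {f} ≠ ⊥ := Ideal.span_singleton_eq_bot.not.2 hf
  rw [(Ideal.quotientEquivPiSpan (Ideal.span {f}) b hI).length_eq, Module.length_pi_of_fintype,
    Ring.ord_eq_of_associated (associated_norm_prod_smith b hf)]
  have key : ∀ s : Finset (Module.Free.ChooseBasisIndex R S),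
      Ring.ord R (∏ i ∈ s, Ideal.smithCoeffs b (Ideal.span {f}) hI i) =
        ∑ i ∈ s, Ring.ord R (Ideal.smithCoeffs b (Ideal.span {f}) hI i) := by
    intro s
    induction s using Finset.induction_on with
    | empty => simp
    | insert i s hi ih =>
      rw [Finset.prod_insert hi, Finset.sum_insert hi, Ring.ord_mul R, ih]
      exact mem_nonZeroDivisors_of_ne_zero
        (Finset.prod_ne_zero_iff.mpr fun j _ => Ideal.smithCoeffs_ne_zero b _ hI j)
  rw [key]
  rfl

theorem ord_eq_toNat {K F : Type*} [Field K] [Field F] [Algebra K F] (v : Place K F)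
    {a : v.toValuationSubring} (ha : a ≠ 0) :
    Ring.ord v.toValuationSubring a = ((v.ord (a : F)).toNat : ℕ∞) := by
  obtain ⟨π, hπ⟩ := IsDiscreteValuationRing.exists_irreducible v.toValuationSubring
  obtain ⟨n, u, rfl⟩ := IsDiscreteValuationRing.eq_unit_mul_pow_irreducible ha hπ
  rw [Ring.ord_mul_of_isUnit_left u.isUnit,
    Ring.ord_pow (mem_nonZeroDivisors_of_ne_zero hπ.ne_zero), Ring.ord_of_irreducible hπ]
  have : v.ord (((u : v.toValuationSubring) * π ^ n : v.toValuationSubring) : F) = n := by
    have := v.ord_unit_smul_zpow u hπ n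
    rw [zpow_natCast] at this
    exact this
  rw [this]
  simp

end Length

section Setup

variable {K F F' : Type*} [Field K] [Field F] [Field F'] [Algebra K F] [Algebra K F']
  [Algebra F F'] [IsScalarTower K F F']

/-- The integral closure of `O_v` in `F'` is a finite `O_v`-module. -/
class FiniteAt (F' : Type*) [Field F'] [Algebra F F'] (v : Place K F) : Prop where
  finite : Module.Finite v.toValuationSubring (integralClosure v.toValuationSubring F')

theorem isScalarTower_place (v : Place K F) : IsScalarTower K v.toValuationSubring F' :=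
  IsScalarTower.of_algebraMap_eq fun a => by
    rw [IsScalarTower.algebraMap_apply K F F']
    rfl

attribute [local instance] isScalarTower_place

variable (F') in
/-- the integral closure in `F'` of the valuation ring of `v` -/
abbrev IC (v : Place K F) : Type _ := integralClosure v.toValuationSubring F'

variable [FiniteDimensional F F'] (v : Place K F)

instance instFaithfulSMulPlace : FaithfulSMul v.toValuationSubring F' := by
  rw [faithfulSMul_iff_algebraMap_injective,
    IsScalarTower.algebraMap_eq v.toValuationSubring F F']
  exact (algebraMap F F').injective.comp (IsFractionRing.injective v.toValuationSubring F)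

instance instIsFractionRingIC : IsFractionRing (IC F' v) F' :=
  integralClosure.isFractionRing_of_finite_extension F F'

instance instIsIntegrallyClosedIC : IsIntegrallyClosed (IC F' v) :=
  integralClosure.isIntegrallyClosedOfFiniteExtension F

instance instIsLocalizationIC :
    IsLocalization (Algebra.algebraMapSubmonoid (IC F' v) (nonZeroDivisors v.toValuationSubring))
      F' :=
  IsIntegralClosure.isLocalization v.toValuationSubring F F' (IC F' v)

variable [hfin : FiniteAt F' v]

instance instFiniteIC : Module.Finite v.toValuationSubring (IC F' v) := hfin.finite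

instance instIsNoetherianRingIC : IsNoetherianRing (IC F' v) :=
  isNoetherian_of_tower v.toValuationSubring inferInstance

instance instDimensionLEOneIC : Ring.DimensionLEOne (IC F' v) :=
  Ring.DimensionLEOne.integralClosure v.toValuationSubring F'

instance instIsDedekindDomainIC : IsDedekindDomain (IC F' v) where
  toIsDomain := inferInstance

instance instFreeIC : Module.Free v.toValuationSubring (IC F' v) := inferInstance

omit [Algebra K F'] [IsScalarTower K F F'] in
theorem norm_coe (b : IC F' v) :
    Algebra.norm F (b : F') = ((Algebra.norm v.toValuationSubring b : v.toValuationSubring) : F) :=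
  Algebra.norm_localization v.toValuationSubring (nonZeroDivisors v.toValuationSubring) b

omit [Algebra K F'] [IsScalarTower K F F'] in
theorem ord_norm_coe {b : IC F' v} (hb : b ≠ 0) :
    (((v.ord (Algebra.norm F (b : F'))).toNat : ℕ∞)) =
      Module.length v.toValuationSubring (IC F' v ⧸ Ideal.span {b}) := by
  rw [length_quotient_span_eq_ord_norm hb, norm_coe, ord_eq_toNat]
  exact (Algebra.norm_ne_zero_iff).mpr hb

end Setup

section Dictionary

variable {K F F' : Type*} [Field K] [Field F] [Field F'] [Algebra K F] [Algebra K F']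
  [Algebra F F'] [IsScalarTower K F F'] [FiniteDimensional F F']

attribute [local instance] isScalarTower_place

variable {v : Place K F}

theorem mem_of_restrict_eq {w : Place K F'} (hw : w.restrict F = v) :
    ∀ r : v.toValuationSubring, algebraMap v.toValuationSubring F' r ∈ w.toValuationSubring := by
  subst hw
  intro r
  exact r.2

theorem ic_mem {w : Place K F'} (hw : w.restrict F = v) :
    ∀ b : IC F' v, algebraMap (IC F' v) F' b ∈ w.toValuationSubring :=
  integralClosure_le_of_le (mem_of_restrict_eq hw)

variable [FiniteAt F' v]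

/-- the prime of the integral closure of `O_v` attached to a place above `v` -/
def primeOf {w : Place K F'} (hw : w.restrict F = v) : HeightOneSpectrum (IC F' v) :=
  ⟨centre w (ic_mem hw), centre_isPrime w (ic_mem hw), centre_ne_bot w (ic_mem hw)⟩

theorem mem_primeOf {w : Place K F'} (hw : w.restrict F = v) {b : IC F' v} :
    b ∈ (primeOf hw).asIdeal ↔ w.adicValuation (b : F') < 1 :=
  mem_centre

theorem ofHeightOneSpectrum_primeOf {w : Place K F'} (hw : w.restrict F = v) :
    Place.ofHeightOneSpectrum (K := K) (primeOf hw) = w :=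
  (eq_ofHeightOneSpectrum w (ic_mem hw)).symm

theorem restrict_ofHeightOneSpectrum (P : HeightOneSpectrum (IC F' v)) :
    (Place.ofHeightOneSpectrum (K := K) (F := F') P).restrict F = v := by
  symm
  apply place_eq_of_le
  intro x hx
  rw [Place.mem_restrict_iff, Place.ofHeightOneSpectrum_toValuationSubring,
    Valuation.mem_valuationSubring_iff]
  exact HeightOneSpectrum.valuation_le_one P (algebraMap v.toValuationSubring (IC F' v) ⟨x, hx⟩)

variable (F' v) in
/-- Places above `v` are the same as nonzero primes of the integral closure of `O_v`. -/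
def placeEquiv : {w : Place K F' // w.restrict F = v} ≃ HeightOneSpectrum (IC F' v) where
  toFun w := primeOf w.2
  invFun P := ⟨Place.ofHeightOneSpectrum (K := K) P, restrict_ofHeightOneSpectrum P⟩
  left_inv w := Subtype.ext (ofHeightOneSpectrum_primeOf w.2)
  right_inv P := by
    ext1
    exact centre_ofHeightOneSpectrum P _

omit [Algebra K F'] [IsScalarTower K F F'] [FiniteDimensional F F'] [FiniteAt F' v] in
theorem under_eq_maximalIdeal (P : Ideal (IC F' v)) [hP : P.IsPrime] (hP0 : P ≠ ⊥) :
    P.under v.toValuationSubring = maximalIdeal v.toValuationSubring := by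
  have h1 : (P.under v.toValuationSubring).IsMaximal := by
    have : P.IsMaximal := hP.isMaximal hP0
    exact Ideal.isMaximal_comap_of_isIntegral_of_isMaximal P
  exact IsLocalRing.eq_maximalIdeal h1

instance finite_primesOver :
    Finite ((maximalIdeal v.toValuationSubring).primesOver (IC F' v)) :=
  Algebra.QuasiFinite.finite_primesOver _

instance finite_heightOneSpectrum : Finite (HeightOneSpectrum (IC F' v)) := by
  refine Finite.of_injective
    (β := (maximalIdeal v.toValuationSubring).primesOver (IC F' v))
    (fun P => ⟨P.asIdeal, P.isPrime, ⟨(under_eq_maximalIdeal P.asIdeal P.ne_bot).symm⟩⟩) ?_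
  intro P Q h
  ext1
  exact congrArg (fun x => x.1) h

instance isPrincipalIdealRing_IC : IsPrincipalIdealRing (IC F' v) := by
  refine IsPrincipalIdealRing.of_finite_primes ?_
  have h1 : {I : Ideal (IC F' v) | I.IsPrime} ⊆
      {⊥} ∪ Set.range (fun P : HeightOneSpectrum (IC F' v) => P.asIdeal) := by
    intro I hI
    by_cases h : I = ⊥
    · exact Or.inl h
    · exact Or.inr ⟨⟨I, hI, h⟩, rfl⟩
  exact ((Set.finite_singleton _).union (Set.finite_range _)).subset h1

variable (F' v) in
theorem fiber_finite : {w : Place K F' | w.restrict F = v}.Finite := by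
  have : Finite {w : Place K F' // w.restrict F = v} := Finite.of_equiv _ (placeEquiv F' v).symm
  exact Set.finite_coe_iff.mp this

/-- the reduction map from the integral closure to the residue field of `w` -/
def icToResidue {w : Place K F'} (hw : w.restrict F = v) : IC F' v →+* w.ResidueField :=
  (IsLocalRing.residue w.toValuationSubring).comp
    ((algebraMap (IC F' v) F').codRestrict w.toValuationSubring.toSubring (ic_mem hw))

omit [FiniteAt F' v] in
theorem icToResidue_apply {w : Place K F'} (hw : w.restrict F = v) (b : IC F' v) :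
    icToResidue hw b = IsLocalRing.residue w.toValuationSubring ⟨b, ic_mem hw b⟩ := rfl

theorem icToResidue_eq_zero_iff {w : Place K F'} (hw : w.restrict F = v) (b : IC F' v) :
    icToResidue hw b = 0 ↔ b ∈ (primeOf hw).asIdeal := by
  rw [icToResidue_apply, IsLocalRing.residue_eq_zero_iff, mem_maximalIdeal_iff, mem_primeOf]

theorem ker_icToResidue {w : Place K F'} (hw : w.restrict F = v) :
    RingHom.ker (icToResidue hw) = (primeOf hw).asIdeal := by
  ext b
  rw [RingHom.mem_ker, icToResidue_eq_zero_iff]

theorem icToResidue_surjective {w : Place K F'} (hw : w.restrict F = v) :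
    Function.Surjective (icToResidue hw) := by
  intro x
  obtain ⟨u, rfl⟩ := IsLocalRing.residue_surjective x
  have hu : (u : F') ∈ (Place.ofHeightOneSpectrum (K := K) (F := F')
      (primeOf hw)).toValuationSubring := by
    rw [ofHeightOneSpectrum_primeOf hw]
    exact u.2
  rw [Place.ofHeightOneSpectrum_toValuationSubring,
    ← HeightOneSpectrum.valuationSubringAtPrime_eq_valuationSubring] at hu
  obtain ⟨a, s, hs, hu⟩ := hu
  have hs' : s ∉ (primeOf hw).asIdeal := hs
  have hmax : (primeOf hw).asIdeal.IsMaximal := (primeOf hw).isMaximal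
  obtain ⟨t, p, hp, hst⟩ := hmax.exists_inv hs'
  refine ⟨a * t, ?_⟩
  have hs0 : (s : F') ≠ 0 := by
    intro h
    apply hs'
    have : s = 0 := Subtype.ext h
    rw [this]
    exact zero_mem _
  have hua : (u : F') * s = a := by
    rw [hu]
    change (a : F') * (s : F')⁻¹ * s = a
    field_simp
  have h1 : icToResidue hw a = IsLocalRing.residue _ u * icToResidue hw s := by
    rw [icToResidue_apply, icToResidue_apply, ← map_mul]
    congr 1
    exact Subtype.ext hua.symm
  have h2 : icToResidue hw t * icToResidue hw s = 1 := by
    have := congrArg (icToResidue hw) hst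
    rw [map_add, map_mul, (icToResidue_eq_zero_iff hw p).mpr hp, add_zero, map_one] at this
    exact this
  rw [map_mul, h1, mul_assoc, mul_comm (icToResidue hw s), h2, mul_one]

end Dictionary

section Inertia

variable {K F F' : Type*} [Field K] [Field F] [Field F'] [Algebra K F] [Algebra K F']
  [Algebra F F'] [IsScalarTower K F F'] [FiniteDimensional F F']

attribute [local instance] isScalarTower_place

theorem length_quotient_primeOf (w : Place K F') [FiniteAt F' (w.restrict F)] :
    Module.length (w.restrict F).toValuationSubring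
      (IC F' (w.restrict F) ⧸ (primeOf (F := F) (w := w) rfl).asIdeal) = (w.inertiaDeg F : ℕ∞) := by
  set A := (w.restrict F).toValuationSubring
  let : Algebra A w.ResidueField :=
    ((algebraMap (w.restrict F).ResidueField w.ResidueField).comp
      (IsLocalRing.residue A)).toAlgebra
  have htower : IsScalarTower A (w.restrict F).ResidueField w.ResidueField :=
    IsScalarTower.of_algebraMap_eq fun a => rfl
  let e0 : (IC F' (w.restrict F) ⧸ (primeOf (F := F) (w := w) rfl).asIdeal) ≃+* w.ResidueField :=
    (Ideal.quotEquivOfEq (ker_icToResidue (F := F) (w := w) rfl).symm).trans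
      (RingHom.quotientKerEquivOfSurjective (icToResidue_surjective (F := F) (w := w) rfl))
  have he0 : ∀ b, e0 (Ideal.Quotient.mk _ b) = icToResidue (F := F) (w := w) rfl b := fun b => rfl
  have hcomm : ∀ a : A, e0 (algebraMap A _ a) = algebraMap A w.ResidueField a := by
    intro a
    rfl
  let e1 : (IC F' (w.restrict F) ⧸ (primeOf (F := F) (w := w) rfl).asIdeal) ≃ₐ[A]
    w.ResidueField := AlgEquiv.ofRingEquiv (f := e0) hcomm
  have hfin : Module.Finite A w.ResidueField := Module.Finite.equiv e1.toLinearEquiv
  have hfin' : Module.Finite (w.restrict F).ResidueField w.ResidueField :=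
    Module.Finite.of_restrictScalars_finite A _ _
  rw [e1.toLinearEquiv.length_eq]
  have h1 : Module.length A w.ResidueField =
      Module.length (w.restrict F).ResidueField w.ResidueField :=
    Module.length_eq_of_surjective IsLocalRing.residue_surjective
  rw [h1, Module.length_eq_finrank]
  rfl

end Inertia

section Norm

variable {K F F' : Type*} [Field K] [Field F] [Field F'] [Algebra K F] [Algebra K F']
  [Algebra F F'] [IsScalarTower K F F'] [FiniteDimensional F F']

attribute [local instance] isScalarTower_place

/-- the local norm formula at `v` for `f` -/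
def LocalNormFormula (v : Place K F) [FiniteAt F' v] (f : F') : Prop :=
  ∑ w ∈ (fiber_finite F' v).toFinset, w.ord f * (w.inertiaDeg F : ℤ) = v.ord (Algebra.norm F f)

variable (v : Place K F) [FiniteAt F' v]

theorem localNormFormula_mul {f g : F'} (hf : f ≠ 0) (hg : g ≠ 0)
    (h1 : LocalNormFormula v f) (h2 : LocalNormFormula v g) : LocalNormFormula v (f * g) := by
  unfold LocalNormFormula at *
  rw [map_mul, v.ord_mul (Algebra.norm_ne_zero_iff.mpr hf) (Algebra.norm_ne_zero_iff.mpr hg),
    ← h1, ← h2, ← Finset.sum_add_distrib]
  refine Finset.sum_congr rfl fun w _ => ?_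
  rw [w.ord_mul hf hg, add_mul]

theorem localNormFormula_of_mul {f g : F'} (hf : f ≠ 0) (hg : g ≠ 0)
    (h1 : LocalNormFormula v (f * g)) (h2 : LocalNormFormula v g) : LocalNormFormula v f := by
  unfold LocalNormFormula at *
  rw [map_mul, v.ord_mul (Algebra.norm_ne_zero_iff.mpr hf) (Algebra.norm_ne_zero_iff.mpr hg),
    ← h2] at h1
  rw [← add_left_inj, ← h1, ← Finset.sum_add_distrib]
  refine Finset.sum_congr rfl fun w _ => ?_
  rw [w.ord_mul hf hg, add_mul]

omit [FiniteAt F' v] in
theorem ord_eq_zero_of_isUnit {w : Place K F'} (hw : w.restrict F = v) {b : IC F' v}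
    (hb : IsUnit b) : w.ord (b : F') = 0 := by
  obtain ⟨c, hc⟩ := hb.exists_right_inv
  have h1 : 0 ≤ w.ord (b : F') := ord_nonneg_of_mem w (ic_mem hw b)
  have h2 : 0 ≤ w.ord (c : F') := ord_nonneg_of_mem w (ic_mem hw c)
  have hc' : (b : F') * (c : F') = 1 := congrArg Subtype.val hc
  have hb0 : (b : F') ≠ 0 := left_ne_zero_of_mul_eq_one hc'
  have hc0 : (c : F') ≠ 0 := right_ne_zero_of_mul_eq_one hc'
  have h3 : w.ord (b : F') + w.ord (c : F') = 0 := by
    rw [← w.ord_mul hb0 hc0, hc', w.ord_one]
  omega

theorem localNormFormula_of_isUnit {b : IC F' v} (hb : IsUnit b) :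
    LocalNormFormula v (b : F') := by
  unfold LocalNormFormula
  rw [norm_coe]
  have h1 : IsUnit (Algebra.norm v.toValuationSubring b) := hb.map _
  have h2 := v.ord_coe_unit h1.unit
  rw [IsUnit.unit_spec] at h2
  rw [h2]
  refine Finset.sum_eq_zero fun w hw => ?_
  rw [ord_eq_zero_of_isUnit v ((fiber_finite F' v).mem_toFinset.mp hw) hb, zero_mul]

theorem ord_eq_multiplicity {w : Place K F'} (hw : w.restrict F = v) {b : IC F' v} (hb : b ≠ 0) :
    w.ord (b : F') = multiplicity (primeOf hw).asIdeal (Ideal.span {b}) := by
  have := ord_ofHeightOneSpectrum_algebraMap (K := K) (F := F') (primeOf hw) hb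
  rw [ofHeightOneSpectrum_primeOf hw] at this
  exact this

theorem inertiaDeg_eq_length {w : Place K F'} (hw : w.restrict F = v) :
    Module.length v.toValuationSubring (IC F' v ⧸ (primeOf hw).asIdeal) =
      (w.inertiaDeg F : ℕ∞) := by
  subst hw
  exact length_quotient_primeOf w

theorem localNormFormula_of_prime {b : IC F' v} (hb : Prime b) :
    LocalNormFormula v (b : F') := by
  classical
  unfold LocalNormFormula
  have hb0 : b ≠ 0 := hb.ne_zero
  let P : HeightOneSpectrum (IC F' v) :=
    ⟨Ideal.span {b}, (Ideal.span_singleton_prime hb0).mpr hb,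
      by simpa [Ideal.span_singleton_eq_bot] using hb0⟩
  set w₀ := (placeEquiv F' v).symm P with hw₀
  have hP : primeOf w₀.2 = P := (placeEquiv F' v).apply_symm_apply P
  have hord : w₀.1.ord (b : F') = 1 := by
    rw [ord_eq_multiplicity v w₀.2 hb0, hP]
    simp [P]
  have hord' : ∀ w : Place K F', w.restrict F = v → w ≠ w₀.1 → w.ord (b : F') = 0 := by
    intro w hw hne
    rw [ord_eq_multiplicity v hw hb0]
    norm_cast
    rw [multiplicity_eq_zero]
    intro hdvd
    apply hne
    have h1 : Ideal.span {b} ≤ (primeOf hw).asIdeal := Ideal.dvd_iff_le.mp hdvd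
    have h2 : P.asIdeal = (primeOf hw).asIdeal :=
      (P.isMaximal).eq_of_le (primeOf hw).isPrime.ne_top h1
    have h3 : primeOf hw = P := by
      ext1
      exact h2.symm
    have h4 : (placeEquiv F' v).symm (primeOf hw) = w₀ := by rw [h3]
    have h5 : (placeEquiv F' v).symm (primeOf hw) = ⟨w, hw⟩ :=
      (placeEquiv F' v).symm_apply_apply ⟨w, hw⟩
    rw [← h4, h5]
  rw [Finset.sum_eq_single w₀.1]
  · rw [hord, one_mul]
    have h1 := ord_norm_coe v hb0
    have h2 := inertiaDeg_eq_length v w₀.2
    rw [hP] at h2
    have h3 : ((v.ord (Algebra.norm F (b : F'))).toNat : ℕ∞) = (w₀.1.inertiaDeg F : ℕ∞) :=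
      h1.trans h2
    have h4 : (v.ord (Algebra.norm F (b : F'))).toNat = w₀.1.inertiaDeg F := by exact_mod_cast h3
    have h5 : 0 ≤ v.ord (Algebra.norm F (b : F')) := by
      rw [norm_coe]
      exact ord_nonneg_of_mem v (Subtype.property _)
    rw [← h4, Int.toNat_of_nonneg h5]
  · intro w hw hne
    rw [hord' w ((fiber_finite F' v).mem_toFinset.mp hw) hne, zero_mul]
  · intro h
    exact absurd ((fiber_finite F' v).mem_toFinset.mpr w₀.2) h

theorem localNormFormula_coe {b : IC F' v} (hb : b ≠ 0) : LocalNormFormula v (b : F') := by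
  revert hb
  induction b using UniqueFactorizationMonoid.induction_on_prime with
  | h₁ => exact fun h => absurd rfl h
  | h₂ x hx => exact fun _ => localNormFormula_of_isUnit v hx
  | h₃ a p ha hp ih =>
    intro _
    have hp0 : (p : F') ≠ 0 := by
      intro h
      exact hp.ne_zero (Subtype.ext h)
    have ha0 : (a : F') ≠ 0 := by
      intro h
      exact ha (Subtype.ext h)
    exact localNormFormula_mul v hp0 ha0 (localNormFormula_of_prime v hp) (ih ha)

/-- **Local norm formula**: `∑_{w ∣ v} f(w|v) ord_w(f) = ord_v(N f)`. -/
theorem localNormFormula {f : F'} (hf : f ≠ 0) : LocalNormFormula v f := by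
  obtain ⟨a, b, hb, rfl⟩ := IsFractionRing.div_surjective (A := IC F' v) f
  have hb0 : b ≠ 0 := nonZeroDivisors.ne_zero hb
  have hb0' : algebraMap (IC F' v) F' b ≠ 0 := by
    rwa [Ne, FaithfulSMul.algebraMap_eq_zero_iff]
  have ha0 : a ≠ 0 := by
    rintro rfl
    apply hf
    simp
  refine localNormFormula_of_mul v hf hb0' ?_ (localNormFormula_coe v hb0)
  rw [div_mul_cancel₀ _ hb0']
  exact localNormFormula_coe v ha0

theorem sum_ord_mul_inertiaDeg {f : F'} (hf : f ≠ 0) :
    ∑ w ∈ (fiber_finite F' v).toFinset, w.ord f * (w.inertiaDeg F : ℤ) =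
      v.ord (Algebra.norm F f) :=
  localNormFormula v hf

/-- **Fundamental identity**: `∑_{w ∣ v} e(w|v) f(w|v) = [F' : F]`. -/
theorem sum_ramificationIndex_mul_inertiaDeg :
    ∑ w ∈ (fiber_finite F' v).toFinset,
      (w.ramificationIndex F : ℤ) * (w.inertiaDeg F : ℤ) = Module.finrank F F' := by
  obtain ⟨t, ht⟩ := exists_ord_eq_one v
  have ht0 : t ≠ 0 := ne_zero_of_ord_ne_zero v (by omega)
  have ht0' : algebraMap F F' t ≠ 0 := by simpa using ht0
  have h := sum_ord_mul_inertiaDeg v ht0'
  rw [Algebra.norm_algebraMap, ord_pow, ht, mul_one] at h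
  rw [← h]
  refine Finset.sum_congr rfl fun w hw => ?_
  have hw' := (fiber_finite F' v).mem_toFinset.mp hw
  rw [w.ord_restrict t, hw', ht, mul_one]

end Norm

section Global

variable (K F F' : Type*) [Field K] [Field F] [Field F'] [Algebra K F] [Algebra K F']
  [Algebra F F'] [IsScalarTower K F F'] [FiniteDimensional F F']

/-- The pushforward of a principal divisor is the divisor of the norm. -/
theorem pushforwardNormFormula (h : ∀ v : Place K F, FiniteAt F' v) :
    Divisor.PushforwardNormFormula K F F' := by
  classical
  intro f hf D hD v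
  have := h v
  rw [Divisor.pushforward_apply, ← sum_ord_mul_inertiaDeg v hf, ← Finset.sum_filter]
  have h1 : D.support.filter (fun w => w.restrict F = v) ⊆ (fiber_finite F' v).toFinset := by
    intro w hw
    rw [Finset.mem_filter] at hw
    exact (fiber_finite F' v).mem_toFinset.mpr hw.2
  rw [Finset.sum_subset h1]
  · refine Finset.sum_congr rfl fun w _ => ?_
    rw [hD]
  · intro w hw hw'
    rw [Set.Finite.mem_toFinset] at hw
    rw [Finset.mem_filter, not_and'] at hw'
    have := hw' hw
    rw [Finsupp.notMem_support_iff] at this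
    rw [this, zero_mul]

theorem sumRamificationInertia [HasPrincipalDivisors K F'] (h : ∀ v : Place K F, FiniteAt F' v) :
    SumRamificationInertia K F F' := by
  refine ⟨fun v => ?_⟩
  have := h v
  rw [← sum_ramificationIndex_mul_inertiaDeg (F' := F') v]
  refine Finset.sum_congr ?_ fun _ _ => rfl
  ext w
  rw [Place.mem_fiber, Set.Finite.mem_toFinset]
  rfl

omit [Algebra K F'] [IsScalarTower K F F'] in
/-- separable extensions satisfy the finiteness hypothesis. -/
theorem finiteAt_of_isSeparable [Algebra.IsSeparable F F'] (v : Place K F) : FiniteAt F' v :=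
  ⟨IsIntegralClosure.finite v.toValuationSubring F F' _⟩

end Global

end Fermat.FF.Rel
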