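import Mathlib
import Fermat.Agent.FF.GenLocal
import Fermat.Agent.FF.Rel
import Fermat.Prelude.Def_AlgebraicCurve_IsCurveOver

/-!
# Principal divisors, degrees and residue fields over an arbitrary constant field
-/

set_option autoImplicit false

noncomputable section

open Polynomial AlgebraicCurve IsDedekindDomain WithZero IsLocalRing

namespace Fermat.FF.Gen

section FiniteAtInst

variable {K F : Type*} [Field K] [Field F] [Algebra K F] [IsFF1 K F]

/-- The finiteness hypothesis of `Fermat.FF.Rel` always holds for function fields. -/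
theorem finiteAt (F' : Type*) [Field F'] [Algebra F F'] [FiniteDimensional F F'] (v : Place K F) :
    Rel.FiniteAt F' v :=
  ⟨finite_integralClosure_valuationSubring F' v⟩

end FiniteAtInst

section Residue

variable {K F : Type*} [Field K] [Field F] [Algebra K F]

theorem algebraMap_residue_surjective (v : Place K F)
    (h : ∀ u ∈ v.toValuationSubring, ∃ c : K, v.adicValuation (u - algebraMap K F c) < 1) :
    Function.Surjective (algebraMap K v.ResidueField) := by
  intro x
  obtain ⟨u, rfl⟩ := IsLocalRing.residue_surjective x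
  obtain ⟨c, hc⟩ := h u u.2
  refine ⟨c, ?_⟩
  have h1 : algebraMap K v.ResidueField c =
      IsLocalRing.residue v.toValuationSubring (algebraMap K v.toValuationSubring c) := rfl
  rw [h1, eq_comm, ← sub_eq_zero, ← map_sub, IsLocalRing.residue_eq_zero_iff,
    mem_maximalIdeal_iff]
  exact hc

theorem deg_eq_one_of_surjective (v : Place K F)
    (h : Function.Surjective (algebraMap K v.ResidueField)) : v.deg = 1 := by
  show Module.finrank K v.ResidueField = 1
  rw [← Module.finrank_self K]
  exact ((AlgEquiv.ofBijective (Algebra.ofId K v.ResidueField)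
    ⟨(algebraMap K v.ResidueField).injective, h⟩).toLinearEquiv.finrank_eq).symm

end Residue

section ResidueTower

variable {K F F' : Type*} [Field K] [Field F] [Field F'] [Algebra K F] [Algebra K F']
  [Algebra F F'] [IsScalarTower K F F'] [FiniteDimensional F F']

theorem finite_residueField_restrict (w : Place K F') [Rel.FiniteAt F' (w.restrict F)] :
    Module.Finite (w.restrict F).ResidueField w.ResidueField := by
  set A := (w.restrict F).toValuationSubring
  let : Algebra A w.ResidueField :=
    ((algebraMap (w.restrict F).ResidueField w.ResidueField).comp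
      (IsLocalRing.residue A)).toAlgebra
  have htower : IsScalarTower A (w.restrict F).ResidueField w.ResidueField :=
    IsScalarTower.of_algebraMap_eq fun a => rfl
  let e : Rel.IC F' (w.restrict F) →ₗ[A] w.ResidueField :=
    { toFun := Rel.icToResidue (F := F) (w := w) rfl
      map_add' := map_add _
      map_smul' := fun a b => by
        rw [Algebra.smul_def, map_mul, RingHom.id_apply, Algebra.smul_def]
        rfl }
  have hfin : Module.Finite A w.ResidueField :=
    Module.Finite.of_surjective e (Rel.icToResidue_surjective (F := F) (w := w) rfl)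
  exact Module.Finite.of_restrictScalars_finite A _ _

end ResidueTower

section Line

open IntermediateField IntermediateField.algebraAdjoinAdjoin

variable {K F : Type*} [Field K] [Field F] [Algebra K F] {y : F} (hy : Transcendental K y)

include hy in
theorem isFF1_adjoin : IsFF1 K K⟮y⟯ := by
  refine ⟨AdjoinSimple.gen K y, ?_, ?_⟩
  · rw [← transcendental_algebraMap_iff (algebraMap K⟮y⟯ F).injective]
    exact hy
  · have h : K⟮AdjoinSimple.gen K y⟯ = (⊤ : IntermediateField K K⟮y⟯) := by
      apply IntermediateField.lift_injective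
      rw [IntermediateField.lift_adjoin_simple, IntermediateField.lift_top]
      rfl
    rw [h]
    exact Module.Finite.of_surjective
      (Algebra.linearMap (⊤ : IntermediateField K K⟮y⟯) K⟮y⟯)
      (fun x => ⟨⟨x, IntermediateField.mem_top⟩, rfl⟩)

/-- the prime `y - a` of `K[y]`. -/
def linePrime (a : K) : HeightOneSpectrum (Algebra.adjoin K {y}) :=
  have : IsPrincipalIdealRing (Algebra.adjoin K {y}) := adjoin_isPrincipalIdealRing hy
  ⟨Ideal.span {shiftGen y a},
    (Ideal.span_singleton_prime (shiftGen_irreducible hy a).ne_zero).mpr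
      (shiftGen_irreducible hy a).prime,
    by simpa [Ideal.span_singleton_eq_bot] using (shiftGen_irreducible hy a).ne_zero⟩

/-- the place `y = a` of `K(y)`. -/
def linePlace (a : K) : Place K K⟮y⟯ :=
  have : IsPrincipalIdealRing (Algebra.adjoin K {y}) := adjoin_isPrincipalIdealRing hy
  Place.ofHeightOneSpectrum (K := K) (linePrime hy a)

theorem algebraMap_shiftGen' (a : K) :
    algebraMap (Algebra.adjoin K {y}) K⟮y⟯ (shiftGen y a) =
      AdjoinSimple.gen K y - algebraMap K K⟮y⟯ a := rfl

theorem ord_linePlace (a : K) :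
    (linePlace hy a).ord (AdjoinSimple.gen K y - algebraMap K K⟮y⟯ a) = 1 := by
  have : IsPrincipalIdealRing (Algebra.adjoin K {y}) := adjoin_isPrincipalIdealRing hy
  rw [← algebraMap_shiftGen', linePlace, ord_ofHeightOneSpectrum_algebraMap]
  · have h1 : (linePrime hy a).asIdeal = Ideal.span {shiftGen y a} := rfl
    rw [h1]
    have h2 : ¬ IsUnit (Ideal.span {shiftGen y a}) := by
      rw [Ideal.isUnit_iff, Ideal.span_singleton_eq_top]
      exact (shiftGen_irreducible hy a).not_isUnit
    have h3 : Ideal.span {shiftGen y a} ≠ 0 := by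
      simpa [Ideal.span_singleton_eq_bot] using (shiftGen_irreducible hy a).ne_zero
    simp [multiplicity_self]
  · exact (shiftGen_irreducible hy a).ne_zero

theorem linePlace_val_lt_one_iff (a : K) (r : Algebra.adjoin K {y}) :
    (linePlace hy a).adicValuation (algebraMap (Algebra.adjoin K {y}) K⟮y⟯ r) < 1 ↔
      shiftGen y a ∣ r := by
  have : IsPrincipalIdealRing (Algebra.adjoin K {y}) := adjoin_isPrincipalIdealRing hy
  rw [linePlace, val_ofHeightOneSpectrum_lt_one_iff]
  exact Ideal.mem_span_singleton

theorem algebraMap_mem_linePlace (a : K) (r : Algebra.adjoin K {y}) :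
    algebraMap (Algebra.adjoin K {y}) K⟮y⟯ r ∈ (linePlace hy a).toValuationSubring := by
  have : IsPrincipalIdealRing (Algebra.adjoin K {y}) := adjoin_isPrincipalIdealRing hy
  rw [linePlace, Place.ofHeightOneSpectrum_toValuationSubring, Valuation.mem_valuationSubring_iff]
  exact HeightOneSpectrum.valuation_le_one _ _

theorem deg_linePlace (a : K) : (linePlace hy a).deg = 1 := by
  have : IsPrincipalIdealRing (Algebra.adjoin K {y}) := adjoin_isPrincipalIdealRing hy
  apply deg_eq_one_of_surjective
  apply algebraMap_residue_surjective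
  intro u hu
  obtain ⟨b, s, hs, hsu⟩ := exists_div_of_mem (A := Algebra.adjoin K {y}) (linePlace hy a)
    (algebraMap_mem_linePlace hy a) hu
  obtain ⟨c, r₁, h₁⟩ := shiftGen_res hy a b
  obtain ⟨d, r₂, h₂⟩ := shiftGen_res hy a s
  have hd : d ≠ 0 := by
    rintro rfl
    rw [map_zero, sub_zero] at h₂
    have := (linePlace_val_lt_one_iff hy a s).mpr ⟨r₂, h₂⟩
    rw [hs] at this
    exact lt_irrefl _ this
  refine ⟨c / d, ?_⟩
  have h3 : (linePlace hy a).adicValuation (algebraMap (Algebra.adjoin K {y}) K⟮y⟯
      (b - algebraMap K _ (c / d) * s)) < 1 := by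
    rw [linePlace_val_lt_one_iff]
    refine ⟨r₁ - algebraMap K _ (c / d) * r₂, ?_⟩
    have e1 : b = algebraMap K _ c + shiftGen y a * r₁ := by rw [← h₁]; ring
    have e2 : s = algebraMap K _ d + shiftGen y a * r₂ := by rw [← h₂]; ring
    rw [e1, e2]
    have e3 : (algebraMap K (Algebra.adjoin K {y}) c) =
        algebraMap K _ (c / d) * algebraMap K _ d := by
      rw [← map_mul, div_mul_cancel₀ _ hd]
    rw [e3]
    ring
  have h4 : algebraMap (Algebra.adjoin K {y}) K⟮y⟯ (b - algebraMap K _ (c / d) * s) =
      algebraMap (Algebra.adjoin K {y}) K⟮y⟯ s * (u - algebraMap K K⟮y⟯ (c / d)) := by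
    rw [map_sub, map_mul, ← hsu, ← IsScalarTower.algebraMap_apply K]
    ring
  rw [h4, map_mul, hs, one_mul] at h3
  exact h3

theorem restrict_eq_linePlace_iff [FiniteDimensional K⟮y⟯ F] (a : K) (w : Place K F) :
    w.restrict K⟮y⟯ = linePlace hy a ↔ w.adicValuation (y - algebraMap K F a) < 1 := by
  have hya : y - algebraMap K F a =
      algebraMap K⟮y⟯ F (AdjoinSimple.gen K y - algebraMap K K⟮y⟯ a) := rfl
  have hPID : IsPrincipalIdealRing (Algebra.adjoin K {y}) := adjoin_isPrincipalIdealRing hy
  constructor
  · intro h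
    rw [val_lt_one_iff]
    right
    rw [hya, w.ord_restrict, h, ord_linePlace, mul_one]
    exact_mod_cast w.ramificationIndex_pos (F := K⟮y⟯)
  · intro h
    have hmem : y ∈ w.toValuationSubring := by
      have h2 : y - algebraMap K F a ∈ w.toValuationSubring := (mem_iff_val_le_one w _).mpr h.le
      have h3 := add_mem h2 (w.algebraMap_mem' a)
      simpa using h3
    have hR : ∀ r : Algebra.adjoin K {y}, algebraMap (Algebra.adjoin K {y}) K⟮y⟯ r ∈
        (w.restrict K⟮y⟯).toValuationSubring := fun r => by
      rw [Place.mem_restrict_iff]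
      exact adjoin_le_of_mem w hmem r
    rw [eq_ofHeightOneSpectrum (w.restrict K⟮y⟯) hR, linePlace]
    congr 1
    ext1
    show centre _ hR = Ideal.span {shiftGen y a}
    symm
    have hmax : (Ideal.span {shiftGen y a}).IsMaximal :=
      PrincipalIdealRing.isMaximal_of_irreducible (shiftGen_irreducible hy a)
    refine hmax.eq_of_le (centre_isPrime _ hR).ne_top ?_
    rw [Ideal.span_singleton_le_iff_mem, mem_centre, algebraMap_shiftGen', val_lt_one_iff]
    right
    have h5 : 0 < w.ord (y - algebraMap K F a) := by
      rcases (val_lt_one_iff w).mp h with h6 | h6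
      · exfalso
        rw [sub_eq_zero] at h6
        exact hy (h6 ▸ isAlgebraic_algebraMap a)
      · exact h6
    rw [hya, w.ord_restrict] at h5
    have h7 := w.ramificationIndex_pos (F := K⟮y⟯)
    exact (mul_pos_iff_of_pos_left (by exact_mod_cast h7)).mp h5

end Line

section Zeros

open IntermediateField IntermediateField.algebraAdjoinAdjoin

variable {K F : Type*} [Field K] [Field F] [Algebra K F] [IsFF1 K F] {y : F}

theorem setOf_val_lt_one_finite (hy : Transcendental K y) (a : K) :
    {v : Place K F | v.adicValuation (y - algebraMap K F a) < 1}.Finite := by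
  have := IsFF1.finiteDimensional_adjoin hy
  have := isFF1_adjoin hy
  have := finiteAt F (linePlace hy a)
  refine (Rel.fiber_finite F (linePlace hy a)).subset fun v hv => ?_
  exact (restrict_eq_linePlace_iff hy a v).mpr hv

/-- `∑_{v(y) = a} ord_v(y - a) deg v = [F : K(y)]`, for an arbitrary constant field. -/
theorem sum_ord_sub_mul_deg (hy : Transcendental K y) (a : K) :
    ∑ v ∈ (setOf_val_lt_one_finite hy a).toFinset, v.ord (y - algebraMap K F a) * (v.deg : ℤ) =
      Module.finrank K⟮y⟯ F := by
  have := IsFF1.finiteDimensional_adjoin hy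
  have := isFF1_adjoin hy
  have := finiteAt F (linePlace hy a)
  have hya : y - algebraMap K F a =
      algebraMap K⟮y⟯ F (AdjoinSimple.gen K y - algebraMap K K⟮y⟯ a) := rfl
  have hne : AdjoinSimple.gen K y - algebraMap K K⟮y⟯ a ≠ 0 :=
    ne_zero_of_ord_ne_zero (linePlace hy a) (by rw [ord_linePlace]; exact one_ne_zero)
  have hne' : algebraMap K⟮y⟯ F (AdjoinSimple.gen K y - algebraMap K K⟮y⟯ a) ≠ 0 :=
    (_root_.map_ne_zero _).mpr hne
  have h := Rel.sum_ord_mul_inertiaDeg (linePlace hy a) hne'
  rw [Algebra.norm_algebraMap, ord_pow, ord_linePlace, mul_one] at h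
  rw [← h]
  refine Finset.sum_congr ?_ fun v hv => ?_
  · ext v
    rw [Set.Finite.mem_toFinset, Set.Finite.mem_toFinset]
    exact (restrict_eq_linePlace_iff hy a v).symm
  · rw [Set.Finite.mem_toFinset] at hv
    have hv' : v.restrict K⟮y⟯ = linePlace hy a := hv
    have h1 := v.deg_restrict_mul_inertiaDeg (F := K⟮y⟯)
    rw [hv', deg_linePlace, one_mul] at h1
    rw [h1, ← hya]

theorem setOf_ord_pos_finite (hy : Transcendental K y) :
    {v : Place K F | 0 < v.ord y}.Finite := by
  refine (setOf_val_lt_one_finite hy 0).subset fun v hv => ?_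
  simp only [Set.mem_ofPred_eq, map_zero, sub_zero] at hv ⊢
  rw [val_lt_one_iff]
  exact Or.inr hv

theorem sum_pos_ord_mul_deg (hy : Transcendental K y) :
    ∑ v ∈ (setOf_ord_pos_finite hy).toFinset, v.ord y * (v.deg : ℤ) = Module.finrank K⟮y⟯ F := by
  rw [← sum_ord_sub_mul_deg hy 0]
  refine Finset.sum_congr ?_ fun v _ => by simp
  ext v
  simp only [Set.Finite.mem_toFinset, Set.mem_ofPred_eq, map_zero, sub_zero]
  rw [val_lt_one_iff, or_iff_right (transcendental_ne_zero hy)]

/-- residue fields are finite over the constant field. -/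
theorem finite_residueField (v : Place K F) : Module.Finite K v.ResidueField := by
  obtain ⟨t, ht⟩ := exists_ord_eq_one v
  have hy : Transcendental K t := transcendental_of_ord_ne_zero (by rw [ht]; exact one_ne_zero)
  have := IsFF1.finiteDimensional_adjoin hy
  have := isFF1_adjoin hy
  have := finiteAt F (v.restrict K⟮t⟯)
  have h1 : Module.Finite (v.restrict K⟮t⟯).ResidueField v.ResidueField :=
    finite_residueField_restrict v
  have h2 : v.restrict K⟮t⟯ = linePlace hy 0 := by
    rw [restrict_eq_linePlace_iff, map_zero, sub_zero, val_lt_one_iff]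
    right
    omega
  have h3 : Module.Finite K (v.restrict K⟮t⟯).ResidueField := by
    rw [h2]
    exact Module.finite_of_finrank_pos (by
      have := deg_linePlace hy 0
      unfold Place.deg at this
      rw [this]
      exact one_pos)
  exact Module.Finite.trans (v.restrict K⟮t⟯).ResidueField _

theorem deg_pos (v : Place K F) : 0 < v.deg := by
  have := finite_residueField v
  exact Module.finrank_pos

/-- principal divisors exist and have degree zero, for every function field. -/
theorem hasPrincipalDivisors : HasPrincipalDivisors K F := by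
  classical
  refine ⟨fun f hf => ?_⟩
  by_cases hmem : IsAlgebraic K f
  · exact ⟨0, fun v => by rw [ord_eq_zero_of_isAlgebraic v hmem]; rfl, map_zero _⟩
  have htr : Transcendental K f := hmem
  have htr' := transcendental_inv htr
  set Z := (setOf_ord_pos_finite htr).toFinset with hZ
  set P := (setOf_ord_pos_finite htr').toFinset with hP
  refine ⟨Finsupp.onFinset (Z ∪ P) (fun v => v.ord f) fun v hv => ?_, fun v => rfl, ?_⟩
  · rw [Finset.mem_union, hZ, hP, Set.Finite.mem_toFinset, Set.Finite.mem_toFinset]
    simp only [Set.mem_ofPred_eq]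
    rw [v.ord_inv]
    omega
  · have h1 : ∀ D : Divisor K F, Divisor.degree D = ∑ v ∈ D.support, D v * (v.deg : ℤ) := by
      intro D
      rw [Divisor.degree, Finsupp.liftAddHom_apply, Finsupp.sum]
      rfl
    rw [h1, Finset.sum_subset Finsupp.support_onFinset_subset
      (fun v _ hv => by rw [Finsupp.notMem_support_iff.mp hv, zero_mul])]
    simp only [Finsupp.onFinset_apply]
    have hdisj : Disjoint Z P := by
      rw [Finset.disjoint_left]
      intro v hv hv'
      rw [hZ, Set.Finite.mem_toFinset, Set.mem_ofPred_eq] at hv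
      rw [hP, Set.Finite.mem_toFinset, Set.mem_ofPred_eq, v.ord_inv] at hv'
      omega
    rw [Finset.sum_union hdisj, sum_pos_ord_mul_deg htr]
    have h2 := sum_pos_ord_mul_deg htr'
    rw [← hP, Finset.sum_congr rfl (fun v _ => by rw [v.ord_inv f, neg_mul]),
      Finset.sum_neg_distrib, adjoin_inv] at h2
    linarith

end Zeros

section Extension

open IntermediateField IntermediateField.algebraAdjoinAdjoin

variable (K F F' : Type*) [Field K] [Field F] [Field F'] [Algebra K F] [Algebra K F']
  [Algebra F F'] [IsScalarTower K F F']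

omit [IsScalarTower K F F'] in
theorem finiteDimensional_adjoin_algebraMap_iff [IsScalarTower K F F'] (x : F) :
    FiniteDimensional K⟮algebraMap F F' x⟯ F' ↔ FiniteDimensional K⟮x⟯ F' := by
  have hmap : (K⟮x⟯).map (IsScalarTower.toAlgHom K F F') = K⟮algebraMap F F' x⟯ := by
    rw [IntermediateField.adjoin_map, Set.image_singleton]
    rfl
  have hmem : ∀ z : K⟮x⟯, algebraMap F F' (z : F) ∈ K⟮algebraMap F F' x⟯ := fun z => by
    rw [← hmap]
    exact ⟨z, z.2, rfl⟩
  let σ : K⟮x⟯ →+* K⟮algebraMap F F' x⟯ :=
    ((algebraMap F F').comp (algebraMap K⟮x⟯ F)).codRestrict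
      (K⟮algebraMap F F' x⟯).toSubfield.toSubring hmem
  let _ : Algebra K⟮x⟯ K⟮algebraMap F F' x⟯ := σ.toAlgebra
  have : IsScalarTower K⟮x⟯ K⟮algebraMap F F' x⟯ F' := IsScalarTower.of_algebraMap_eq fun z => rfl
  constructor
  · intro h
    have h1 : Module.Finite K⟮x⟯ K⟮algebraMap F F' x⟯ := by
      refine Module.Finite.of_surjective (Algebra.linearMap K⟮x⟯ K⟮algebraMap F F' x⟯) fun z => ?_
      have hz : (z : F') ∈ (K⟮x⟯).map (IsScalarTower.toAlgHom K F F') := by
        rw [hmap]
        exact z.2
      obtain ⟨u, hu, huz⟩ := hz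
      exact ⟨⟨u, hu⟩, Subtype.ext huz⟩
    exact Module.Finite.trans K⟮algebraMap F F' x⟯ F'
  · intro h
    exact Module.Finite.of_restrictScalars_finite K⟮x⟯ _ _

/-- A finite extension of a function field is a function field. -/
theorem isFF1_of_finite [h : IsFF1 K F] [FiniteDimensional F F'] : IsFF1 K F' := by
  obtain ⟨x, hx, hfin⟩ := h.exists_finite
  refine ⟨algebraMap F F' x, (transcendental_algebraMap_iff (algebraMap F F').injective).mpr hx, ?_⟩
  rw [finiteDimensional_adjoin_algebraMap_iff]
  exact FiniteDimensional.trans K⟮x⟯ F F'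

/-- A subfield over which a function field is algebraic is a function field. -/
theorem isFF1_of_finite' [h : IsFF1 K F'] [Algebra.IsAlgebraic F F'] : IsFF1 K F := by
  obtain ⟨x, hx, -⟩ := h.exists_finite
  obtain ⟨y, hy⟩ : ∃ y : F, Transcendental K y := by
    by_contra hcon
    push Not at hcon
    have : Algebra.IsAlgebraic K F := ⟨fun y => by
      have := hcon y
      rwa [Transcendental, not_not] at this⟩
    have : Algebra.IsAlgebraic K F' := Algebra.IsAlgebraic.trans K F F'
    exact hx (Algebra.IsAlgebraic.isAlgebraic x)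
  have hy' : Transcendental K (algebraMap F F' y) :=
    (transcendental_algebraMap_iff (algebraMap F F').injective).mpr hy
  have h1 : FiniteDimensional K⟮y⟯ F' :=
    (finiteDimensional_adjoin_algebraMap_iff K F F' y).mp (IsFF1.finiteDimensional_adjoin hy')
  exact ⟨y, hy, FiniteDimensional.left K⟮y⟯ F F'⟩

/-- An algebraic extension of function fields is finite. -/
theorem finiteDimensional_of_isFF1 [IsFF1 K F'] [Algebra.IsAlgebraic F F'] :
    FiniteDimensional F F' := by
  obtain ⟨y, hy, -⟩ := (isFF1_of_finite' K F F').exists_finite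
  have hy' : Transcendental K (algebraMap F F' y) :=
    (transcendental_algebraMap_iff (algebraMap F F').injective).mpr hy
  have h1 : FiniteDimensional K⟮y⟯ F' :=
    (finiteDimensional_adjoin_algebraMap_iff K F F' y).mp (IsFF1.finiteDimensional_adjoin hy')
  exact Module.Finite.of_restrictScalars_finite K⟮y⟯ F F'

variable [IsFF1 K F] [FiniteDimensional F F']

theorem sumRamificationInertia [HasPrincipalDivisors K F'] : SumRamificationInertia K F F' :=
  Rel.sumRamificationInertia K F F' fun v => finiteAt F' v

theorem pushforwardNormFormula : Divisor.PushforwardNormFormula K F F' :=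
  Rel.pushforwardNormFormula K F F' fun v => finiteAt F' v

end Extension

end Fermat.FF.Gen
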