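import Mathlib
import Fermat.Agent.FF.Basic

set_option autoImplicit false

noncomputable section

open AlgebraicCurve IsDedekindDomain WithZero IsLocalRing

namespace Fermat.FF

section PlaceOfVal

variable {K L : Type*} [Field K] [Field L] [Algebra K L]
variable (ν : AddValuation L (WithTop ℤ))

theorem addVal_exists_int {l : L} (hl : l ≠ 0) : ∃ n : ℤ, ν l = n := by
  have h : ν l ≠ ⊤ := fun h => hl (ν.top_iff.mp h)
  obtain ⟨n, hn⟩ := WithTop.ne_top_iff_exists.mp h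
  exact ⟨n, hn.symm⟩

theorem addVal_inv {l : L} (hl : l ≠ 0) {n : ℤ} (h : ν l = n) : ν l⁻¹ = (-n : ℤ) := by
  obtain ⟨m, hm⟩ := addVal_exists_int ν (inv_ne_zero hl)
  have h1 : ν (l * l⁻¹) = ν l + ν l⁻¹ := ν.map_mul _ _
  rw [mul_inv_cancel₀ hl, ν.map_one, h, hm] at h1
  rw [hm]
  norm_cast at h1 ⊢
  omega

/-- The valuation ring of a `ℤ`-valued additive valuation. -/
def addValRing : ValuationSubring L where
  carrier := {l | 0 ≤ ν l}
  mul_mem' {a b} ha hb := by
    show 0 ≤ ν (a * b)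
    rw [ν.map_mul]
    exact add_nonneg ha hb
  one_mem' := by
    show 0 ≤ ν 1
    rw [ν.map_one]
  add_mem' {a b} ha hb := by
    show 0 ≤ ν (a + b)
    exact (le_min ha hb).trans (ν.map_add a b)
  zero_mem' := by
    show 0 ≤ ν 0
    rw [ν.map_zero]
    exact le_top
  neg_mem' {a} ha := by
    show 0 ≤ ν (-a)
    rw [ν.map_neg]
    exact ha
  mem_or_inv_mem' a := by
    by_cases ha : a = 0
    · left
      show 0 ≤ ν a
      rw [ha, ν.map_zero]
      exact le_top
    obtain ⟨n, hn⟩ := addVal_exists_int ν ha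
    rcases le_total 0 n with h | h
    · left
      show 0 ≤ ν a
      rw [hn]
      exact_mod_cast h
    · right
      show 0 ≤ ν a⁻¹
      rw [addVal_inv ν ha hn]
      exact_mod_cast (by omega : 0 ≤ -n)

theorem mem_addValRing {l : L} : l ∈ addValRing ν ↔ 0 ≤ ν l := Iff.rfl

theorem isPrincipalIdealRing_addValRing : IsPrincipalIdealRing (addValRing ν) := by
  classical
  refine ⟨fun I => ?_⟩
  by_cases hI : I = ⊥
  · rw [hI]; exact bot_isPrincipal
  obtain ⟨a, haI, ha0⟩ := Submodule.exists_mem_ne_zero_of_ne_bot hI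
  have hex : ∃ n : ℕ, ∃ b ∈ I, b ≠ 0 ∧ ν (b : L) = (n : ℤ) := by
    have ha0' : (a : L) ≠ 0 := fun h => ha0 (Subtype.ext h)
    obtain ⟨n, hn⟩ := addVal_exists_int ν ha0'
    have h0 : 0 ≤ ν (a : L) := a.2
    rw [hn] at h0
    have h0' : 0 ≤ n := by exact_mod_cast h0
    exact ⟨n.toNat, a, haI, ha0, by rw [hn, Int.toNat_of_nonneg h0']⟩
  obtain ⟨b, hbI, hb0, hb⟩ := Nat.find_spec hex
  refine ⟨b, le_antisymm ?_ ?_⟩
  · intro c hc
    by_cases hc0 : c = 0
    · rw [hc0]; exact Submodule.zero_mem _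
    have hc0' : (c : L) ≠ 0 := fun h => hc0 (Subtype.ext h)
    have hb0' : (b : L) ≠ 0 := fun h => hb0 (Subtype.ext h)
    obtain ⟨m, hm⟩ := addVal_exists_int ν hc0'
    have h0 : 0 ≤ ν (c : L) := c.2
    rw [hm] at h0
    have h0' : 0 ≤ m := by exact_mod_cast h0
    have hmin : Nat.find hex ≤ m.toNat :=
      Nat.find_min' hex ⟨c, hc, hc0, by rw [hm, Int.toNat_of_nonneg h0']⟩
    have hmem : (c : L) * (b : L)⁻¹ ∈ addValRing ν := by
      show 0 ≤ ν ((c : L) * (b : L)⁻¹)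
      rw [ν.map_mul, hm, addVal_inv ν hb0' hb]
      have : (0 : ℤ) ≤ m + -(Nat.find hex : ℤ) := by omega
      exact_mod_cast this
    rw [Submodule.mem_span_singleton]
    refine ⟨⟨_, hmem⟩, Subtype.ext ?_⟩
    show (c : L) * (b : L)⁻¹ * (b : L) = c
    exact inv_mul_cancel_right₀ hb0' _
  · rw [Submodule.span_singleton_le_iff_mem]
    exact hbI

/-- The place of a nontrivial `ℤ`-valued valuation. -/
def placeOfVal (hK : ∀ c : K, 0 ≤ ν (algebraMap K L c)) (hnt : ∃ x : L, ν x < 0) : Place K L where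
  toValuationSubring := addValRing ν
  algebraMap_mem' := hK
  ne_top' h := by
    obtain ⟨x, hx⟩ := hnt
    have : x ∈ addValRing ν := by rw [h]; trivial
    exact absurd ((mem_addValRing ν).mp this) (not_le.mpr hx)
  isPrincipalIdealRing' := isPrincipalIdealRing_addValRing ν

theorem mem_placeOfVal (hK : ∀ c : K, 0 ≤ ν (algebraMap K L c)) (hnt : ∃ x : L, ν x < 0) {l : L} :
    l ∈ (placeOfVal ν hK hnt).toValuationSubring ↔ 0 ≤ ν l := Iff.rfl

/-- `ν = e • ord_w` for `w` the place of `ν`. -/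
theorem exists_mul_ord_placeOfVal (hK : ∀ c : K, 0 ≤ ν (algebraMap K L c))
    (hnt : ∃ x : L, ν x < 0) : ∃ e : ℕ, 0 < e ∧ ∀ l : L, l ≠ 0 →
      ν l = ((e * (placeOfVal ν hK hnt).ord l : ℤ) : WithTop ℤ) := by
  set w := placeOfVal ν hK hnt with hw
  obtain ⟨t, ht⟩ := exists_ord_eq_one w
  have ht0 : t ≠ 0 := by
    rintro rfl
    rw [w.ord_zero] at ht
    omega
  obtain ⟨e, he⟩ := addVal_exists_int ν ht0
  have hinv : w.ord t⁻¹ < 0 := by rw [w.ord_inv, ht]; norm_num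
  have h1 := (not_mem_iff_ord w).mpr hinv
  rw [mem_placeOfVal, addVal_inv ν ht0 he, not_le] at h1
  have h2 : 0 < e := by
    have : (-e : ℤ) < 0 := by exact_mod_cast h1
    omega
  refine ⟨e.toNat, by omega, fun l hl => ?_⟩
  obtain ⟨n, hn⟩ := addVal_exists_int ν hl
  -- `u = l / t ^ ord l` has `ord u = 0`
  set m := w.ord l with hm
  have htm : t ^ m ≠ 0 := zpow_ne_zero _ ht0
  have hordt : ∀ k : ℤ, w.ord (t ^ k) = k := by
    intro k
    have := w.ord_zpow t k
    rw [this, ht, mul_one]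
  have hνt : ∀ k : ℤ, ν (t ^ k) = ((k * e : ℤ) : WithTop ℤ) := by
    have hnat : ∀ k : ℕ, ν (t ^ k) = ((k * e : ℤ) : WithTop ℤ) := by
      intro k
      rw [ν.map_pow, he]
      rw [← WithTop.coe_nsmul]
      simp
    intro k
    rcases k with k | k
    · rw [Int.ofNat_eq_natCast, zpow_natCast]
      exact hnat k
    · rw [zpow_negSucc, addVal_inv ν (pow_ne_zero _ ht0) (hnat (k + 1)), Int.negSucc_eq]
      congr 1
      push_cast
      ring
  have hu : w.ord (l * (t ^ m)⁻¹) = 0 := by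
    rw [w.ord_mul hl (inv_ne_zero htm), w.ord_inv, hordt, ← hm]
    ring
  have hu0 : l * (t ^ m)⁻¹ ≠ 0 := mul_ne_zero hl (inv_ne_zero htm)
  have hν1 : 0 ≤ ν (l * (t ^ m)⁻¹) := by
    rw [← mem_placeOfVal ν hK hnt, mem_iff_ord _ hu0, ← hw, hu]
  have hν2 : 0 ≤ ν (l * (t ^ m)⁻¹)⁻¹ := by
    rw [← mem_placeOfVal ν hK hnt, mem_iff_ord _ (inv_ne_zero hu0), ← hw, w.ord_inv, hu, neg_zero]
  obtain ⟨k, hk⟩ := addVal_exists_int ν hu0
  rw [addVal_inv ν hu0 hk] at hν2
  rw [hk] at hν1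
  have hk0 : k = 0 := by
    have h3 : 0 ≤ k := by exact_mod_cast hν1
    have h4 : 0 ≤ -k := by exact_mod_cast hν2
    omega
  rw [ν.map_mul, hn, addVal_inv ν htm (hνt m), hk0] at hk
  have h5 : n + -(m * e) = 0 := by exact_mod_cast hk
  rw [hn]
  congr 1
  rw [Int.toNat_of_nonneg h2.le]
  linarith

theorem ord_placeOfVal_le (hK : ∀ c : K, 0 ≤ ν (algebraMap K L c))
    (hnt : ∃ x : L, ν x < 0) {l : L} {n : ℤ} (hl : ν l = n) (hn : 0 < n) :
    0 < (placeOfVal ν hK hnt).ord l ∧ (placeOfVal ν hK hnt).ord l ≤ n := by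
  obtain ⟨e, he, h⟩ := exists_mul_ord_placeOfVal ν hK hnt
  have hl0 : l ≠ 0 := by
    rintro rfl
    rw [ν.map_zero] at hl
    exact WithTop.top_ne_coe hl
  have h1 := h l hl0
  rw [hl] at h1
  have h2 : n = e * (placeOfVal ν hK hnt).ord l := by exact_mod_cast h1
  have he' : (1 : ℤ) ≤ e := by exact_mod_cast he
  constructor
  · by_contra h3
    rw [not_lt] at h3
    nlinarith
  · have h3 : 0 < (placeOfVal ν hK hnt).ord l := by
      by_contra h3
      rw [not_lt] at h3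
      nlinarith
    nlinarith

end PlaceOfVal

/-- A place from a ring homomorphism to Laurent series (over any field `k` with a map `K → k`
compatible with constants). -/
theorem exists_place_of_hom {K L k : Type*} [Field K] [Field L] [Algebra K L] [Field k]
    (φ : L →+* LaurentSeries k) (hφ : ∀ c : K, 0 ≤ (φ (algebraMap K L c)).orderTop)
    (x : L) (hx : (φ x).orderTop < 0) :
    ∃ w : Place K L, (∀ l, l ∈ w.toValuationSubring ↔ 0 ≤ (φ l).orderTop) ∧
      ∃ e : ℕ, 0 < e ∧ ∀ l : L, l ≠ 0 → (φ l).orderTop = ((e * w.ord l : ℤ) : WithTop ℤ) := by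
  let ν : AddValuation L (WithTop ℤ) := (HahnSeries.addVal ℤ k).comap φ
  have hν : ∀ l, ν l = (φ l).orderTop := fun l => rfl
  exact ⟨placeOfVal ν (fun c => hφ c) ⟨x, hx⟩, fun l => Iff.rfl,
    exists_mul_ord_placeOfVal ν _ _⟩

end Fermat.FF
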