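import Mathlib
import Fermat.Agent.FF.Principal
import Fermat.Prelude.Def_AlgebraicCurve_CanonicalDivisor

set_option autoImplicit false
set_option linter.style.haveILetI false
set_option linter.unusedSectionVars false

noncomputable section

open AlgebraicCurve IsDedekindDomain WithZero IsLocalRing Polynomial IntermediateField
open KaehlerDifferential TensorProduct

namespace Fermat.FF

section Etale

variable {K F : Type*} [Field K] [Field F] [Algebra K F]

/-- For `t` transcendental with `F/K(t)` finite separable there is an `F`-linear equivalence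
`Ω[F/K] ≃ F` sending `dt` to `1`. -/
theorem exists_kaehlerEquiv {t : F} (ht : Transcendental K t) [FiniteDimensional K⟮t⟯ F]
    [Algebra.IsSeparable K⟮t⟯ F] :
    ∃ e : Ω[F⁄K] ≃ₗ[F] F, e (D K F t) = 1 := by
  letI : Algebra K[X] F := (aeval t : K[X] →ₐ[K] F).toRingHom.toAlgebra
  have hXF : ∀ P : K[X], algebraMap K[X] F P = aeval t P := fun P => rfl
  haveI : IsScalarTower K K[X] F := IsScalarTower.of_algebraMap_eq fun a => by
    rw [hXF]; simp
  letI : Algebra K[X] K⟮t⟯ := (aeval (AdjoinSimple.gen K t) : K[X] →ₐ[K] K⟮t⟯).toRingHom.toAlgebra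
  have hXk : ∀ P : K[X], algebraMap K[X] K⟮t⟯ P = aeval (AdjoinSimple.gen K t) P := fun P => rfl
  haveI : IsScalarTower K[X] K⟮t⟯ F := IsScalarTower.of_algebraMap_eq fun P => by
    rw [hXF, hXk]
    have := aeval_algebraMap_apply F (AdjoinSimple.gen K t) P
    rw [← this]; rfl
  haveI : FaithfulSMul K[X] K⟮t⟯ := by
    rw [faithfulSMul_iff_algebraMap_injective, injective_iff_map_eq_zero]
    intro P hP
    have h1 : algebraMap K[X] F P = 0 := by
      rw [IsScalarTower.algebraMap_apply K[X] K⟮t⟯ F, hP, map_zero]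
    rw [hXF] at h1
    by_contra hne
    exact ht ⟨P, hne, h1⟩
  haveI : IsFractionRing K[X] K⟮t⟯ := by
    refine IsFractionRing.of_field _ _ ?_
    rintro ⟨z, hz⟩
    obtain ⟨r, s, rfl⟩ := (IntermediateField.mem_adjoin_simple_iff K z).mp hz
    refine ⟨r, s, ?_⟩
    apply Subtype.ext
    rw [hXk, hXk]
    show _ = algebraMap K⟮t⟯ F (_ / _)
    rw [map_div₀, ← aeval_algebraMap_apply, ← aeval_algebraMap_apply]
    rfl
  haveI : Algebra.FormallyEtale K[X] K⟮t⟯ :=
    Algebra.FormallyEtale.of_isLocalization (nonZeroDivisors K[X])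
  haveI : Algebra.FormallyEtale K⟮t⟯ F := Algebra.FormallyEtale.of_isSeparable _ _
  haveI : Algebra.FormallyEtale K[X] F := Algebra.FormallyEtale.comp K[X] K⟮t⟯ F
  let e1 : F ⊗[K[X]] Ω[K[X]⁄K] ≃ₗ[F] Ω[F⁄K] := tensorKaehlerEquivOfFormallyEtale K K[X] F
  let e2 : F ⊗[K[X]] Ω[K[X]⁄K] ≃ₗ[F] F ⊗[K[X]] K[X] :=
    TensorProduct.AlgebraTensorModule.congr (LinearEquiv.refl F F) (polynomialEquiv K)
  let e3 : F ⊗[K[X]] K[X] ≃ₗ[F] F := TensorProduct.AlgebraTensorModule.rid K[X] F F
  refine ⟨e1.symm.trans (e2.trans e3), ?_⟩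
  have h1 : e1.symm (D K F t) = 1 ⊗ₜ D K K[X] X := by
    have := tensorKaehlerEquivOfFormallyEtale_symm_D_algebraMap K K[X] F (X : K[X])
    rw [hXF, aeval_X] at this
    exact this
  rw [LinearEquiv.trans_apply, h1, LinearEquiv.trans_apply]
  simp [e2, e3]

end Etale

section Bound

variable {K F : Type*} [Field K] [Field F] [Algebra K F]

/-- The `K[t]`-submodule of elements of `O_v` with `δ`-image bounded by `C`. -/
def boundedSubmodule (v : Place K F) (t : F) (δ : Derivation K F F) (hδ : δ t = 1)
    (htv : t ∈ v.toValuationSubring) (C : ℤᵐ⁰) (hC : 1 ≤ C) :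
    Submodule (Algebra.adjoin K {t}) F where
  carrier := {x | v.adicValuation x ≤ 1 ∧ v.adicValuation (δ x) ≤ C}
  zero_mem' := by simp
  add_mem' := by
    rintro a b ⟨ha1, ha2⟩ ⟨hb1, hb2⟩
    refine ⟨(Valuation.map_add _ _ _).trans (max_le ha1 hb1), ?_⟩
    rw [map_add]
    exact (Valuation.map_add _ _ _).trans (max_le ha2 hb2)
  smul_mem' := by
    rintro ⟨r, hr⟩ x ⟨hx1, hx2⟩
    have h1 : v.adicValuation r ≤ 1 ∧ v.adicValuation (δ r) ≤ 1 := by
      induction hr using Algebra.adjoin_induction with
      | mem y hy =>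
        rw [Set.mem_singleton_iff] at hy
        subst hy
        refine ⟨v.adicValuation_le_one_of_mem htv, ?_⟩
        rw [hδ, map_one]
      | algebraMap a =>
        refine ⟨v.adicValuation_algebraMap_le_one a, ?_⟩
        rw [Derivation.map_algebraMap, map_zero]
        exact zero_le_one
      | add a b _ _ ha hb =>
        refine ⟨(Valuation.map_add _ _ _).trans (max_le ha.1 hb.1), ?_⟩
        rw [map_add]
        exact (Valuation.map_add _ _ _).trans (max_le ha.2 hb.2)
      | mul a b _ _ ha hb =>
        refine ⟨?_, ?_⟩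
        · rw [map_mul]
          exact mul_le_one' ha.1 hb.1
        · rw [Derivation.leibniz, smul_eq_mul, smul_eq_mul]
          refine (Valuation.map_add _ _ _).trans (max_le ?_ ?_)
          · rw [map_mul]
            exact mul_le_one' ha.1 hb.2
          · rw [map_mul]
            exact mul_le_one' hb.1 ha.2
    show v.adicValuation (r * x) ≤ 1 ∧ v.adicValuation (δ (r * x)) ≤ C
    refine ⟨?_, ?_⟩
    · rw [map_mul]
      exact mul_le_one' h1.1 hx1
    · rw [Derivation.leibniz, smul_eq_mul, smul_eq_mul]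
      refine (Valuation.map_add _ _ _).trans (max_le ?_ ?_)
      · rw [map_mul]
        exact (mul_le_of_le_one_left' h1.1).trans hx2
      · rw [map_mul]
        exact (mul_le_one' hx1 h1.2).trans hC

theorem exists_bound [IsFF1 K F] [CharZero K] (v : Place K F) {t : F} (ht : Transcendental K t)
    (δ : Derivation K F F) (hδ : δ t = 1)
    (htv : t ∈ v.toValuationSubring) :
    ∃ C : ℤᵐ⁰, 1 ≤ C ∧ ∀ b : integralClosure (Algebra.adjoin K {t}) F,
      v.adicValuation (δ (b : F)) ≤ C := by
  classical
  have := adjoin_isPrincipalIdealRing ht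
  have := IsFF1.finiteDimensional_adjoin ht
  have hfin : Module.Finite (Algebra.adjoin K {t}) (integralClosure (Algebra.adjoin K {t}) F) :=
    open IntermediateField.algebraAdjoinAdjoin in
    IsIntegralClosure.finite (Algebra.adjoin K {t}) K⟮t⟯ F _
  obtain ⟨s, hs⟩ := hfin.fg_top
  have hR : ∀ r : Algebra.adjoin K {t}, algebraMap (Algebra.adjoin K {t}) F r ∈
      v.toValuationSubring := by
    have h2 : Algebra.adjoin K {t} ≤
        { v.toValuationSubring.toSubring.toSubsemiring with
          algebraMap_mem' := v.algebraMap_mem' } := by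
      apply Algebra.adjoin_le
      rintro _ rfl
      exact htv
    exact fun r => h2 r.2
  have hB := integralClosure_le_of_le hR
  set g : integralClosure (Algebra.adjoin K {t}) F → ℤᵐ⁰ :=
    fun b => v.adicValuation (δ (b : F)) with hg
  set C : ℤᵐ⁰ := (insert 1 (s.image g)).sup' (by simp) id with hC
  have hC1 : 1 ≤ C := Finset.le_sup' id (by simp)
  refine ⟨C, hC1, fun b => ?_⟩
  have hb : b ∈ Submodule.span (Algebra.adjoin K {t}) (s : Set _) := by
    rw [hs]; trivial
  have hle : Submodule.span (Algebra.adjoin K {t}) (s : Set _) ≤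
      Submodule.comap (Algebra.linearMap (integralClosure (Algebra.adjoin K {t}) F) F
        |>.restrictScalars (Algebra.adjoin K {t})) (boundedSubmodule v t δ hδ htv C hC1) := by
    rw [Submodule.span_le]
    intro x hx
    refine ⟨v.adicValuation_le_one_of_mem (hB x), ?_⟩
    refine Finset.le_sup' (s := insert 1 (s.image g)) id (b := g x) ?_
    rw [Finset.mem_insert, Finset.mem_image]
    exact Or.inr ⟨x, hx, rfl⟩
  exact (hle hb).2

theorem exists_bound' [IsFF1 K F] [CharZero K] (v : Place K F) {t : F} (ht : Transcendental K t)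
    (δ : Derivation K F F) (hδ : δ t = 1)
    (htv : t ∈ v.toValuationSubring) :
    ∃ C : ℤᵐ⁰, 1 ≤ C ∧ ∀ u ∈ v.toValuationSubring, v.adicValuation (δ u) ≤ C := by
  obtain ⟨C, hC1, hC⟩ := exists_bound v ht δ hδ htv
  refine ⟨C, hC1, fun u hu => ?_⟩
  have := adjoin_isPrincipalIdealRing ht
  have := IsFF1.finiteDimensional_adjoin ht
  have hR : ∀ r : Algebra.adjoin K {t}, algebraMap (Algebra.adjoin K {t}) F r ∈
      v.toValuationSubring := by
    have h2 : Algebra.adjoin K {t} ≤
        { v.toValuationSubring.toSubring.toSubsemiring with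
          algebraMap_mem' := v.algebraMap_mem' } := by
      apply Algebra.adjoin_le
      rintro _ rfl
      exact htv
    exact fun r => h2 r.2
  have hB := integralClosure_le_of_le hR
  have hded : IsDedekindDomain (integralClosure (Algebra.adjoin K {t}) F) :=
    open IntermediateField.algebraAdjoinAdjoin in
    integralClosure.isDedekindDomain _ K⟮t⟯ F
  have hfrac : IsFractionRing (integralClosure (Algebra.adjoin K {t}) F) F :=
    open IntermediateField.algebraAdjoinAdjoin in
    integralClosure.isFractionRing_of_finite_extension K⟮t⟯ F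
  have h1 := eq_ofHeightOneSpectrum v hB
  have h2 : u ∈ (Place.ofHeightOneSpectrum (K := K) (F := F)
    (R := integralClosure (Algebra.adjoin K {t}) F)
      ⟨centre v hB, centre_isPrime v hB, centre_ne_bot v hB⟩).toValuationSubring := by
    rw [← h1]; exact hu
  rw [Place.ofHeightOneSpectrum_toValuationSubring,
    ← HeightOneSpectrum.valuationSubringAtPrime_eq_valuationSubring] at h2
  obtain ⟨a, s, hs, hus⟩ := h2
  have hs' : s ∉ centre v hB := hs
  rw [mem_centre, not_lt] at hs'
  have h3 : v.adicValuation (s : F) = 1 :=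
    le_antisymm (v.adicValuation_le_one_of_mem (hB s)) hs'
  have hs0 : (s : F) ≠ 0 := by
    intro h
    rw [h, map_zero] at h3
    exact zero_ne_one h3
  have h4 : u * s = a := by
    rw [hus]
    show (a : F) * (s : F)⁻¹ * s = a
    field_simp
  have h5 : s * δ u = δ (a : F) - u * δ (s : F) := by
    rw [← h4, Derivation.leibniz, smul_eq_mul, smul_eq_mul]
    ring
  have h6 : v.adicValuation (δ u) = v.adicValuation (s * δ u) := by
    rw [map_mul, h3, one_mul]
  rw [h6, h5]
  refine (Valuation.map_sub _ _ _).trans (max_le (hC a) ?_)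
  rw [map_mul]
  exact (mul_le_of_le_one_left' (v.adicValuation_le_one_of_mem hu)).trans (hC s)

theorem exists_expansion [IsFF1 K F] [IsAlgClosed K] (v : Place K F) {t : F} (ht : v.ord t = 1)
    {u : F} (hu : u ∈ v.toValuationSubring) (n : ℕ) :
    ∃ (P : K[X]) (w : F), w ∈ v.toValuationSubring ∧ u = aeval t P + t ^ n * w := by
  have ht0 : t ≠ 0 := ne_zero_of_ord_ne_zero v (by omega)
  induction n with
  | zero => exact ⟨0, u, hu, by simp⟩
  | succ n ih =>
    obtain ⟨P, w, hw, huw⟩ := ih
    obtain ⟨c, hc⟩ := exists_const_of_mem v hw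
    refine ⟨P + C c * X ^ n, (w - algebraMap K F c) / t, ?_, ?_⟩
    · rcases eq_or_ne (w - algebraMap K F c) 0 with h0 | h0
      · rw [h0, zero_div]; exact zero_mem _
      · rw [mem_iff_ord v (div_ne_zero h0 ht0), div_eq_mul_inv, v.ord_mul h0 (inv_ne_zero ht0),
          v.ord_inv, ht]
        have := ord_pos_of_val_lt_one v h0 hc
        omega
    · rw [huw]
      simp only [map_add, map_mul, aeval_C, map_pow, aeval_X]
      field_simp
      ring

theorem val_derivation_le_one [IsFF1 K F] [IsAlgClosed K] [CharZero K] (v : Place K F) {t : F}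
    (ht : v.ord t = 1) (δ : Derivation K F F) (hδ : δ t = 1) {u : F}
    (hu : u ∈ v.toValuationSubring) : v.adicValuation (δ u) ≤ 1 := by
  have ht0 : t ≠ 0 := ne_zero_of_ord_ne_zero v (by omega)
  have htv : t ∈ v.toValuationSubring := (mem_iff_ord v ht0).mpr (by omega)
  have htr : Transcendental K t := transcendental_of_ord_ne_zero (v := v) (by omega)
  obtain ⟨C, hC1, hC⟩ := exists_bound' v htr δ hδ htv
  have hC0 : C ≠ 0 := fun h => by rw [h] at hC1; exact absurd hC1 (by simp)
  have htval : v.adicValuation t = exp (-1) := by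
    rw [v.adicValuation_eq_exp_neg_ord ht0, ht]
  obtain ⟨n, hn⟩ : ∃ n : ℕ, exp (-(n : ℤ)) * C ≤ 1 := by
    refine ⟨(WithZero.log C).toNat, ?_⟩
    rw [← exp_log hC0, ← exp_add, ← exp_zero, exp_le_exp]
    simp only [log_exp]
    omega
  obtain ⟨P, w, hw, huw⟩ := exists_expansion v ht hu n
  have hpoly : ∀ Q : K[X], v.adicValuation (aeval t Q) ≤ 1 := fun Q => by
    apply v.adicValuation_le_one_of_mem
    have h2 : Algebra.adjoin K {t} ≤
        { v.toValuationSubring.toSubring.toSubsemiring with
          algebraMap_mem' := v.algebraMap_mem' } := by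
      apply Algebra.adjoin_le
      rintro _ rfl
      exact htv
    exact h2 (aeval_mem_adjoin_singleton K t)
  rw [huw, map_add, Derivation.map_aeval, hδ, Derivation.leibniz, Derivation.leibniz_pow, hδ]
  refine (Valuation.map_add _ _ _).trans (max_le ?_ ?_)
  · rw [smul_eq_mul, mul_one]
    exact hpoly _
  · refine (Valuation.map_add _ _ _).trans (max_le ?_ ?_)
    · rw [smul_eq_mul, map_mul, map_pow, htval, ← exp_nsmul]
      refine le_trans ?_ hn
      have h3 : n • (-1 : ℤ) = -(n : ℤ) := by simp
      rw [h3]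
      exact mul_le_mul_right (hC w hw) _
    · apply v.adicValuation_le_one_of_mem
      simp only [smul_eq_mul, mul_one, nsmul_eq_mul]
      exact mul_mem hw (mul_mem (natCast_mem _ _) (pow_mem htv _))

theorem ord_derivation [IsFF1 K F] [IsAlgClosed K] [CharZero K] (v : Place K F) {t : F}
    (ht : v.ord t = 1) (δ : Derivation K F F) (hδ : δ t = 1) {f : F}
    (hf : v.ord f ≠ 0) : δ f ≠ 0 ∧ v.ord (δ f) = v.ord f - 1 := by
  have ht0 : t ≠ 0 := ne_zero_of_ord_ne_zero v (by omega)
  have hf0 : f ≠ 0 := ne_zero_of_ord_ne_zero v hf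
  have htval : v.adicValuation t = exp (-1) := by
    rw [v.adicValuation_eq_exp_neg_ord ht0, ht]
  set m := v.ord f with hm
  set u := f * t ^ (-m) with hu
  have hu0 : u ≠ 0 := mul_ne_zero hf0 (zpow_ne_zero _ ht0)
  have hfu : f = u * t ^ m := by
    rw [hu, mul_assoc, ← zpow_add₀ ht0]
    simp
  have huord : v.ord u = 0 := by
    rw [hu, v.ord_mul hf0 (zpow_ne_zero _ ht0), v.ord_zpow, ht]
    omega
  have humem : u ∈ v.toValuationSubring := (mem_iff_ord v hu0).mpr huord.ge
  have huval : v.adicValuation u = 1 := (ord_eq_zero_iff_val v hu0).mp huord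
  have hδu := val_derivation_le_one v ht δ hδ humem
  have hδf : δ f = (m : F) * u * t ^ (m - 1) + t ^ m * δ u := by
    rw [hfu, Derivation.leibniz, Derivation.leibniz_zpow, hδ]
    simp only [smul_eq_mul, mul_one, zsmul_eq_mul]
    ring
  have hm0 : v.adicValuation ((m : ℤ) : F) = 1 := by
    have h1 : ((m : ℤ) : F) = algebraMap K F (m : K) := by simp
    have h2 : ((m : ℤ) : K) ≠ 0 := by exact_mod_cast hf
    rw [h1, ← ord_eq_zero_iff_val v ((_root_.map_ne_zero _).mpr h2), ord_algebraMap]
  have hval1 : v.adicValuation ((m : F) * u * t ^ (m - 1)) = exp (1 - m) := by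
    rw [map_mul, map_mul, hm0, huval, one_mul, one_mul, map_zpow₀, htval, ← exp_zsmul]
    congr 1
    simp
  have hval2 : v.adicValuation (t ^ m * δ u) ≤ exp (-m) := by
    rw [map_mul, map_zpow₀, htval, ← exp_zsmul]
    have : m • (-1 : ℤ) = -m := by simp
    rw [this]
    exact mul_le_of_le_one_right' hδu
  have hval3 : v.adicValuation (δ f) = exp (1 - m) := by
    rw [hδf, Valuation.map_add_eq_of_lt_left, hval1]
    rw [hval1]
    refine hval2.trans_lt ?_
    rw [exp_lt_exp]
    omega
  have hne : δ f ≠ 0 := by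
    intro h
    rw [h, map_zero] at hval3
    exact exp_ne_zero hval3.symm
  refine ⟨hne, ?_⟩
  rw [v.adicValuation_eq_exp_neg_ord hne, exp_inj] at hval3
  omega

end Bound

section Differential

variable {K F : Type*} [Field K] [Field F] [Algebra K F] [IsFF1 K F] [IsAlgClosed K] [CharZero K]

omit [IsAlgClosed K] in
theorem exists_kaehlerEquiv' {t : F} (ht : Transcendental K t) :
    ∃ e : Ω[F⁄K] ≃ₗ[F] F, e (D K F t) = 1 := by
  have := IsFF1.finiteDimensional_adjoin ht
  exact exists_kaehlerEquiv ht

/-- The derivation `d/dt`. -/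
def ddt {t : F} (ht : Transcendental K t) : Derivation K F F :=
  (exists_kaehlerEquiv' ht).choose.toLinearMap.compDer (D K F)

theorem ddt_self {t : F} (ht : Transcendental K t) : ddt ht t = 1 :=
  (exists_kaehlerEquiv' ht).choose_spec

theorem D_eq_ddt_smul {t : F} (ht : Transcendental K t) (f : F) :
    D K F f = ddt ht f • D K F t := by
  apply (exists_kaehlerEquiv' ht).choose.injective
  rw [map_smul, (exists_kaehlerEquiv' ht).choose_spec, smul_eq_mul, mul_one]
  rfl

theorem span_D_eq_top {t : F} (ht : Transcendental K t) :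
    Submodule.span F {D K F t} = ⊤ := by
  obtain ⟨e, he⟩ := exists_kaehlerEquiv' ht
  rw [eq_top_iff]
  intro x _
  rw [Submodule.mem_span_singleton]
  refine ⟨e x, e.injective ?_⟩
  rw [map_smul, he, smul_eq_mul, mul_one]

theorem D_ne_zero {t : F} (ht : Transcendental K t) : D K F t ≠ 0 := by
  obtain ⟨e, he⟩ := exists_kaehlerEquiv' ht
  intro h
  rw [h, map_zero] at he
  exact zero_ne_one he

theorem kaehler_free : Module.Free F Ω[F⁄K] := by
  obtain ⟨x, hx, _⟩ := IsFF1.exists_finite (K := K) (F := F)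
  obtain ⟨e, he⟩ := exists_kaehlerEquiv' hx
  exact Module.Free.of_equiv e.symm

theorem kaehler_finrank : Module.finrank F Ω[F⁄K] = 1 := by
  obtain ⟨x, hx, _⟩ := IsFF1.exists_finite (K := K) (F := F)
  obtain ⟨e, he⟩ := exists_kaehlerEquiv' hx
  rw [e.finrank_eq, Module.finrank_self]

theorem isCurveOver : IsCurveOver K F where
  toHasPrincipalDivisors := hasPrincipalDivisors
  finiteResidue := finite_residueField
  kaehler_free_rank_one := ⟨kaehler_free, kaehler_finrank⟩

theorem nontrivial_kaehler : Nontrivial Ω[F⁄K] := by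
  obtain ⟨x, hx, _⟩ := IsFF1.exists_finite (K := K) (F := F)
  exact ⟨D K F x, 0, D_ne_zero hx⟩

omit [IsFF1 K F] [IsAlgClosed K] [CharZero K] in
theorem exists_dCoord (v : Place K F) : ∃ t : F, v.ord t = 1 ∧ v.dCoord = D K F t :=
  ⟨_, v.ord_coe_irreducible
    (IsDiscreteValuationRing.exists_irreducible v.toValuationSubring).choose_spec, rfl⟩

theorem dCoordGenerates (v : Place K F) : v.DCoordGenerates := by
  obtain ⟨t, ht, hd⟩ := exists_dCoord v
  refine ⟨?_⟩
  rw [hd]
  exact span_D_eq_top (transcendental_of_ord_ne_zero (v := v) (by omega))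

/-- the order of `df` at a place where `f` has nonzero order -/
theorem ordDifferential_D_of_ord_ne_zero (v : Place K F) {f : F} (hf : v.ord f ≠ 0) :
    v.ordDifferential (D K F f) = v.ord f - 1 := by
  have := dCoordGenerates v
  have := nontrivial_kaehler (K := K) (F := F)
  obtain ⟨t, ht, hd⟩ := exists_dCoord v
  have htr : Transcendental K t := transcendental_of_ord_ne_zero (v := v) (by omega)
  have h1 : D K F f = ddt htr f • v.dCoord := by rw [hd]; exact D_eq_ddt_smul htr f
  rw [Place.ordDifferential, v.differentialCoeff_unique h1]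
  exact (ord_derivation v ht (ddt htr) (ddt_self htr) hf).2

theorem ordDifferential_D_sub (v : Place K F) {f : F} (a : K)
    (hf : 0 < v.ord (f - algebraMap K F a)) :
    v.ordDifferential (D K F f) = v.ord (f - algebraMap K F a) - 1 := by
  rw [← ordDifferential_D_of_ord_ne_zero v hf.ne']
  congr 1
  rw [map_sub, Derivation.map_algebraMap, sub_zero]

theorem differentialCoeff_ne_zero (v : Place K F) {ω : Ω[F⁄K]} (hω : ω ≠ 0) :
    v.differentialCoeff ω ≠ 0 := by
  have := dCoordGenerates v
  intro h
  apply hω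
  rw [← v.differentialCoeff_smul_dCoord ω, h, zero_smul]

theorem ordDifferential_smul' (v : Place K F) {c : F} (hc : c ≠ 0) {ω : Ω[F⁄K]} (hω : ω ≠ 0) :
    v.ordDifferential (c • ω) = v.ord c + v.ordDifferential ω := by
  have := dCoordGenerates v
  have := nontrivial_kaehler (K := K) (F := F)
  exact v.ordDifferential_smul hc (differentialCoeff_ne_zero v hω)

end Differential

end Fermat.FF
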