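import Mathlib
import Fermat.Agent.FF.Kaehler

set_option autoImplicit false
set_option linter.style.haveILetI false

noncomputable section

open AlgebraicCurve IsDedekindDomain WithZero IsLocalRing Polynomial IntermediateField
open KaehlerDifferential

namespace Fermat.FF

section Hurwitz

variable {K F : Type*} [Field K] [Field F] [Algebra K F] [IsFF1 K F] [IsAlgClosed K] [CharZero K]

omit [IsFF1 K F] [IsAlgClosed K] [CharZero K] in
theorem sub_ne_zero_of_transcendental {x : F} (hx : Transcendental K x) (a : K) :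
    x - algebraMap K F a ≠ 0 := by
  intro h
  rw [sub_eq_zero] at h
  exact hx (h ▸ isAlgebraic_algebraMap a)

theorem degree_eq_sum (D : Divisor K F) : Divisor.degree D = ∑ v ∈ D.support, D v := by
  rw [Divisor.degree, Finsupp.liftAddHom_apply, Finsupp.sum]
  refine Finset.sum_congr rfl fun v _ => ?_
  simp [deg_eq_one]

omit [IsAlgClosed K] in
theorem zeroSet_finite {x : F} (hx : Transcendental K x) (a : K) :
    {v : Place K F | 0 < v.ord (x - algebraMap K F a)}.Finite := by
  refine (posSet_finite' hx a).subset fun v hv => ?_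
  rw [Set.mem_ofPred_eq] at hv ⊢
  rw [val_lt_one_iff]
  exact Or.inr hv

theorem sum_zeroSet {x : F} (hx : Transcendental K x) (a : K) :
    ∑ v ∈ (zeroSet_finite hx a).toFinset, v.ord (x - algebraMap K F a) =
      Module.finrank K⟮x⟯ F := by
  rw [← sum_ord_sub_eq hx a]
  refine Finset.sum_congr ?_ fun v _ => by simp
  ext v
  simp only [Set.Finite.mem_toFinset, Set.mem_ofPred_eq]
  rw [val_lt_one_iff, or_iff_right (sub_ne_zero_of_transcendental hx a)]

omit [IsAlgClosed K] in
theorem poleSet_finite {x : F} (hx : Transcendental K x) :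
    {v : Place K F | v.ord x < 0}.Finite := by
  refine (posSet_finite (transcendental_inv hx)).subset fun v hv => ?_
  rw [Set.mem_ofPred_eq] at hv ⊢
  rw [v.ord_inv]
  omega

theorem sum_poleSet {x : F} (hx : Transcendental K x) :
    ∑ v ∈ (poleSet_finite hx).toFinset, v.ord x = - (Module.finrank K⟮x⟯ F : ℤ) := by
  rw [← sum_pos_ord_inv hx, ← Finset.sum_neg_distrib]
  refine Finset.sum_congr ?_ fun v _ => by rw [v.ord_inv, neg_neg]
  ext v
  simp only [Set.Finite.mem_toFinset, Set.mem_ofPred_eq, v.ord_inv]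
  omega

/-- For `F/K` a function field over an algebraically closed field of characteristic zero and
`x : F` transcendental, the divisor of `dx` has degree determined by the cardinalities of the
fibres of `x`. -/
theorem degree_div_D {x : F} (hx : Transcendental K x) (S : Finset K)
    (hS : ∀ a, a ∉ S → {v : Place K F | 0 < v.ord (x - algebraMap K F a)}.ncard =
      Module.finrank K⟮x⟯ F)
    (D : Divisor K F) (hD : ∀ v : Place K F, D v = v.ordDifferential (KaehlerDifferential.D K F x)) :
    Divisor.degree D =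
      ∑ a ∈ S, ((Module.finrank K⟮x⟯ F : ℤ) -
        {v : Place K F | 0 < v.ord (x - algebraMap K F a)}.ncard) -
      Module.finrank K⟮x⟯ F - {v : Place K F | v.ord x < 0}.ncard := by
  classical
  set n := Module.finrank K⟮x⟯ F with hn
  set Z : K → Finset (Place K F) := fun a => (zeroSet_finite hx a).toFinset with hZ
  set P : Finset (Place K F) := (poleSet_finite hx).toFinset with hP
  have hZcard : ∀ a, {v : Place K F | 0 < v.ord (x - algebraMap K F a)}.ncard = (Z a).card :=
    fun a => Set.ncard_eq_toFinset_card _ (zeroSet_finite hx a)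
  have hPcard : {v : Place K F | v.ord x < 0}.ncard = P.card :=
    Set.ncard_eq_toFinset_card _ (poleSet_finite hx)
  have hmemZ : ∀ a v, v ∈ Z a ↔ 0 < v.ord (x - algebraMap K F a) := fun a v => by
    rw [hZ, Set.Finite.mem_toFinset, Set.mem_ofPred_eq]
  have hmemP : ∀ v, v ∈ P ↔ v.ord x < 0 := fun v => by
    rw [hP, Set.Finite.mem_toFinset, Set.mem_ofPred_eq]
  have hdisjZ : ∀ a b, a ≠ b → Disjoint (Z a) (Z b) := by
    intro a b hab
    rw [Finset.disjoint_left]
    intro v hva hvb
    rw [hmemZ] at hva hvb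
    have h1 : algebraMap K F (b - a) = (x - algebraMap K F a) + -(x - algebraMap K F b) := by
      rw [map_sub]; ring
    have h2 : algebraMap K F (b - a) ≠ 0 :=
      (_root_.map_ne_zero _).mpr (sub_ne_zero.mpr hab.symm)
    have h3 : 1 ≤ v.ord (algebraMap K F (b - a)) := by
      rw [h1]
      refine ord_add_ge v (h1 ▸ h2) (Or.inr (by omega)) (Or.inr ?_)
      rw [ord_neg]; omega
    rw [ord_algebraMap] at h3
    omega
  have hxmem : ∀ a v, v ∈ Z a → x ∈ v.toValuationSubring := by
    intro a v hv
    rw [hmemZ] at hv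
    have h1 : x - algebraMap K F a ∈ v.toValuationSubring :=
      (mem_iff_ord v (sub_ne_zero_of_transcendental hx a)).mpr hv.le
    simpa using add_mem h1 (v.algebraMap_mem' a)
  have hdisjP : Disjoint (S.biUnion Z) P := by
    rw [Finset.disjoint_left]
    intro v hva hvb
    rw [Finset.mem_biUnion] at hva
    obtain ⟨a, _, hva⟩ := hva
    rw [hmemP, ← not_mem_iff_ord] at hvb
    exact hvb (hxmem a v hva)
  -- outside `S` everything is unramified
  have hone : ∀ a, a ∉ S → ∀ v ∈ Z a, v.ord (x - algebraMap K F a) = 1 := by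
    intro a ha v hv
    have h1 := hS a ha
    rw [hZcard] at h1
    have h2 := sum_zeroSet hx a
    rw [← hn, ← h1] at h2
    have h3 : ∑ v ∈ Z a, (v.ord (x - algebraMap K F a) - 1) = 0 := by
      rw [Finset.sum_sub_distrib, Finset.sum_const, nsmul_eq_mul, mul_one]
      have : ∑ v ∈ Z a, v.ord (x - algebraMap K F a) = (Z a).card := h2
      rw [this, sub_self]
    have h4 := (Finset.sum_eq_zero_iff_of_nonneg (fun w hw => by
      have := (hmemZ a w).mp hw
      omega)).mp h3 v hv
    omega
  have hsupp : D.support ⊆ S.biUnion Z ∪ P := by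
    intro v hv
    rw [Finsupp.mem_support_iff, hD] at hv
    rw [Finset.mem_union, Finset.mem_biUnion]
    by_cases hvP : v ∈ P
    · exact Or.inr hvP
    left
    rw [hmemP, ← not_mem_iff_ord, not_not] at hvP
    obtain ⟨a, ha⟩ := exists_const_of_mem v hvP
    have ha' : v ∈ Z a := by
      rw [hmemZ]
      exact ord_pos_of_val_lt_one v (sub_ne_zero_of_transcendental hx a) ha
    by_cases haS : a ∈ S
    · exact ⟨a, haS, ha'⟩
    · exfalso
      apply hv
      rw [ordDifferential_D_sub v a ((hmemZ a v).mp ha'), hone a haS v ha', sub_self]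
  rw [degree_eq_sum, Finset.sum_subset hsupp (fun v _ hv => Finsupp.notMem_support_iff.mp hv),
    Finset.sum_union hdisjP, Finset.sum_biUnion (fun a _ b _ hab => hdisjZ a b hab)]
  have hsum1 : ∀ a ∈ S, ∑ v ∈ Z a, D v = (n : ℤ) -
      {v : Place K F | 0 < v.ord (x - algebraMap K F a)}.ncard := by
    intro a _
    rw [hZcard, Finset.sum_congr rfl (fun v hv => (hD v).trans
      (ordDifferential_D_sub v a ((hmemZ a v).mp hv))), Finset.sum_sub_distrib, Finset.sum_const,
      nsmul_eq_mul, mul_one]
    have : ∑ v ∈ Z a, v.ord (x - algebraMap K F a) = n := sum_zeroSet hx a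
    rw [this]
  have hsum2 : ∑ v ∈ P, D v = - (n : ℤ) - P.card := by
    rw [Finset.sum_congr rfl (fun v hv => (hD v).trans
      (ordDifferential_D_of_ord_ne_zero v ((hmemP v).mp hv).ne)), Finset.sum_sub_distrib,
      Finset.sum_const, nsmul_eq_mul, mul_one]
    have : ∑ v ∈ P, v.ord x = -(n : ℤ) := sum_poleSet hx
    rw [this]
  rw [Finset.sum_congr rfl hsum1, hsum2, hPcard]
  ring

/-- The degree of the divisor of any nonzero differential. -/
theorem degree_div_ω {x : F} (hx : Transcendental K x) (S : Finset K)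
    (hS : ∀ a, a ∉ S → {v : Place K F | 0 < v.ord (x - algebraMap K F a)}.ncard =
      Module.finrank K⟮x⟯ F)
    {ω : Ω[F⁄K]} (hω : ω ≠ 0)
    (D : Divisor K F) (hD : ∀ v : Place K F, D v = v.ordDifferential ω) :
    Divisor.degree D =
      ∑ a ∈ S, ((Module.finrank K⟮x⟯ F : ℤ) -
        {v : Place K F | 0 < v.ord (x - algebraMap K F a)}.ncard) -
      Module.finrank K⟮x⟯ F - {v : Place K F | v.ord x < 0}.ncard := by
  obtain ⟨c, hc⟩ : ∃ c : F, c • KaehlerDifferential.D K F x = ω := by
    have : ω ∈ Submodule.span F {KaehlerDifferential.D K F x} := by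
      rw [span_D_eq_top hx]; trivial
    exact Submodule.mem_span_singleton.mp this
  have hc0 : c ≠ 0 := by
    rintro rfl
    rw [zero_smul] at hc
    exact hω hc.symm
  obtain ⟨E, hE, hE0⟩ := (hasPrincipalDivisors (K := K) (F := F)).exists_divisor c hc0
  have h1 : ∀ v : Place K F, (D - E) v = v.ordDifferential (KaehlerDifferential.D K F x) := by
    intro v
    rw [Finsupp.sub_apply, hD, hE, ← hc, ordDifferential_smul' v hc0 (D_ne_zero hx)]
    ring
  have h2 := degree_div_D hx S hS (D - E) h1
  rw [map_sub, hE0, sub_zero] at h2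
  exact h2

/-- The genus (in the sense of the prelude) from fibre cardinalities. -/
theorem genus_eq [HasCanonicalDivisor (K := K) (F := F)] {x : F} (hx : Transcendental K x)
    (S : Finset K)
    (hS : ∀ a, a ∉ S → {v : Place K F | 0 < v.ord (x - algebraMap K F a)}.ncard =
      Module.finrank K⟮x⟯ F) (g : ℕ)
    (hg : (2 * g : ℤ) - 2 = ∑ a ∈ S, ((Module.finrank K⟮x⟯ F : ℤ) -
        {v : Place K F | 0 < v.ord (x - algebraMap K F a)}.ncard) -
      Module.finrank K⟮x⟯ F - {v : Place K F | v.ord x < 0}.ncard) :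
    genus K F = g := by
  have h : ∃ ω : Ω[F⁄K], ω ≠ 0 := ⟨_, D_ne_zero hx⟩
  unfold genus
  rw [dif_pos h, degree_div_ω hx S hS h.choose_spec _ (canonicalDivisorOf_apply h.choose_spec),
    ← hg]
  omega

end Hurwitz

end Fermat.FF
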