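import Mathlib
import Fermat.Agent.FF.Hurwitz
import Fermat.Prelude.Def_AlgebraicCurve_DivisorPushPull

set_option autoImplicit false
set_option linter.style.haveILetI false
set_option linter.unusedSectionVars false

noncomputable section

open AlgebraicCurve IsDedekindDomain WithZero IsLocalRing Polynomial IntermediateField

namespace Fermat.FF

section Action

variable {K E : Type*} [Field K] [Field E] [Algebra K E]

theorem mem_smul_place (g : E ≃ₐ[K] E) (w : Place K E) (x : E) :
    g x ∈ (g • w).toValuationSubring ↔ x ∈ w.toValuationSubring := by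
  rw [Place.smul_toValuationSubring]
  have := ValuationSubring.smul_mem_pointwise_smul_iff (g := g) (S := w.toValuationSubring) (x := x)
  rwa [AlgEquiv.smul_def] at this

theorem val_smul_place_lt_one (g : E ≃ₐ[K] E) (w : Place K E) (x : E) :
    (g • w).adicValuation (g x) < 1 ↔ w.adicValuation x < 1 := by
  rw [val_lt_one_iff, val_lt_one_iff, Place.ord_smul, map_eq_zero_iff _ g.injective]

variable {R : Type*} [CommRing R] [Algebra R E]

theorem exists_smul_eq_of_centre_eq [Algebra K R] [IsScalarTower K R E]
    (G : Subgroup (E ≃ₐ[K] E)) [Finite G] [SMulCommClass G R E]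
    (hinv : ∀ x : E, IsIntegral R x → (∀ g ∈ G, g x = x) → ∃ r : R, algebraMap R E r = x)
    [IsDedekindDomain (integralClosure R E)] [IsFractionRing (integralClosure R E) E]
    (w w' : Place K E) (hw : ∀ r : R, algebraMap R E r ∈ w.toValuationSubring)
    (hw' : ∀ r : R, algebraMap R E r ∈ w'.toValuationSubring)
    (hc : centre w hw = centre w' hw') : ∃ g ∈ G, w' = g • w := by
  have hB := integralClosure_le_of_le hw
  have hB' := integralClosure_le_of_le hw'
  have hI : Algebra.IsInvariant R (integralClosure R E) G := by
    refine ⟨fun b hb => ?_⟩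
    obtain ⟨r, hr⟩ := hinv b b.2 fun g hg => congrArg Subtype.val (hb ⟨g, hg⟩)
    exact ⟨r, Subtype.ext hr⟩
  have hunder : (centre w hB).under R = (centre w' hB').under R := by
    ext r
    have h1 : r ∈ centre w hw ↔ r ∈ centre w' hw' := by rw [hc]
    rw [mem_centre, mem_centre] at h1
    rw [Ideal.under_def, Ideal.under_def, Ideal.mem_comap, Ideal.mem_comap, mem_centre, mem_centre]
    exact h1
  obtain ⟨⟨g, hg⟩, hgP⟩ := Algebra.IsInvariant.exists_smul_of_under_eq R (integralClosure R E) G
    (centre w hB) (centre w' hB') hunder
  refine ⟨g, hg, ?_⟩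
  have hgB : ∀ b : integralClosure R E, algebraMap (integralClosure R E) E b ∈
      (g • w).toValuationSubring := by
    intro b
    have h1 := hB ((⟨g, hg⟩ : G)⁻¹ • b)
    rw [← mem_smul_place g] at h1
    have h2 : g (algebraMap (integralClosure R E) E ((⟨g, hg⟩ : G)⁻¹ • b)) = b := by
      show g (g⁻¹ (b : E)) = b
      exact AlgEquiv.apply_symm_apply g (b : E)
    rwa [h2] at h1
  rw [eq_ofHeightOneSpectrum w' hB', eq_ofHeightOneSpectrum (g • w) hgB]
  congr 1
  apply HeightOneSpectrum.ext
  show centre w' hB' = centre (g • w) hgB
  rw [hgP]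
  ext b
  rw [Ideal.mem_pointwise_smul_iff_inv_smul_mem, mem_centre, mem_centre]
  rw [← val_smul_place_lt_one g w]
  have h2 : g (algebraMap (integralClosure R E) E ((⟨g, hg⟩ : G)⁻¹ • b)) = b := by
    show g (g⁻¹ (b : E)) = b
    exact AlgEquiv.apply_symm_apply g (b : E)
  rw [h2]
  rfl

end Action

section Restrict

variable {K F E : Type*} [Field K] [Field F] [Field E] [Algebra K F] [Algebra K E] [Algebra F E]
  [IsScalarTower K F E] [FiniteDimensional F E]

theorem restrict_eq_iff {v : Place K F} {w : Place K E} :
    w.restrict F = v ↔ ∀ x ∈ v.toValuationSubring, algebraMap F E x ∈ w.toValuationSubring := by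
  constructor
  · rintro rfl x hx
    exact (Place.mem_restrict_iff w).mp hx
  · intro h
    symm
    apply place_eq_of_le
    intro x hx
    exact (Place.mem_restrict_iff w).mpr (h x hx)

theorem val_restrict_lt_one (w : Place K E) (x : F) :
    (w.restrict F).adicValuation x < 1 ↔ w.adicValuation (algebraMap F E x) < 1 := by
  rw [val_lt_one_iff, val_lt_one_iff, Place.ord_restrict, map_eq_zero_iff _ (algebraMap F E).injective]
  have : 0 < w.ramificationIndex F := w.ramificationIndex_pos
  refine or_congr_right ⟨fun h => by positivity, fun h => ?_⟩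
  exact pos_of_mul_pos_right (by simpa using h) (by positivity)

/-- every place of `F` extends to a place of a finite separable extension `E`. -/
theorem restrict_surjective [Algebra.IsSeparable F E] (v : Place K F) :
    ∃ w : Place K E, w.restrict F = v := by
  letI : Algebra v.toValuationSubring E :=
    ((algebraMap F E).comp (algebraMap v.toValuationSubring F)).toAlgebra
  haveI : IsScalarTower v.toValuationSubring F E := IsScalarTower.of_algebraMap_eq fun _ => rfl
  haveI : IsScalarTower K v.toValuationSubring E := IsScalarTower.of_algebraMap_eq fun a => by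
    rw [IsScalarTower.algebraMap_apply v.toValuationSubring F E,
      IsScalarTower.algebraMap_apply K F E]
    rfl
  obtain ⟨ϖ, hϖ⟩ := IsDiscreteValuationRing.exists_irreducible v.toValuationSubring
  have hmax : (Ideal.span {ϖ}).IsMaximal := PrincipalIdealRing.isMaximal_of_irreducible hϖ
  haveI : FaithfulSMul v.toValuationSubring E := faithful_of_tower F
  obtain ⟨Q, hQ1, hQ2⟩ := Ideal.exists_maximal_ideal_liesOver_of_isIntegral
    (S := integralClosure v.toValuationSubring E) (Ideal.span {ϖ})
  have hQ : Q ∈ (Ideal.span {ϖ}).primesOver (integralClosure v.toValuationSubring E) :=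
    ⟨hQ1.isPrime, hQ2⟩
  have e := fiberEquiv (K := K) (F := E) F ϖ hϖ
  obtain ⟨w, hw⟩ := e.symm ⟨Q, hQ⟩
  exact ⟨w, restrict_eq_iff.mpr fun x hx => hw.1 ⟨x, hx⟩⟩

end Restrict

section Orbit

variable {K E : Type*} [Field K] [Field E] [Algebra K E]

instance isGaloisGroup_fixedField (H : Subgroup (E ≃ₐ[K] E)) :
    IsGaloisGroup H (IntermediateField.fixedField H) E where
  faithful := inferInstance
  commutes := ⟨fun h x y => by
    show h.1 ((x : E) * y) = (x : E) * h.1 y
    rw [map_mul]
    congr 1
    exact (IntermediateField.mem_fixedField_iff H _).mp x.2 h.1 h.2⟩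
  isInvariant := ⟨fun x hx => ⟨⟨x, (IntermediateField.mem_fixedField_iff H _).mpr
    fun f hf => hx ⟨f, hf⟩⟩, rfl⟩⟩

theorem finiteDimensional_fixedField (H : Subgroup (E ≃ₐ[K] E)) [Finite H] :
    FiniteDimensional (IntermediateField.fixedField H) E :=
  IsGaloisGroup.finiteDimensional H (IntermediateField.fixedField H) E

theorem isGalois_fixedField (H : Subgroup (E ≃ₐ[K] E)) [Finite H] :
    IsGalois (IntermediateField.fixedField H) E :=
  IsGaloisGroup.isGalois H (IntermediateField.fixedField H) E

instance isIntegral_fixedField (H : Subgroup (E ≃ₐ[K] E)) [Finite H] :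
    Algebra.IsIntegral (IntermediateField.fixedField H) E :=
  have := finiteDimensional_fixedField H
  inferInstance

theorem restrict_eq_restrict_iff (H : Subgroup (E ≃ₐ[K] E)) [Finite H] (w w' : Place K E) :
    w.restrict (IntermediateField.fixedField H) = w'.restrict (IntermediateField.fixedField H) ↔
      ∃ h ∈ H, w' = h • w := by
  have := finiteDimensional_fixedField H
  have := isGalois_fixedField H
  set F := IntermediateField.fixedField H with hF
  constructor
  · intro hres
    have key : ∀ y : F, (w.restrict F).adicValuation y < 1 ↔ (w'.restrict F).adicValuation y < 1 :=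
      fun y => by rw [hres]
    set v := w.restrict F with hv
    letI : Algebra v.toValuationSubring E :=
      ((algebraMap F E).comp (algebraMap v.toValuationSubring F)).toAlgebra
    have halg : ∀ r : v.toValuationSubring, algebraMap v.toValuationSubring E r = ((r : F) : E) :=
      fun _ => rfl
    haveI : IsScalarTower v.toValuationSubring F E := IsScalarTower.of_algebraMap_eq fun _ => rfl
    haveI : IsScalarTower K v.toValuationSubring E := IsScalarTower.of_algebraMap_eq fun a => by
      rw [IsScalarTower.algebraMap_apply v.toValuationSubring F E,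
        IsScalarTower.algebraMap_apply K F E]
      rfl
    haveI : SMulCommClass H v.toValuationSubring E := ⟨fun h x y => by
      rw [Algebra.smul_def, Algebra.smul_def, halg]
      show h.1 (((x : F) : E) * y) = ((x : F) : E) * h.1 y
      rw [map_mul]
      congr 1
      exact (IntermediateField.mem_fixedField_iff H _).mp (x : F).2 h.1 h.2⟩
    haveI : IsDedekindDomain (integralClosure v.toValuationSubring E) :=
      integralClosure.isDedekindDomain v.toValuationSubring F E
    haveI : IsFractionRing (integralClosure v.toValuationSubring E) E :=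
      integralClosure.isFractionRing_of_finite_extension F E
    have hmw : ∀ r : v.toValuationSubring, algebraMap v.toValuationSubring E r ∈
        w.toValuationSubring := fun r => (Place.mem_restrict_iff w).mp r.2
    have hmw0 := restrict_eq_iff.mp hres.symm
    have hmw' : ∀ r : v.toValuationSubring, algebraMap v.toValuationSubring E r ∈
        w'.toValuationSubring := fun r => hmw0 (r : F) r.2
    refine exists_smul_eq_of_centre_eq (R := v.toValuationSubring) H ?_ w w' hmw hmw' ?_
    · intro x hxint hx
      have hxF : x ∈ F := (IntermediateField.mem_fixedField_iff H _).mpr hx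
      have h1 : IsIntegral v.toValuationSubring (⟨x, hxF⟩ : F) :=
        (isIntegral_algHom_iff (IsScalarTower.toAlgHom v.toValuationSubring F E)
          (algebraMap F E).injective).mp hxint
      obtain ⟨y, hy⟩ := IsIntegrallyClosed.isIntegral_iff.mp h1
      exact ⟨y, by rw [halg]; exact congrArg Subtype.val hy⟩
    · ext r
      rw [mem_centre, mem_centre, IsScalarTower.algebraMap_apply v.toValuationSubring F E,
        ← val_restrict_lt_one, ← val_restrict_lt_one]
      exact key _
  · rintro ⟨h, hh, rfl⟩
    symm
    rw [restrict_eq_iff]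
    intro x hx
    have h1 : algebraMap F E x ∈ w.toValuationSubring := (Place.mem_restrict_iff w).mp hx
    have h2 := (mem_smul_place h w (algebraMap F E x)).mpr h1
    have h3 : h (algebraMap F E x) = algebraMap F E x :=
      (IntermediateField.mem_fixedField_iff H _).mp x.2 h hh
    rwa [h3] at h2

theorem restrict_smul_eq (H : Subgroup (E ≃ₐ[K] E)) [Finite H] {h : E ≃ₐ[K] E} (hh : h ∈ H)
    (w : Place K E) :
    (h • w).restrict (IntermediateField.fixedField H) =
      w.restrict (IntermediateField.fixedField H) :=
  ((restrict_eq_restrict_iff H w (h • w)).mpr ⟨h, hh, rfl⟩).symm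

end Orbit

section Transitive

variable {K E : Type*} [Field K] [Field E] [Algebra K E]

/-- `G` acts transitively on the places of `E` above `x = a`, if `E^G = K(x)`. -/
theorem exists_smul_eq_of_ord_pos (G : Subgroup (E ≃ₐ[K] E)) [Finite G] {x : E}
    (hx : Transcendental K x) (hfix : IntermediateField.fixedField G = K⟮x⟯) (a : K)
    (w w' : Place K E) (hw : 0 < w.ord (x - algebraMap K E a))
    (hw' : 0 < w'.ord (x - algebraMap K E a)) : ∃ g ∈ G, w' = g • w := by
  have hpid := adjoin_isPrincipalIdealRing hx
  have hfin : FiniteDimensional K⟮x⟯ E := hfix ▸ finiteDimensional_fixedField G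
  have hsep : Algebra.IsSeparable K⟮x⟯ E := by
    have := isGalois_fixedField G
    rw [← hfix]
    infer_instance
  have hxfix : ∀ g ∈ G, g x = x := fun g hg =>
    (IntermediateField.mem_fixedField_iff G _).mp
      (hfix ▸ IntermediateField.mem_adjoin_simple_self K x) g hg
  have hR : ∀ v : Place K E, 0 < v.ord (x - algebraMap K E a) →
      ∀ r : Algebra.adjoin K {x}, algebraMap (Algebra.adjoin K {x}) E r ∈ v.toValuationSubring := by
    intro v hv
    have : v ∈ fiberSet K E (shiftGen x a) := by
      rw [fiberSet_shiftGen, Set.mem_ofPred_eq, val_lt_one_iff]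
      exact Or.inr hv
    exact this.1
  have hsmul : SMulCommClass G (Algebra.adjoin K {x}) E := by
    refine ⟨fun h r y => ?_⟩
    show h.1 ((r : E) * y) = (r : E) * h.1 y
    rw [map_mul]
    congr 1
    have hr : (r : E) ∈ K⟮x⟯ := IntermediateField.algebra_adjoin_le_adjoin K {x} r.2
    rw [← hfix] at hr
    exact (IntermediateField.mem_fixedField_iff G _).mp hr h.1 h.2
  have : IsDedekindDomain (integralClosure (Algebra.adjoin K {x}) E) :=
    open IntermediateField.algebraAdjoinAdjoin in
    integralClosure.isDedekindDomain _ K⟮x⟯ E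
  have : IsFractionRing (integralClosure (Algebra.adjoin K {x}) E) E :=
    open IntermediateField.algebraAdjoinAdjoin in
    integralClosure.isFractionRing_of_finite_extension K⟮x⟯ E
  refine exists_smul_eq_of_centre_eq (R := Algebra.adjoin K {x}) G ?_ w w' (hR w hw) (hR w' hw') ?_
  · intro y hy hyG
    have hyF : y ∈ K⟮x⟯ := hfix ▸ (IntermediateField.mem_fixedField_iff G _).mpr hyG
    open IntermediateField.algebraAdjoinAdjoin in
    have h1 : IsIntegral (Algebra.adjoin K {x}) (⟨y, hyF⟩ : K⟮x⟯) :=
      (isIntegral_algHom_iff (IsScalarTower.toAlgHom (Algebra.adjoin K {x}) K⟮x⟯ E)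
        (algebraMap K⟮x⟯ E).injective).mp hy
    open IntermediateField.algebraAdjoinAdjoin in
    obtain ⟨z, hz⟩ := IsIntegrallyClosed.isIntegral_iff.mp h1
    exact ⟨z, congrArg Subtype.val hz⟩
  · have hmax : (Ideal.span {shiftGen x a}).IsMaximal :=
      PrincipalIdealRing.isMaximal_of_irreducible (shiftGen_irreducible hx a)
    have key : ∀ v : Place K E, ∀ hv : 0 < v.ord (x - algebraMap K E a),
        Ideal.span {shiftGen x a} = centre v (hR v hv) := by
      intro v hv
      refine hmax.eq_of_le (centre_isPrime v (hR v hv)).ne_top ?_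
      rw [Ideal.span_singleton_le_iff_mem, mem_centre, algebraMap_shiftGen, val_lt_one_iff]
      exact Or.inr hv
    rw [← key w hw, ← key w' hw']

end Transitive

end Fermat.FF
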