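import Mathlib
import Fermat.Agent.FF.Galois

set_option autoImplicit false
set_option linter.style.haveILetI false
set_option linter.unusedSectionVars false

noncomputable section

open AlgebraicCurve IsDedekindDomain WithZero IsLocalRing Polynomial IntermediateField

namespace Fermat.FF

section Stab

variable {K E : Type*} [Field K] [Field E] [Algebra K E] [IsAlgClosed K] [CharZero K]

theorem isFF1_of_fixedField (G : Subgroup (E ≃ₐ[K] E)) [Finite G] {x : E}
    (hx : Transcendental K x) (hfix : IntermediateField.fixedField G = K⟮x⟯) : IsFF1 K E :=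
  ⟨x, hx, hfix ▸ finiteDimensional_fixedField G⟩

theorem finrank_eq_card (G : Subgroup (E ≃ₐ[K] E)) [Finite G] {x : E}
    (hfix : IntermediateField.fixedField G = K⟮x⟯) : Module.finrank K⟮x⟯ E = Nat.card G := by
  rw [← hfix]
  exact (IsGaloisGroup.card_eq_finrank G (IntermediateField.fixedField G) E).symm

theorem ord_smul_sub {g : E ≃ₐ[K] E} {x : E} (hg : g x = x) (a : K) (w : Place K E) :
    (g • w).ord (x - algebraMap K E a) = w.ord (x - algebraMap K E a) := by
  have h1 : g (x - algebraMap K E a) = x - algebraMap K E a := by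
    rw [map_sub, hg, AlgEquiv.commutes]
  conv_lhs => rw [← h1]
  exact Place.ord_smul g w _

/-- The order of the decomposition group is the ramification index. -/
theorem card_stabilizer_eq_ord (G : Subgroup (E ≃ₐ[K] E)) [Finite G] {x : E}
    (hx : Transcendental K x) (hfix : IntermediateField.fixedField G = K⟮x⟯) (a : K)
    (w : Place K E) (hw : 0 < w.ord (x - algebraMap K E a)) :
    (Nat.card (MulAction.stabilizer G w) : ℤ) = w.ord (x - algebraMap K E a) := by
  classical
  haveI := isFF1_of_fixedField G hx hfix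
  have hxfix : ∀ g ∈ G, g x = x := fun g hg =>
    (IntermediateField.mem_fixedField_iff G _).mp
      (hfix ▸ IntermediateField.mem_adjoin_simple_self K x) g hg
  have h1 := sum_zeroSet hx a
  rw [finrank_eq_card G hfix] at h1
  have horb : ∀ v : Place K E, 0 < v.ord (x - algebraMap K E a) ↔ v ∈ MulAction.orbit G w := by
    intro v
    constructor
    · intro hv
      obtain ⟨g, hg, rfl⟩ := exists_smul_eq_of_ord_pos G hx hfix a w v hw hv
      exact ⟨⟨g, hg⟩, rfl⟩
    · rintro ⟨⟨g, hg⟩, rfl⟩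
      show 0 < (g • w).ord _
      rw [ord_smul_sub (hxfix g hg)]
      exact hw
  have h2 : ∀ v ∈ (zeroSet_finite hx a).toFinset, v.ord (x - algebraMap K E a) =
      w.ord (x - algebraMap K E a) := by
    intro v hv
    rw [Set.Finite.mem_toFinset, Set.mem_ofPred_eq, horb] at hv
    obtain ⟨⟨g, hg⟩, rfl⟩ := hv
    exact ord_smul_sub (hxfix g hg) a w
  rw [Finset.sum_congr rfl h2, Finset.sum_const, nsmul_eq_mul] at h1
  have h3 : (zeroSet_finite hx a).toFinset.card = Nat.card (MulAction.orbit G w) := by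
    rw [← Set.ncard_eq_toFinset_card _ (zeroSet_finite hx a), ← Nat.card_coe_set_eq]
    congr 1
    have : {v : Place K E | 0 < v.ord (x - algebraMap K E a)} = MulAction.orbit G w :=
      Set.ext fun v => horb v
    rw [this]
  have h4 : Nat.card (MulAction.orbit G w) * Nat.card (MulAction.stabilizer G w) = Nat.card G := by
    rw [Nat.card_congr (MulAction.orbitEquivQuotientStabilizer G w)]
    exact (Subgroup.card_eq_card_quotient_mul_card_subgroup _).symm
  rw [h3, ← h4] at h1
  push_cast at h1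
  have h5 : (Nat.card (MulAction.orbit G w) : ℤ) ≠ 0 := by
    have : Nonempty (MulAction.orbit G w) := ⟨⟨w, MulAction.mem_orbit_self w⟩⟩
    have : Finite (MulAction.orbit G w) := (Set.finite_range fun g : G => g • w).to_subtype
    exact_mod_cast Nat.card_pos.ne'
  exact (mul_left_cancel₀ h5 h1).symm

end Stab

section Count

variable {K E : Type*} [Field K] [Field E] [Algebra K E] [IsAlgClosed K] [CharZero K]
variable {Γ : Type*} [Group Γ] (π : Γ →* (E ≃ₐ[K] E)) [Finite π.range]

instance finite_map (Γ₀ : Subgroup Γ) : Finite (Γ₀.map π) := by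
  have h : Γ₀.map π ≤ π.range := by
    rintro _ ⟨g, _, rfl⟩
    exact ⟨g, rfl⟩
  exact Finite.of_injective (Subgroup.inclusion h) (Subgroup.inclusion_injective h)

variable (Γ₀ : Subgroup Γ)

/-- The map sending a coset `γΓ₀` to the restriction of `γ⁻¹w` to the fixed field of `Γ₀`. -/
def cosetPlace (w : Place K E) :
    Γ ⧸ Γ₀ → Place K (IntermediateField.fixedField (Γ₀.map π)) :=
  Quotient.lift (fun γ => ((π γ)⁻¹ • w).restrict (IntermediateField.fixedField (Γ₀.map π))) (by
    intro γ γ' h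
    have h' : γ⁻¹ * γ' ∈ Γ₀ := QuotientGroup.leftRel_apply.mp h
    have h1 : (π γ')⁻¹ • w = (π (γ⁻¹ * γ'))⁻¹ • (π γ)⁻¹ • w := by
      rw [smul_smul, map_mul]
      congr 1
      simp
    show _ = ((π γ')⁻¹ • w).restrict _
    rw [h1]
    exact (restrict_smul_eq (Γ₀.map π) (inv_mem ⟨_, h', rfl⟩) _).symm)

theorem cosetPlace_mk (w : Place K E) (γ : Γ) :
    cosetPlace π Γ₀ w (γ : Γ ⧸ Γ₀) =
      ((π γ)⁻¹ • w).restrict (IntermediateField.fixedField (Γ₀.map π)) := rfl

theorem algebraMap_sub_ord (F : IntermediateField K E) [Algebra.IsIntegral F E] {x : E}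
    (hxF : x ∈ F) (a : K) (w : Place K E) :
    0 < (w.restrict F).ord (⟨x, hxF⟩ - algebraMap K F a) ↔ 0 < w.ord (x - algebraMap K E a) := by
  have h1 : algebraMap F E (⟨x, hxF⟩ - algebraMap K F a) = x - algebraMap K E a := rfl
  have h2 := w.ord_restrict (F := F) (⟨x, hxF⟩ - algebraMap K F a)
  rw [h1] at h2
  rw [h2]
  have h3 : 0 < w.ramificationIndex F := w.ramificationIndex_pos
  constructor
  · intro h; positivity
  · intro h
    exact pos_of_mul_pos_right h (by positivity)

theorem mem_fixedField_map {x : E} (hfix : IntermediateField.fixedField π.range = K⟮x⟯) :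
    x ∈ IntermediateField.fixedField (Γ₀.map π) := by
  rw [IntermediateField.mem_fixedField_iff]
  rintro _ ⟨g, _, rfl⟩
  have h1 : x ∈ IntermediateField.fixedField π.range :=
    hfix ▸ IntermediateField.mem_adjoin_simple_self K x
  exact (IntermediateField.mem_fixedField_iff _ _).mp h1 _ ⟨g, rfl⟩

/-- The number of places of the fixed field of `Γ₀` above `x = a` is the number of orbits of the
decomposition group on `Γ ⧸ Γ₀`. -/
theorem ncard_fiber_fixedField {x : E} (hx : Transcendental K x)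
    (hfix : IntermediateField.fixedField π.range = K⟮x⟯) (hker : π.ker ≤ Γ₀) (a : K)
    (w : Place K E) (hw : 0 < w.ord (x - algebraMap K E a))
    (D : Subgroup Γ) (hD : ∀ γ ∈ D, π γ • w = w)
    (hD' : ∀ γ : Γ, π γ • w = w → ∃ d ∈ D, π d = π γ) :
    {v : Place K (IntermediateField.fixedField (Γ₀.map π)) |
      0 < v.ord (⟨x, mem_fixedField_map π Γ₀ hfix⟩ - algebraMap K _ a)}.ncard =
      Nat.card (MulAction.orbitRel.Quotient D (Γ ⧸ Γ₀)) := by
  set F := IntermediateField.fixedField (Γ₀.map π) with hF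
  have hxfix : ∀ γ : Γ, π γ x = x := fun γ =>
    (IntermediateField.mem_fixedField_iff π.range _).mp
      (hfix ▸ IntermediateField.mem_adjoin_simple_self K x) _ ⟨γ, rfl⟩
  have hfd : FiniteDimensional F E := finiteDimensional_fixedField _
  have hsep : IsGalois F E := isGalois_fixedField _
  rw [← Nat.card_coe_set_eq]
  symm
  let f : MulAction.orbitRel.Quotient D (Γ ⧸ Γ₀) → Place K F :=
    Quotient.lift (cosetPlace π Γ₀ w) (by
      intro p q hpq
      have hpq' : p ∈ MulAction.orbit D q := hpq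
      obtain ⟨⟨d, hd⟩, rfl⟩ := hpq'
      induction q using QuotientGroup.induction_on with
      | H γ =>
        show cosetPlace π Γ₀ w ((d * γ : Γ) : Γ ⧸ Γ₀) = cosetPlace π Γ₀ w (γ : Γ ⧸ Γ₀)
        rw [cosetPlace_mk, cosetPlace_mk, map_mul, mul_inv_rev, mul_smul]
        have h1 : (π d)⁻¹ • w = w := by
          rw [inv_smul_eq_iff, hD d hd]
        rw [h1])
  have hf : ∀ γ : Γ, f (Quotient.mk _ (γ : Γ ⧸ Γ₀)) = ((π γ)⁻¹ • w).restrict F := fun γ => rfl
  have hfmem : ∀ q, f q ∈ {v : Place K F |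
      0 < v.ord (⟨x, mem_fixedField_map π Γ₀ hfix⟩ - algebraMap K _ a)} := by
    intro q
    induction q using Quotient.inductionOn with
    | h p =>
      induction p using QuotientGroup.induction_on with
      | H γ =>
        rw [hf, Set.mem_ofPred_eq, algebraMap_sub_ord]
        rw [← map_inv, ord_smul_sub (hxfix γ⁻¹)]
        exact hw
  refine Nat.card_congr (Equiv.ofBijective (fun q => ⟨f q, hfmem q⟩) ⟨?_, ?_⟩)
  · intro q q' hqq
    have hqq' : f q = f q' := congrArg Subtype.val hqq
    clear hqq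
    induction q using Quotient.inductionOn with
    | h p =>
    induction q' using Quotient.inductionOn with
    | h p' =>
    induction p using QuotientGroup.induction_on with
    | H γ =>
    induction p' using QuotientGroup.induction_on with
    | H γ' =>
    rw [hf, hf, restrict_eq_restrict_iff] at hqq'
    obtain ⟨_, ⟨h₀, hh₀, rfl⟩, hh⟩ := hqq'
    have h1 : π (γ' * h₀ * γ⁻¹) • w = w := by
      rw [map_mul, map_mul, mul_smul, mul_smul, map_inv, ← hh, smul_inv_smul]
    obtain ⟨d, hd, hdπ⟩ := hD' _ h1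
    apply Quotient.sound
    show (γ : Γ ⧸ Γ₀) ∈ MulAction.orbit D (γ' : Γ ⧸ Γ₀)
    refine ⟨⟨d⁻¹, inv_mem hd⟩, ?_⟩
    show ((d⁻¹ * γ' : Γ) : Γ ⧸ Γ₀) = (γ : Γ ⧸ Γ₀)
    rw [QuotientGroup.eq]
    have h2 : γ⁻¹ * d⁻¹ * (γ' * h₀ * γ⁻¹) * γ ∈ π.ker := by
      rw [MonoidHom.mem_ker, map_mul, map_mul, map_mul, ← hdπ, map_inv, map_inv]
      group
    have h3 := hker h2
    have h4 : (d⁻¹ * γ')⁻¹ * γ = h₀ * (γ⁻¹ * d⁻¹ * (γ' * h₀ * γ⁻¹) * γ)⁻¹ := by group
    rw [h4]
    exact mul_mem hh₀ (inv_mem h3)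
  · rintro ⟨v, hv⟩
    obtain ⟨w', rfl⟩ := restrict_surjective (E := E) v
    rw [Set.mem_ofPred_eq, algebraMap_sub_ord] at hv
    obtain ⟨_, ⟨γ, rfl⟩, rfl⟩ := exists_smul_eq_of_ord_pos π.range hx hfix a w w' hw hv
    refine ⟨Quotient.mk _ ((γ⁻¹ : Γ) : Γ ⧸ Γ₀), ?_⟩
    apply Subtype.ext
    have h6 := hf γ⁻¹
    rw [map_inv, inv_inv] at h6
    exact h6

end Count

end Fermat.FF
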