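import Mathlib
import Fermat.Agent.FF.Count

set_option autoImplicit false
set_option linter.style.haveILetI false
set_option linter.unusedSectionVars false

noncomputable section

open AlgebraicCurve IsDedekindDomain WithZero IsLocalRing Polynomial IntermediateField

namespace Fermat.FF

section Transport

variable {K F F' : Type*} [Field K] [Field F] [Field F'] [Algebra K F] [Algebra K F']

/-- Transport of places along a `K`-isomorphism. -/
def placeMap (e : F ≃ₐ[K] F') (v : Place K F) : Place K F' where
  toValuationSubring := v.toValuationSubring.comap (e.symm : F' →+* F)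
  algebraMap_mem' a := by
    rw [ValuationSubring.mem_comap]
    show e.symm (algebraMap K F' a) ∈ _
    rw [AlgEquiv.commutes]
    exact v.algebraMap_mem' a
  ne_top' h := v.ne_top' <| by
    refine SetLike.ext fun x => ⟨fun _ => ValuationSubring.mem_top x, fun _ => ?_⟩
    have h1 : e x ∈ v.toValuationSubring.comap (e.symm : F' →+* F) := by
      rw [h]; exact ValuationSubring.mem_top _
    rw [ValuationSubring.mem_comap] at h1
    simpa using h1
  isPrincipalIdealRing' := by
    let φ : v.toValuationSubring →+* v.toValuationSubring.comap (e.symm : F' →+* F) :=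
      ((e : F →+* F').comp v.toValuationSubring.subtype).codRestrict
        (v.toValuationSubring.comap (e.symm : F' →+* F)).toSubring (fun x => by
          show (e.symm (e x) : F) ∈ v.toValuationSubring
          rw [AlgEquiv.symm_apply_apply]
          exact x.2)
    refine IsPrincipalIdealRing.of_surjective φ fun y => ?_
    refine ⟨⟨e.symm y, y.2⟩, Subtype.ext ?_⟩
    show e (e.symm (y : F')) = y
    rw [AlgEquiv.apply_symm_apply]

theorem mem_placeMap (e : F ≃ₐ[K] F') (v : Place K F) (y : F') :
    y ∈ (placeMap e v).toValuationSubring ↔ e.symm y ∈ v.toValuationSubring := Iff.rfl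

theorem apply_mem_placeMap (e : F ≃ₐ[K] F') (v : Place K F) (y : F) :
    e y ∈ (placeMap e v).toValuationSubring ↔ y ∈ v.toValuationSubring := by
  rw [mem_placeMap, AlgEquiv.symm_apply_apply]

theorem ord_placeMap (e : F ≃ₐ[K] F') (v : Place K F) (y : F) :
    (placeMap e v).ord (e y) = v.ord y := by
  rcases eq_or_ne y 0 with rfl | hy
  · simp
  obtain ⟨t, ht⟩ := exists_ord_eq_one v
  obtain ⟨t', ht'⟩ := exists_ord_eq_one (placeMap e v)
  refine (ord_unique (o₁ := v.ord) (o₂ := fun z => (placeMap e v).ord (e z)) (π₁ := t)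
    (π₂ := e.symm t') (fun f g hf hg => v.ord_mul hf hg) (fun f g hf hg => ?_) (fun f hf => ?_)
    (ne_zero_of_ord_ne_zero v (by omega)) ?_ ht (by simpa using ht') hy).symm
  · rw [map_mul, Place.ord_mul _ ((map_ne_zero_iff _ e.injective).mpr hf)
      ((map_ne_zero_iff _ e.injective).mpr hg)]
  · rw [← mem_iff_ord v hf, ← mem_iff_ord _ ((map_ne_zero_iff _ e.injective).mpr hf),
      apply_mem_placeMap]
  · rw [map_ne_zero_iff _ e.symm.injective]
    exact ne_zero_of_ord_ne_zero _ (by rw [ht']; exact one_ne_zero)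

/-- Places are transported bijectively by `K`-isomorphisms. -/
def placeEquiv (e : F ≃ₐ[K] F') : Place K F ≃ Place K F' where
  toFun := placeMap e
  invFun := placeMap e.symm
  left_inv v := by
    ext y
    rw [mem_placeMap, mem_placeMap]
    simp
  right_inv v := by
    ext y
    rw [mem_placeMap, mem_placeMap]
    simp

theorem ncard_pos_transport (e : F ≃ₐ[K] F') (y : F) :
    {v : Place K F' | 0 < v.ord (e y)}.ncard = {v : Place K F | 0 < v.ord y}.ncard := by
  rw [← Nat.card_coe_set_eq, ← Nat.card_coe_set_eq]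
  refine (Nat.card_congr ((placeEquiv e).subtypeEquiv fun v => ?_)).symm
  show 0 < v.ord y ↔ 0 < (placeMap e v).ord (e y)
  rw [ord_placeMap]

theorem transcendental_algEquiv (e : F ≃ₐ[K] F') {x : F} (hx : Transcendental K x) :
    Transcendental K (e x) := by
  rwa [transcendental_iff_injective, ← AlgEquiv.coe_toAlgHom, aeval_algHom, AlgHom.coe_comp,
      AlgEquiv.coe_toAlgHom, EmbeddingLike.comp_injective, ← transcendental_iff_injective]

/-- `K(x) ≃ K(e x)` -/
def adjoinEquiv (e : F ≃ₐ[K] F') (x : F) : K⟮x⟯ ≃ₐ[K] K⟮e x⟯ :=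
  (IntermediateField.intermediateFieldMap e K⟮x⟯).trans
    (IntermediateField.equivOfEq (by
      rw [IntermediateField.adjoin_map, Set.image_singleton]
      rfl))

theorem adjoinEquiv_coe (e : F ≃ₐ[K] F') (x : F) (y : K⟮x⟯) :
    ((adjoinEquiv e x y : K⟮e x⟯) : F') = e (y : F) := rfl

theorem finrank_adjoin_algEquiv (e : F ≃ₐ[K] F') (x : F) :
    Module.finrank K⟮e x⟯ F' = Module.finrank K⟮x⟯ F :=
  (Algebra.finrank_eq_of_equiv_equiv (adjoinEquiv e x).toRingEquiv e.toRingEquiv
    (RingHom.ext fun _ => rfl)).symm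

theorem isFF1_of_algEquiv [h : IsFF1 K F] (e : F ≃ₐ[K] F') : IsFF1 K F' := by
  obtain ⟨x, hx, hfin⟩ := h.exists_finite
  exact ⟨e x, transcendental_algEquiv e hx, Module.Finite.of_equiv_equiv
    (adjoinEquiv e x).toRingEquiv e.toRingEquiv (RingHom.ext fun _ => rfl)⟩

end Transport

end Fermat.FF
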