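import Mathlib
import Fermat.Agent.FF.Transport

set_option autoImplicit false
set_option linter.style.haveILetI false
set_option linter.unusedSectionVars false

noncomputable section

open AlgebraicCurve IsDedekindDomain WithZero IsLocalRing Polynomial IntermediateField

namespace Fermat.FF

section Index

variable {K E : Type*} [Field K] [Field E] [Algebra K E] [IsAlgClosed K] [CharZero K]
variable {Γ : Type*} [Group Γ] (π : Γ →* (E ≃ₐ[K] E)) [Finite π.range] (Γ₀ : Subgroup Γ)

theorem finrank_adjoin_fixedField {x : E}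
    (hfix : IntermediateField.fixedField π.range = K⟮x⟯) (hker : π.ker ≤ Γ₀) :
    Module.finrank K⟮(⟨x, mem_fixedField_map π Γ₀ hfix⟩ :
      IntermediateField.fixedField (Γ₀.map π))⟯ (IntermediateField.fixedField (Γ₀.map π)) =
      Nat.card (Γ ⧸ Γ₀) := by
  set F := IntermediateField.fixedField (Γ₀.map π) with hF
  set xF : F := ⟨x, mem_fixedField_map π Γ₀ hfix⟩ with hxF
  have hfd : FiniteDimensional F E := finiteDimensional_fixedField _
  have h1 : Module.finrank K⟮xF⟯ F * Module.finrank F E = Module.finrank K⟮xF⟯ E :=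
    Module.finrank_mul_finrank _ _ _
  have h2 : Module.finrank K⟮xF⟯ E = Module.finrank K⟮x⟯ E := by
    refine Algebra.finrank_eq_of_equiv_equiv
      ((IntermediateField.liftAlgEquiv K⟮xF⟯).trans
        (IntermediateField.equivOfEq (IntermediateField.lift_adjoin_simple K F xF))).toRingEquiv
      (RingEquiv.refl E) (RingHom.ext fun _ => rfl)
  have h3 : Module.finrank K⟮x⟯ E = Nat.card π.range := finrank_eq_card π.range hfix
  have h4 : Module.finrank F E = Nat.card (Γ₀.map π) :=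
    (IsGaloisGroup.card_eq_finrank (Γ₀.map π) F E).symm
  have h5 : (Γ₀.map π.rangeRestrict).index = Γ₀.index :=
    Subgroup.index_map_eq Γ₀ π.rangeRestrict_surjective (by rwa [MonoidHom.ker_rangeRestrict])
  have h6 : Nat.card (Γ₀.map π.rangeRestrict) * (Γ₀.map π.rangeRestrict).index =
      Nat.card π.range := Subgroup.card_mul_index _
  have h7 : Nat.card (Γ₀.map π.rangeRestrict) = Nat.card (Γ₀.map π) := by
    have : (Γ₀.map π) = (Γ₀.map π.rangeRestrict).map π.range.subtype := by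
      rw [Subgroup.map_map]; rfl
    rw [this]
    exact Nat.card_congr (Subgroup.equivMapOfInjective _ _ (Subgroup.subtype_injective _)).toEquiv
  have h8 : 0 < Nat.card (Γ₀.map π) := by
    have := finite_map π Γ₀
    exact Nat.card_pos
  rw [h2, h3, ← h6, h5, h4, h7, mul_comm] at h1
  have h9 := Nat.eq_of_mul_eq_mul_left h8 h1
  rw [h9]
  rfl

end Index

theorem natCard_orbitRel_zpowers_one {Γ : Type*} [Group Γ] {X : Type*} [MulAction Γ X] :
    Nat.card (MulAction.orbitRel.Quotient (Subgroup.zpowers (1 : Γ)) X) = Nat.card X := by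
  refine Nat.card_congr (Equiv.ofBijective (fun x : X =>
    (Quotient.mk _ x : MulAction.orbitRel.Quotient (Subgroup.zpowers (1 : Γ)) X)) ⟨?_, ?_⟩).symm
  · intro x y h
    have h1 : x ∈ MulAction.orbit (Subgroup.zpowers (1 : Γ)) y := Quotient.exact h
    obtain ⟨⟨g, hg⟩, rfl⟩ := h1
    rw [Subgroup.zpowers_one_eq_bot, Subgroup.mem_bot] at hg
    subst hg
    exact one_smul Γ y
  · exact Quotient.mk_surjective

section Wrapper

variable {K L : Type*} [Field K] [Field L] [Algebra K L] [IsAlgClosed K] [CharZero K]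
variable {Γ : Type*} [Group Γ] [MulSemiringAction Γ L] [SMulCommClass Γ K L]

theorem toAlgAut_smul_eq {γ : Γ} {w : Place K L}
    (hγ : ∀ l ∈ w.toValuationSubring, γ • l ∈ w.toValuationSubring) :
    MulSemiringAction.toAlgAut Γ K L γ • w = w := by
  apply place_eq_of_le
  intro y hy
  have h1 : y = MulSemiringAction.toAlgAut Γ K L γ ((MulSemiringAction.toAlgAut Γ K L γ).symm y) :=
    (AlgEquiv.apply_symm_apply _ _).symm
  rw [h1, mem_smul_place] at hy
  rw [h1]
  exact hγ _ hy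

/-- Number of points in a fibre, for `F = L^Γ₀`. -/
theorem ncard_fiber_eq {x : L} (hx : Transcendental K x)
    (hfin : Finite (MulSemiringAction.toAlgAut Γ K L).range)
    (hK : ∀ l : L, (∀ g : Γ, g • l = l) ↔ l ∈ K⟮x⟯)
    (Γ₀ : Subgroup Γ) (F : IntermediateField K L) (hF : ∀ l : L, l ∈ F ↔ ∀ g ∈ Γ₀, g • l = l)
    (hker : ∀ g : Γ, (∀ l ∈ F, g • l = l) → g ∈ Γ₀)
    (hxF : x ∈ F) (a : K) (w : Place K L) (hw : 0 < w.ord (x - algebraMap K L a)) (γ : Γ)
    (hγ : ∀ l ∈ w.toValuationSubring, γ • l ∈ w.toValuationSubring)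
    (hle : w.ord (x - algebraMap K L a) ≤ orderOf (MulSemiringAction.toAlgAut Γ K L γ) ∨ Γ₀ = ⊤) :
    {v : Place K F | 0 < v.ord (⟨x, hxF⟩ - algebraMap K F a)}.ncard =
      Nat.card (MulAction.orbitRel.Quotient (Subgroup.zpowers γ) (Γ ⧸ Γ₀)) := by
  set π := MulSemiringAction.toAlgAut Γ K L with hπ
  have hπapp : ∀ (g : Γ) (l : L), π g l = g • l := fun _ _ => rfl
  have hfix : IntermediateField.fixedField π.range = K⟮x⟯ := by
    ext l
    rw [IntermediateField.mem_fixedField_iff, ← hK]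
    constructor
    · intro h g
      exact h _ ⟨g, rfl⟩
    · rintro h _ ⟨g, rfl⟩
      exact h g
  obtain rfl : F = IntermediateField.fixedField (Γ₀.map π) := by
    ext l
    rw [IntermediateField.mem_fixedField_iff, hF]
    constructor
    · rintro h _ ⟨g, hg, rfl⟩
      exact h g hg
    · intro h g hg
      exact h _ ⟨g, hg, rfl⟩
  have hker' : π.ker ≤ Γ₀ := by
    intro g hg
    apply hker
    intro l _
    rw [← hπapp, MonoidHom.mem_ker.mp hg]
    rfl
  have hstab : π γ • w = w := toAlgAut_smul_eq hγ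
  have hzp : ∀ d ∈ Subgroup.zpowers γ, π d • w = w := by
    rintro d hd
    have h1 : π γ ∈ MulAction.stabilizer (L ≃ₐ[K] L) w := hstab
    have h2 : Subgroup.zpowers γ ≤ (MulAction.stabilizer (L ≃ₐ[K] L) w).comap π := by
      rw [Subgroup.zpowers_le]; exact h1
    exact h2 hd
  rcases hle with hle | rfl
  · -- main case
    refine ncard_fiber_fixedField π Γ₀ hx hfix hker' a w hw (Subgroup.zpowers γ) hzp ?_
    intro δ hδ
    -- stabilizer in the range
    have hcard := card_stabilizer_eq_ord π.range hx hfix a w hw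
    let Z : Subgroup π.range := Subgroup.zpowers ⟨π γ, γ, rfl⟩
    have hZle : Z ≤ MulAction.stabilizer π.range w := by
      rw [Subgroup.zpowers_le]
      exact hstab
    have hZcard : Nat.card Z = orderOf (π γ) := by
      rw [Nat.card_zpowers]
      exact (orderOf_injective π.range.subtype (Subgroup.subtype_injective _) _).symm
    have hZeq : Z = MulAction.stabilizer π.range w := by
      apply Subgroup.eq_of_le_of_card_ge hZle
      rw [hZcard]
      exact_mod_cast hcard.trans_le hle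
    have hmem : (⟨π δ, δ, rfl⟩ : π.range) ∈ Z := by
      rw [hZeq]
      exact hδ
    obtain ⟨k, hk⟩ := Subgroup.mem_zpowers_iff.mp hmem
    refine ⟨γ ^ k, Subgroup.zpow_mem_zpowers γ k, ?_⟩
    rw [map_zpow]
    exact congrArg Subtype.val hk
  · -- `Γ₀ = ⊤`
    have h1 := ncard_fiber_fixedField π ⊤ hx hfix hker' a w hw
      ((MulAction.stabilizer (L ≃ₐ[K] L) w).comap π) (fun γ h => h) (fun γ h => ⟨γ, h, rfl⟩)
    rw [h1]
    have h2 : ∀ D : Subgroup Γ, Nat.card (MulAction.orbitRel.Quotient D (Γ ⧸ (⊤ : Subgroup Γ))) = 1 := by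
      intro D
      haveI : Subsingleton (Γ ⧸ (⊤ : Subgroup Γ)) := QuotientGroup.subsingleton_quotient_top
      haveI : Subsingleton (MulAction.orbitRel.Quotient D (Γ ⧸ (⊤ : Subgroup Γ))) :=
        Quotient.instSubsingletonQuotient _
      haveI : Nonempty (MulAction.orbitRel.Quotient D (Γ ⧸ (⊤ : Subgroup Γ))) :=
        ⟨Quotient.mk _ ((1 : Γ) : Γ ⧸ (⊤ : Subgroup Γ))⟩
      exact Nat.card_unique
    rw [h2, h2]

theorem finrank_eq_natCard_quotient {x : L} 
    (hfin : Finite (MulSemiringAction.toAlgAut Γ K L).range)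
    (hK : ∀ l : L, (∀ g : Γ, g • l = l) ↔ l ∈ K⟮x⟯)
    (Γ₀ : Subgroup Γ) (F : IntermediateField K L) (hF : ∀ l : L, l ∈ F ↔ ∀ g ∈ Γ₀, g • l = l)
    (hker : ∀ g : Γ, (∀ l ∈ F, g • l = l) → g ∈ Γ₀)
    (hxF : x ∈ F) :
    Module.finrank K⟮(⟨x, hxF⟩ : F)⟯ F = Nat.card (Γ ⧸ Γ₀) := by
  set π := MulSemiringAction.toAlgAut Γ K L with hπ
  have hπapp : ∀ (g : Γ) (l : L), π g l = g • l := fun _ _ => rfl
  have hfix : IntermediateField.fixedField π.range = K⟮x⟯ := by
    ext l
    rw [IntermediateField.mem_fixedField_iff, ← hK]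
    constructor
    · intro h g
      exact h _ ⟨g, rfl⟩
    · rintro h _ ⟨g, rfl⟩
      exact h g
  obtain rfl : F = IntermediateField.fixedField (Γ₀.map π) := by
    ext l
    rw [IntermediateField.mem_fixedField_iff, hF]
    constructor
    · rintro h _ ⟨g, hg, rfl⟩
      exact h g hg
    · intro h g hg
      exact h _ ⟨g, hg, rfl⟩
  have hker' : π.ker ≤ Γ₀ := by
    intro g hg
    apply hker
    intro l _
    rw [← hπapp, MonoidHom.mem_ker.mp hg]
    rfl
  exact finrank_adjoin_fixedField π Γ₀ hfix hker'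

theorem isFF1_of_fixed {x : L} (hx : Transcendental K x)
    (hfin : Finite (MulSemiringAction.toAlgAut Γ K L).range)
    (hK : ∀ l : L, (∀ g : Γ, g • l = l) ↔ l ∈ K⟮x⟯)
    (Γ₀ : Subgroup Γ) (F : IntermediateField K L) (hF : ∀ l : L, l ∈ F ↔ ∀ g ∈ Γ₀, g • l = l)
    (hker : ∀ g : Γ, (∀ l ∈ F, g • l = l) → g ∈ Γ₀)
    (hxF : x ∈ F) : IsFF1 K F := by
  have h1 := finrank_eq_natCard_quotient hfin hK Γ₀ F hF hker hxF
  have hxF' : Transcendental K (⟨x, hxF⟩ : F) := by
    rw [← transcendental_algebraMap_iff (S := F) (A := L) (algebraMap F L).injective]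
    exact hx
  refine ⟨⟨x, hxF⟩, hxF', ?_⟩
  apply FiniteDimensional.of_finrank_pos
  rw [h1]
  -- `Γ₀` has finite index because it contains the kernel
  set π := MulSemiringAction.toAlgAut Γ K L with hπ
  have hker' : π.ker ≤ Γ₀ := by
    intro g hg
    apply hker
    intro l _
    show π g l = l
    rw [MonoidHom.mem_ker.mp hg]
    rfl
  have h2 : π.ker.FiniteIndex := by
    rw [Subgroup.finiteIndex_iff, Subgroup.index_ker]
    exact Nat.card_pos.ne'
  have h3 : Γ₀.FiniteIndex := Subgroup.finiteIndex_of_le hker'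
  have h4 := Subgroup.finiteIndex_iff.mp h3
  exact Nat.pos_of_ne_zero h4

/-- **Genus of a Galois-type tower.**  `L/K(x)` with (finite) group the image of `Γ`,
`F = L^Γ₀`, `F' ≅ F`.  -/
theorem genus_eq_of_tower {x : L} (hx : Transcendental K x)
    (hfin : Finite (MulSemiringAction.toAlgAut Γ K L).range)
    (hK : ∀ l : L, (∀ g : Γ, g • l = l) ↔ l ∈ K⟮x⟯)
    (Γ₀ : Subgroup Γ) (F : IntermediateField K L) (hF : ∀ l : L, l ∈ F ↔ ∀ g ∈ Γ₀, g • l = l)
    (hker : ∀ g : Γ, (∀ l ∈ F, g • l = l) → g ∈ Γ₀)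
    (hxF : x ∈ F)
    (S : Finset K) (γ : K → Γ) (w : K → Place K L) (hγ1 : ∀ a, a ∉ S → γ a = 1)
    (hw : ∀ a, 0 < (w a).ord (x - algebraMap K L a))
    (hγ : ∀ a, ∀ l ∈ (w a).toValuationSubring, γ a • l ∈ (w a).toValuationSubring)
    (hle : ∀ a, (w a).ord (x - algebraMap K L a) ≤
      orderOf (MulSemiringAction.toAlgAut Γ K L (γ a)) ∨ Γ₀ = ⊤)
    (γinf : Γ) (winf : Place K L) (hwinf : winf.ord x < 0)
    (hγinf : ∀ l ∈ winf.toValuationSubring, γinf • l ∈ winf.toValuationSubring)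
    (hleinf : -(winf.ord x) ≤
      orderOf (MulSemiringAction.toAlgAut Γ K L γinf) ∨ Γ₀ = ⊤)
    {F' : Type*} [Field F'] [Algebra K F'] [HasCanonicalDivisor (K := K) (F := F')]
    (e : F ≃ₐ[K] F') (g : ℕ)
    (hg : (2 * g : ℤ) - 2 = ∑ a ∈ S, ((Nat.card (Γ ⧸ Γ₀) : ℤ) -
        Nat.card (MulAction.orbitRel.Quotient (Subgroup.zpowers (γ a)) (Γ ⧸ Γ₀))) -
        Nat.card (Γ ⧸ Γ₀) -
        Nat.card (MulAction.orbitRel.Quotient (Subgroup.zpowers γinf) (Γ ⧸ Γ₀))) :
    genus K F' = g := by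
  haveI hFF : IsFF1 K F := isFF1_of_fixed hx hfin hK Γ₀ F hF hker hxF
  haveI hFF' : IsFF1 K F' := isFF1_of_algEquiv e
  have hxF' : Transcendental K (⟨x, hxF⟩ : F) := by
    rw [← transcendental_algebraMap_iff (S := F) (A := L) (algebraMap F L).injective]
    exact hx
  set y : F' := e ⟨x, hxF⟩ with hy
  have hyt : Transcendental K y := transcendental_algEquiv e hxF'
  have hdeg : Module.finrank K⟮y⟯ F' = Nat.card (Γ ⧸ Γ₀) := by
    rw [hy, finrank_adjoin_algEquiv, finrank_eq_natCard_quotient hfin hK Γ₀ F hF hker hxF]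
  have hfib : ∀ a, {v : Place K F' | 0 < v.ord (y - algebraMap K F' a)}.ncard =
      Nat.card (MulAction.orbitRel.Quotient (Subgroup.zpowers (γ a)) (Γ ⧸ Γ₀)) := by
    intro a
    rw [← ncard_fiber_eq hx hfin hK Γ₀ F hF hker hxF a (w a) (hw a) (γ a) (hγ a) (hle a),
      ← ncard_pos_transport e, map_sub, AlgEquiv.commutes]
  have hinv : {v : Place K F' | v.ord y < 0}.ncard =
      Nat.card (MulAction.orbitRel.Quotient (Subgroup.zpowers γinf) (Γ ⧸ Γ₀)) := by
    have hx' : Transcendental K x⁻¹ := transcendental_inv hx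
    have hK' : ∀ l : L, (∀ g : Γ, g • l = l) ↔ l ∈ K⟮x⁻¹⟯ := by
      intro l
      rw [hK, adjoin_inv]
    have h1 := ncard_fiber_eq hx' hfin hK' Γ₀ F hF hker (inv_mem hxF) 0 winf
      (by rw [map_zero, sub_zero, Place.ord_inv]; omega) γinf hγinf
      (by rw [map_zero, sub_zero, Place.ord_inv]; exact hleinf)
    rw [← h1, ← ncard_pos_transport e, map_zero, sub_zero]
    congr 1
    ext v
    rw [Set.mem_ofPred_eq, Set.mem_ofPred_eq]
    have h2 : e (⟨x⁻¹, inv_mem hxF⟩ : F) = y⁻¹ := by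
      rw [hy, ← map_inv₀]
      rfl
    rw [h2, Place.ord_inv]
    omega
  refine genus_eq hyt S ?_ g ?_
  · intro a ha
    rw [hfib, hdeg, hγ1 a ha]
    exact natCard_orbitRel_zpowers_one
  · rw [hg, hdeg, hinv]
    congr 2
    exact Finset.sum_congr rfl fun a _ => by rw [hfib]

end Wrapper

end Fermat.FF
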