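import Mathlib

set_option autoImplicit false
set_option linter.style.haveILetI false
set_option linter.unusedSectionVars false

noncomputable section

namespace Fermat.FF.PermGenus

open Module

section Linear

variable {V : Type*} [AddCommGroup V] [Module ℚ V] [FiniteDimensional ℚ V]

/-- Scott's lemma for two operators. -/
theorem scott (A B : V →ₗ[ℚ] V) :
    finrank ℚ (LinearMap.range (1 - A) ⊔ LinearMap.range (1 - B) : Submodule ℚ V) +
      finrank ℚ (LinearMap.ker (1 - A * B)) ≤
    finrank ℚ (LinearMap.range (1 - A)) + finrank ℚ (LinearMap.range (1 - B)) +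
      finrank ℚ (LinearMap.ker (1 - A) ⊓ LinearMap.ker (1 - B) : Submodule ℚ V) := by
  set U1 := LinearMap.range (1 - A) with hU1
  set U2 := LinearMap.range (1 - B) with hU2
  let φ : (U1 × U2) →ₗ[ℚ] V := LinearMap.coprod U1.subtype (A ∘ₗ U2.subtype)
  have hφ : ∀ u : U1 × U2, φ u = (u.1 : V) + A (u.2 : V) := fun u => by
    simp [φ]
  have hrange : U1 ⊔ U2 ≤ LinearMap.range φ := by
    apply sup_le
    · intro u hu
      exact ⟨(⟨u, hu⟩, 0), by simp [hφ]⟩
    · intro u hu
      refine ⟨(⟨u - A u, ⟨u, by simp⟩⟩, ⟨u, hu⟩), ?_⟩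
      rw [hφ]
      exact sub_add_cancel _ _
  have h1 : finrank ℚ (LinearMap.range φ) + finrank ℚ (LinearMap.ker φ) =
      finrank ℚ U1 + finrank ℚ U2 := by
    rw [LinearMap.finrank_range_add_finrank_ker, Module.finrank_prod]
  let K0 := LinearMap.ker (1 - A * B)
  let ψ0 : V →ₗ[ℚ] (U1 × U2) :=
    LinearMap.prod ((1 - A).rangeRestrict) ((1 - B).rangeRestrict)
  have hψ0 : ∀ v, φ (ψ0 v) = (1 - A * B) v := by
    intro v
    rw [hφ]
    simp [ψ0]
  let ψ : K0 →ₗ[ℚ] LinearMap.ker φ :=
    LinearMap.codRestrict _ (ψ0 ∘ₗ K0.subtype) (fun v => by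
      rw [LinearMap.mem_ker, LinearMap.comp_apply, hψ0]
      exact v.2)
  have h2 : finrank ℚ (LinearMap.range ψ) + finrank ℚ (LinearMap.ker ψ) = finrank ℚ K0 :=
    LinearMap.finrank_range_add_finrank_ker _
  have h3 : finrank ℚ (LinearMap.ker ψ) ≤
      finrank ℚ (LinearMap.ker (1 - A) ⊓ LinearMap.ker (1 - B) : Submodule ℚ V) := by
    let i : LinearMap.ker ψ →ₗ[ℚ] (LinearMap.ker (1 - A) ⊓ LinearMap.ker (1 - B) : Submodule ℚ V) :=
      LinearMap.codRestrict _ (K0.subtype ∘ₗ (LinearMap.ker ψ).subtype) (fun v => by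
        have hv : ψ0 ((v : K0) : V) = 0 := by
          have := congrArg Subtype.val (LinearMap.mem_ker.mp v.2)
          exact this
        have hv1 := congrArg (fun z => ((z.1 : U1) : V)) hv
        have hv2 := congrArg (fun z => ((z.2 : U2) : V)) hv
        exact ⟨LinearMap.mem_ker.mpr hv1, LinearMap.mem_ker.mpr hv2⟩)
    refine LinearMap.finrank_le_finrank_of_injective (f := i) ?_
    intro v w hvw
    have := congrArg Subtype.val hvw
    exact Subtype.ext (Subtype.ext this)
  have h4 : finrank ℚ (LinearMap.range ψ) ≤ finrank ℚ (LinearMap.ker φ) :=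
    Submodule.finrank_le _
  have h5 := Submodule.finrank_mono hrange
  have h6 : finrank ℚ K0 = finrank ℚ (LinearMap.ker (1 - A * B)) := rfl
  omega

end Linear

section Orbits

variable {G X : Type*} [Group G] [MulAction G X] [Finite X]

/-- number of orbits of `g`. -/
def orb (X : Type*) [MulAction G X] (g : G) : ℕ :=
  Nat.card (MulAction.orbitRel.Quotient (Subgroup.zpowers g) X)

/-- precomposition with `g`. -/
def pre (X : Type*) [MulAction G X] (g : G) : (X → ℚ) →ₗ[ℚ] (X → ℚ) where
  toFun f x := f (g • x)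
  map_add' _ _ := rfl
  map_smul' _ _ := rfl

@[simp] theorem pre_apply (g : G) (f : X → ℚ) (x : X) : pre X g f x = f (g • x) := rfl

theorem pre_mul (g h : G) : pre X (g * h) = pre X h * pre X g := by
  ext f x
  simp [mul_smul]

theorem mem_ker_pre_iff (g : G) (f : X → ℚ) :
    f ∈ LinearMap.ker (1 - pre X g) ↔ ∀ x, f (g • x) = f x := by
  rw [LinearMap.mem_ker, LinearMap.sub_apply, sub_eq_zero]
  constructor
  · intro h x
    exact (congrFun h x).symm
  · intro h
    funext x
    exact (h x).symm

theorem finrank_ker_pre (g : G) : finrank ℚ (LinearMap.ker (1 - pre X g)) = orb X g := by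
  classical
  let Q := MulAction.orbitRel.Quotient (Subgroup.zpowers g) X
  haveI : Finite Q := Quotient.finite _
  haveI : Fintype Q := Fintype.ofFinite Q
  let toF : (Q → ℚ) →ₗ[ℚ] LinearMap.ker (1 - pre X g) :=
    { toFun := fun f => ⟨fun x => f (Quotient.mk _ x), by
        rw [mem_ker_pre_iff]
        intro x
        congr 1
        refine Quotient.sound ?_
        exact ⟨⟨g, Subgroup.mem_zpowers g⟩, rfl⟩⟩
      map_add' := fun _ _ => rfl
      map_smul' := fun _ _ => rfl }
  have hbij : Function.Bijective toF := by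
    constructor
    · intro f f' h
      funext q
      obtain ⟨x, rfl⟩ := Quotient.exists_rep q
      exact congrFun (congrArg Subtype.val h) x
    · intro f
      have hf := (mem_ker_pre_iff g f.1).mp f.2
      refine ⟨Quotient.lift f.1 ?_, ?_⟩
      · rintro x y ⟨⟨h, hh⟩, rfl⟩
        obtain ⟨k, rfl⟩ := Subgroup.mem_zpowers_iff.mp hh
        show f.1 (g ^ k • y) = f.1 y
        have hnat : ∀ (n : ℕ) (y : X), f.1 (g ^ n • y) = f.1 y := by
          intro n
          induction n with
          | zero => intro y; simp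
          | succ n ih => intro y; rw [pow_succ, mul_smul, ih, hf]
        rcases k with n | n
        · simpa using hnat n y
        · rw [zpow_negSucc]
          have := hnat (n + 1) ((g ^ (n + 1))⁻¹ • y)
          rw [smul_inv_smul] at this
          exact this.symm
      · apply Subtype.ext
        funext x
        rfl
  have h1 := LinearEquiv.finrank_eq (LinearEquiv.ofBijective toF hbij)
  rw [← h1, Module.finrank_pi, orb, Nat.card_eq_fintype_card]

theorem finrank_range_pre (g : G) :
    finrank ℚ (LinearMap.range (1 - pre X g)) + orb X g = Nat.card X := by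
  haveI : Fintype X := Fintype.ofFinite X
  rw [← finrank_ker_pre, LinearMap.finrank_range_add_finrank_ker, Module.finrank_pi,
    Nat.card_eq_fintype_card]

theorem orb_add_le [MulAction.IsPretransitive G X] [Nonempty X] (a b : G)
    (hab : Subgroup.closure {a, b} = ⊤) :
    orb X a + orb X b + orb X (a * b) ≤ Nat.card X + 2 := by
  classical
  haveI : Fintype X := Fintype.ofFinite X
  have h := scott (pre X b) (pre X a)
  rw [← pre_mul, finrank_ker_pre] at h
  have ha := finrank_range_pre (X := X) a
  have hb := finrank_range_pre (X := X) b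
  -- invariants
  have hmem : ∀ P : G → Prop, P a → P b → P 1 → (∀ x y, P x → P y → P (x * y)) →
      (∀ x, P x → P x⁻¹) → ∀ g, P g := by
    intro P h1 h2 h3 h4 h5 g
    have hg : g ∈ Subgroup.closure {a, b} := by rw [hab]; trivial
    refine Subgroup.closure_induction (p := fun x _ => P x) ?_ h3 (fun x y _ _ => h4 x y)
      (fun x _ => h5 x) hg
    rintro x (rfl | rfl)
    · exact h1
    · exact h2
  obtain ⟨x0⟩ := ‹Nonempty X›
  have hinv : finrank ℚ (LinearMap.ker (1 - pre X b) ⊓ LinearMap.ker (1 - pre X a) :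
      Submodule ℚ (X → ℚ)) ≤ 1 := by
    let ev : (LinearMap.ker (1 - pre X b) ⊓ LinearMap.ker (1 - pre X a) :
      Submodule ℚ (X → ℚ)) →ₗ[ℚ] ℚ := (LinearMap.proj x0) ∘ₗ Submodule.subtype _
    have : Function.Injective ev := by
      rw [injective_iff_map_eq_zero]
      rintro ⟨f, hfb, hfa⟩ hf
      replace hfa := (mem_ker_pre_iff a f).mp hfa
      replace hfb := (mem_ker_pre_iff b f).mp hfb
      have hf0 : f x0 = 0 := hf
      apply Subtype.ext
      funext x
      obtain ⟨g, rfl⟩ := MulAction.exists_smul_eq G x0 x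
      have := hmem (fun g => ∀ x, f (g • x) = f x) hfa hfb (fun x => by rw [one_smul])
        (fun u v hu hv x => by rw [mul_smul, hu, hv])
        (fun u hu x => by rw [← hu (u⁻¹ • x), smul_inv_smul]) g
      show f (g • x0) = 0
      rw [this, hf0]
    have h1 := LinearMap.finrank_le_finrank_of_injective this
    rwa [Module.finrank_self] at h1
  have hco : Nat.card X ≤ finrank ℚ (LinearMap.range (1 - pre X b) ⊔ LinearMap.range (1 - pre X a) :
      Submodule ℚ (X → ℚ)) + 1 := by
    set W : Submodule ℚ (X → ℚ) := LinearMap.range (1 - pre X b) ⊔ LinearMap.range (1 - pre X a)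
      with hW
    have hsingle : ∀ (g : G) (x : X), (Pi.single (g • x) (1 : ℚ) - Pi.single x 1 : X → ℚ) ∈
        LinearMap.range (1 - pre X g) := by
      intro g x
      refine ⟨Pi.single (g • x) 1, ?_⟩
      funext y
      rw [LinearMap.sub_apply, Pi.sub_apply, pre_apply, Pi.sub_apply]
      congr 1
      rw [Pi.single_apply, Pi.single_apply]
      simp only [smul_left_cancel_iff]
    have hall : ∀ g : G, ∀ x : X, (Pi.single (g • x) (1 : ℚ) - Pi.single x 1 : X → ℚ) ∈ W := by
      refine hmem _ ?_ ?_ ?_ ?_ ?_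
      · intro x
        exact (le_sup_right : _ ≤ W) (hsingle a x)
      · intro x
        exact (le_sup_left : _ ≤ W) (hsingle b x)
      · intro x
        rw [one_smul, sub_self]
        exact W.zero_mem
      · intro u v hu hv x
        have h1 := W.add_mem (hu (v • x)) (hv x)
        rwa [sub_add_sub_cancel, ← mul_smul] at h1
      · intro u hu x
        have h1 := W.neg_mem (hu (u⁻¹ • x))
        rwa [neg_sub, smul_inv_smul] at h1
    have htop : W ⊔ Submodule.span ℚ {(Pi.single x0 1 : X → ℚ)} = ⊤ := by
      rw [eq_top_iff]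
      intro f _
      have hf : f = ∑ x, f x • (Pi.single x (1 : ℚ) : X → ℚ) := by
        funext y
        rw [Finset.sum_apply, Finset.sum_eq_single y]
        · simp
        · intro z _ hz
          simp [hz.symm]
        · simp
      rw [hf]
      refine Submodule.sum_mem _ fun x _ => Submodule.smul_mem _ _ ?_
      obtain ⟨g, rfl⟩ := MulAction.exists_smul_eq G x0 x
      rw [← sub_add_cancel (Pi.single (g • x0) (1 : ℚ) : X → ℚ) (Pi.single x0 1)]
      exact Submodule.add_mem _ ((le_sup_left : W ≤ _) (hall g x0))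
        ((le_sup_right : _ ≤ W ⊔ _) (Submodule.mem_span_singleton_self _))
    have h1 := Submodule.finrank_add_le_finrank_add_finrank W
      (Submodule.span ℚ {(Pi.single x0 1 : X → ℚ)})
    rw [htop, finrank_top, Module.finrank_pi, ← Nat.card_eq_fintype_card] at h1
    have h2 : finrank ℚ (Submodule.span ℚ {(Pi.single x0 1 : X → ℚ)}) ≤ 1 :=
      (finrank_span_le_card _).trans (by simp)
    omega
  omega

end Orbits

section Parity

variable {X : Type*} [Fintype X] [DecidableEq X]

/-- Number of cycles (including fixed points). -/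
theorem natCard_sameCycle (σ : Equiv.Perm X) :
    Nat.card (Quotient (Equiv.Perm.SameCycle.setoid σ)) + σ.cycleType.sum =
      Multiset.card σ.cycleType + Fintype.card X := by
  classical
  let φ : X → {c // c ∈ σ.cycleFactorsFinset} ⊕ {x // x ∉ σ.support} := fun x => if hx : x ∈ σ.support then
    Sum.inl ⟨σ.cycleOf x, Equiv.Perm.cycleOf_mem_cycleFactorsFinset_iff.mpr hx⟩
    else Sum.inr ⟨x, hx⟩
  have hφ : ∀ x y, σ.SameCycle x y ↔ φ x = φ y := by
    intro x y
    by_cases hx : x ∈ σ.support <;> by_cases hy : y ∈ σ.support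
    · simp only [φ, dif_pos hx, dif_pos hy, Sum.inl.injEq, Subtype.mk.injEq]
      exact Equiv.Perm.sameCycle_iff_cycleOf_eq_of_mem_support hx hy
    · simp only [φ, dif_pos hx, dif_neg hy, reduceCtorEq, iff_false]
      intro h
      exact hy (Equiv.Perm.mem_support.mpr ((Equiv.Perm.SameCycle.apply_eq_self_iff h).not.mp
        (Equiv.Perm.mem_support.mp hx)))
    · simp only [φ, dif_neg hx, dif_pos hy, reduceCtorEq, iff_false]
      intro h
      exact hx (Equiv.Perm.mem_support.mpr ((Equiv.Perm.SameCycle.apply_eq_self_iff h).not.mpr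
        (Equiv.Perm.mem_support.mp hy)))
    · simp only [φ, dif_neg hx, dif_neg hy, Sum.inr.injEq, Subtype.mk.injEq]
      constructor
      · rintro ⟨i, hi⟩
        exact (Equiv.Perm.zpow_apply_eq_self_of_apply_eq_self
          (Equiv.Perm.notMem_support.mp hx) i).symm.trans hi
      · rintro rfl
        exact Equiv.Perm.SameCycle.refl _ _
  have hsurj : Function.Surjective φ := by
    rintro (⟨c, hc⟩ | ⟨x, hx⟩)
    · obtain ⟨x, hx⟩ := (Equiv.Perm.mem_cycleFactorsFinset_iff.mp hc).1.nonempty_support
      have hx' : x ∈ σ.support := Equiv.Perm.mem_cycleFactorsFinset_support_le hc hx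
      refine ⟨x, ?_⟩
      simp only [φ, dif_pos hx', Sum.inl.injEq, Subtype.mk.injEq]
      exact (Equiv.Perm.cycle_is_cycleOf hx hc).symm
    · exact ⟨x, by simp only [φ, dif_neg hx]⟩
  have e : Quotient (Equiv.Perm.SameCycle.setoid σ) ≃
      ({c // c ∈ σ.cycleFactorsFinset} ⊕ {x // x ∉ σ.support}) :=
    (Quotient.congrRight (r := Equiv.Perm.SameCycle.setoid σ) (r' := Setoid.ker φ)
      (fun x y => (hφ x y).trans Iff.rfl)).trans (Setoid.quotientKerEquivOfSurjective φ hsurj)
  have h1 : Nat.card ({c // c ∈ σ.cycleFactorsFinset} ⊕ {x // x ∉ σ.support}) =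
      σ.cycleFactorsFinset.card + (Fintype.card X - σ.support.card) := by
    rw [Nat.card_sum, Nat.card_eq_fintype_card, Nat.card_eq_fintype_card, Fintype.card_coe,
      Fintype.card_subtype_compl, Fintype.card_coe]
  have h2 : Multiset.card σ.cycleType = σ.cycleFactorsFinset.card := by
    rw [Equiv.Perm.cycleType_def, Multiset.card_map]; rfl
  have h3 : σ.support.card ≤ Fintype.card X := Finset.card_le_univ _
  rw [Nat.card_congr e, h1, h2, Equiv.Perm.sum_cycleType]
  omega

end Parity

section Parity2

variable {G X : Type*} [Group G] [MulAction G X] [Finite X]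

theorem sign_eq [Fintype X] [DecidableEq X] (g : G) :
    Equiv.Perm.sign (MulAction.toPerm g : Equiv.Perm X) = (-1) ^ (Nat.card X + orb X g) := by
  have h1 : orb X g = Nat.card (Quotient (Equiv.Perm.SameCycle.setoid
      (MulAction.toPerm g : Equiv.Perm X))) := by
    refine Nat.card_congr (Quotient.congrRight fun x y => ?_)
    show x ∈ MulAction.orbit _ y ↔ Equiv.Perm.SameCycle _ x y
    rw [Equiv.Perm.sameCycle_comm]
    constructor
    · rintro ⟨⟨h, hh⟩, rfl⟩
      obtain ⟨k, rfl⟩ := Subgroup.mem_zpowers_iff.mp hh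
      refine ⟨k, ?_⟩
      have := map_zpow (MulAction.toPermHom G X) g k
      exact (DFunLike.congr_fun this y).symm
    · rintro ⟨k, hk⟩
      refine ⟨⟨g ^ k, k, rfl⟩, ?_⟩
      have := map_zpow (MulAction.toPermHom G X) g k
      exact (DFunLike.congr_fun this y).trans hk
  rw [Equiv.Perm.sign_of_cycleType, h1]
  have h2 := natCard_sameCycle (MulAction.toPerm g : Equiv.Perm X)
  rw [Nat.card_eq_fintype_card (α := X)]
  set c := (MulAction.toPerm g : Equiv.Perm X).cycleType.sum
  set m := Multiset.card (MulAction.toPerm g : Equiv.Perm X).cycleType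
  set o := Nat.card (Quotient (Equiv.Perm.SameCycle.setoid (MulAction.toPerm g : Equiv.Perm X)))
  have h3 : (-1 : ℤˣ) ^ (o + c + (c + m)) = (-1) ^ (m + Fintype.card X + (c + m)) := by rw [h2]
  have h4 : (-1 : ℤˣ) ^ (c + m) * (-1) ^ (Fintype.card X + o) = 1 := by
    rw [← pow_add, show c + m + (Fintype.card X + o) = (o + c) + (m + Fintype.card X) by ring, h2,
      ← two_mul, pow_mul]
    simp
  have h5 := mul_eq_one_iff_eq_inv.mp h4
  rw [h5, Int.units_inv_eq_self]

theorem even_orb (a b : G) :
    Even (Nat.card X + orb X a + orb X b + orb X (a * b)) := by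
  classical
  haveI : Fintype X := Fintype.ofFinite X
  have h1 : (MulAction.toPerm (a * b) : Equiv.Perm X) = MulAction.toPerm a * MulAction.toPerm b :=
    map_mul (MulAction.toPermHom G X) a b
  have h2 := congrArg Equiv.Perm.sign h1
  rw [Equiv.Perm.sign_mul, sign_eq, sign_eq, sign_eq, ← pow_add] at h2
  have h3 : (-1 : ℤˣ) ^ (Nat.card X + orb X a + orb X b + orb X (a * b)) = 1 := by
    have h4 : (-1 : ℤˣ) ^ (Nat.card X + orb X (a * b)) *
        (-1) ^ (Nat.card X + orb X a + (Nat.card X + orb X b)) = 1 := by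
      rw [h2, ← pow_add, ← two_mul, pow_mul]; simp
    rw [← pow_add, show Nat.card X + orb X (a * b) + (Nat.card X + orb X a +
      (Nat.card X + orb X b)) = (Nat.card X + orb X a + orb X b + orb X (a * b)) +
      2 * Nat.card X by ring, pow_add, pow_mul] at h4
    simpa using h4
  rcases Nat.even_or_odd (Nat.card X + orb X a + orb X b + orb X (a * b)) with h | h
  · exact h
  · rw [h.neg_one_pow] at h3
    exact absurd h3 (by decide)

/-- **Genus of a permutation triple** is a natural number. -/
theorem exists_genus [MulAction.IsPretransitive G X] [Nonempty X] (a b : G)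
    (hab : Subgroup.closure {a, b} = ⊤) :
    ∃ g : ℕ, (2 * g : ℤ) - 2 = Nat.card X - orb X a - orb X b - orb X (a * b) := by
  obtain ⟨k, hk⟩ := even_orb (X := X) a b
  have h := orb_add_le (X := X) a b hab
  refine ⟨Nat.card X + 1 - k, ?_⟩
  have : k ≤ Nat.card X + 1 := by omega
  omega

end Parity2

end Fermat.FF.PermGenus
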