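import Mathlib
import Fermat.Agent.FF.PermGenus
import Fermat.Agent.Gamma0Count

set_option autoImplicit false

noncomputable section

namespace Fermat.FF

open ModularCurve PermGenus Matrix SpecialLinearGroup CongruenceSubgroup ModularGroup
open scoped MatrixGroups

/-- The genus formula for `X₀(N)` is a natural number `g`, and `2g-2` is given by the
Riemann–Hurwitz count on the cosets `SL(2,ℤ) ⧸ Γ₀(N)`. -/
theorem exists_genusFormula (N : ℕ) [NeZero N] : ∃ g : ℕ, (g : ℚ) = genusFormula N ∧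
    (2 * g : ℤ) - 2 =
      (((Nat.card (SL(2, ℤ) ⧸ Gamma0 N) : ℤ) - orb (SL(2, ℤ) ⧸ Gamma0 N) (S * T)) +
      ((Nat.card (SL(2, ℤ) ⧸ Gamma0 N) : ℤ) - orb (SL(2, ℤ) ⧸ Gamma0 N) S)) -
      Nat.card (SL(2, ℤ) ⧸ Gamma0 N) - orb (SL(2, ℤ) ⧸ Gamma0 N) T := by
  obtain ⟨g, hg⟩ := exists_genus (X := SL(2, ℤ) ⧸ Gamma0 N) S T SL2Z_generators
  have hS : 2 * orb (SL(2, ℤ) ⧸ Gamma0 N) S = _ := Fermat.Agent.Gamma0Count.card_S_orbits N
  have hST : 3 * orb (SL(2, ℤ) ⧸ Gamma0 N) (S * T) = _ :=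
    Fermat.Agent.Gamma0Count.card_ST_orbits N
  have hT : orb (SL(2, ℤ) ⧸ Gamma0 N) T = _ := Fermat.Agent.Gamma0Count.card_T_orbits N
  have hX := Fermat.Agent.Gamma0Count.card_quotient N
  refine ⟨g, ?_, by rw [hg]; ring⟩
  rw [hX, hT] at hg
  set oS := orb (SL(2, ℤ) ⧸ Gamma0 N) S
  set oST := orb (SL(2, ℤ) ⧸ Gamma0 N) (S * T)
  have hS' : (2 * oS : ℚ) = dedekindPsi N + nuTwo N := by exact_mod_cast hS
  have hST' : (3 * oST : ℚ) = dedekindPsi N + 2 * nuThree N := by exact_mod_cast hST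
  have hg' : (2 * g : ℚ) - 2 = dedekindPsi N - oS - cuspCount N - oST := by exact_mod_cast hg
  rw [genusFormula]
  linarith

end Fermat.FF
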