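import Mathlib
import Fermat.Agent.FF.GaloisGenus
import Fermat.Agent.FF.X0Numerics

set_option autoImplicit false
set_option linter.unusedSectionVars false
set_option linter.style.haveILetI false

noncomputable section

namespace Fermat.FF

open AlgebraicCurve ModularCurve PermGenus Matrix SpecialLinearGroup CongruenceSubgroup
  ModularGroup IntermediateField
open scoped MatrixGroups

variable {K L : Type*} [Field K] [Field L] [Algebra K L] [IsAlgClosed K] [CharZero K]
variable [MulSemiringAction SL(2, ℤ) L] [SMulCommClass SL(2, ℤ) K L]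

/-- **Assembly of the genus of `X₀(N)`** from the Galois theory of the modular function field of
full level. -/
theorem genus_X0_of_data (N : ℕ) [NeZero N] {x : L} (hx : Transcendental K x)
    (hfin : Finite (MulSemiringAction.toAlgAut SL(2, ℤ) K L).range)
    (hK : ∀ l : L, (∀ g : SL(2, ℤ), g • l = l) ↔ l ∈ K⟮x⟯)
    (F : IntermediateField K L) (hF : ∀ l : L, l ∈ F ↔ ∀ g ∈ Gamma0 N, g • l = l)
    (hker : ∀ g : SL(2, ℤ), (∀ l ∈ F, g • l = l) → g ∈ Gamma0 N)
    (hxF : x ∈ F)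
    (hgen : ∀ a : K, a ≠ 0 → a ≠ 1728 → ∃ w : Place K L, 0 < w.ord (x - algebraMap K L a) ∧
      w.ord (x - algebraMap K L a) ≤ 1)
    (h0 : ∃ w : Place K L, 0 < w.ord x ∧
      (∀ l ∈ w.toValuationSubring, (S * T) • l ∈ w.toValuationSubring) ∧
      (w.ord x ≤ orderOf (MulSemiringAction.toAlgAut SL(2, ℤ) K L (S * T)) ∨ N = 1))
    (h1728 : ∃ w : Place K L, 0 < w.ord (x - algebraMap K L 1728) ∧
      (∀ l ∈ w.toValuationSubring, S • l ∈ w.toValuationSubring) ∧
      (w.ord (x - algebraMap K L 1728) ≤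
        orderOf (MulSemiringAction.toAlgAut SL(2, ℤ) K L S) ∨ N = 1))
    (hinf : ∃ w : Place K L, w.ord x < 0 ∧
      (∀ l ∈ w.toValuationSubring, T • l ∈ w.toValuationSubring) ∧
      (-(w.ord x) ≤ orderOf (MulSemiringAction.toAlgAut SL(2, ℤ) K L T) ∨ N = 1))
    {F' : Type*} [Field F'] [Algebra K F'] [HasCanonicalDivisor (K := K) (F := F')]
    (e : F ≃ₐ[K] F') :
    (genus K F' : ℚ) = genusFormula N := by
  classical
  obtain ⟨g, hg1, hg2⟩ := exists_genusFormula N
  rw [← hg1]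
  have hN1 : N = 1 → Gamma0 N = ⊤ := by
    rintro rfl
    rw [eq_top_iff]
    intro A _
    rw [Gamma0_mem]
    exact Subsingleton.elim _ _
  obtain ⟨winf, hwinf, hγinf, hleinf⟩ := hinf
  have hex : ∀ a : K, ∃ w : Place K L, 0 < w.ord (x - algebraMap K L a) ∧
      (∀ l ∈ w.toValuationSubring, (if a = 0 then S * T else if a = 1728 then S else 1 :
        SL(2, ℤ)) • l ∈ w.toValuationSubring) ∧
      (w.ord (x - algebraMap K L a) ≤ orderOf (MulSemiringAction.toAlgAut SL(2, ℤ) K L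
        (if a = 0 then S * T else if a = 1728 then S else 1 : SL(2, ℤ))) ∨ Gamma0 N = ⊤) := by
    intro a
    by_cases ha : a = 0
    · obtain ⟨w, hw1, hw2, hw3⟩ := h0
      refine ⟨w, ?_, ?_, ?_⟩
      · rw [ha, map_zero, sub_zero]; exact hw1
      · rw [if_pos ha]; exact hw2
      · rw [if_pos ha, ha, map_zero, sub_zero]; exact hw3.imp_right hN1
    by_cases hb : a = 1728
    · obtain ⟨w, hw1, hw2, hw3⟩ := h1728
      refine ⟨w, ?_, ?_, ?_⟩
      · rw [hb]; exact hw1
      · rw [if_neg ha, if_pos hb]; exact hw2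
      · rw [if_neg ha, if_pos hb, hb]; exact hw3.imp_right hN1
    · obtain ⟨w, hw1, hw2⟩ := hgen a ha hb
      refine ⟨w, hw1, ?_, ?_⟩
      · rw [if_neg ha, if_neg hb]
        intro l hl
        rwa [one_smul]
      · rw [if_neg ha, if_neg hb, map_one, orderOf_one]
        left
        exact_mod_cast hw2
  choose w hw1 hw2 hw3 using hex
  have h01728 : (0 : K) ≠ 1728 := by norm_num
  rw [Nat.cast_inj]
  refine genus_eq_of_tower hx hfin hK (Gamma0 N) F hF hker hxF {0, 1728}
    (fun a => if a = 0 then S * T else if a = 1728 then S else 1) w ?_ hw1 hw2 hw3 T winf hwinf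
    hγinf (hleinf.imp_right hN1) e g ?_
  · intro a ha
    rw [Finset.mem_insert, Finset.mem_singleton, not_or] at ha
    rw [if_neg ha.1, if_neg ha.2]
  · rw [hg2, Finset.sum_pair h01728, if_pos rfl, if_neg h01728.symm, if_pos rfl]
    rfl

/-- Version of `genus_X0_of_data` for an action given by a homomorphism `π`. -/
theorem genus_X0_of_hom {K L : Type*} [Field K] [Field L] [Algebra K L] [IsAlgClosed K]
    [CharZero K] (π : SL(2, ℤ) →* (L ≃ₐ[K] L)) (N : ℕ) [NeZero N] {x : L}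
    (hx : Transcendental K x) (hfin : Finite π.range)
    (hK : ∀ l : L, (∀ g : SL(2, ℤ), π g l = l) ↔ l ∈ K⟮x⟯)
    (F : IntermediateField K L) (hF : ∀ l : L, l ∈ F ↔ ∀ g ∈ Gamma0 N, π g l = l)
    (hker : ∀ g : SL(2, ℤ), (∀ l ∈ F, π g l = l) → g ∈ Gamma0 N)
    (hxF : x ∈ F)
    (hgen : ∀ a : K, a ≠ 0 → a ≠ 1728 → ∃ w : Place K L, 0 < w.ord (x - algebraMap K L a) ∧
      w.ord (x - algebraMap K L a) ≤ 1)
    (h0 : ∃ w : Place K L, 0 < w.ord x ∧
      (∀ l ∈ w.toValuationSubring, π (S * T) l ∈ w.toValuationSubring) ∧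
      (w.ord x ≤ orderOf (π (S * T)) ∨ N = 1))
    (h1728 : ∃ w : Place K L, 0 < w.ord (x - algebraMap K L 1728) ∧
      (∀ l ∈ w.toValuationSubring, π S l ∈ w.toValuationSubring) ∧
      (w.ord (x - algebraMap K L 1728) ≤ orderOf (π S) ∨ N = 1))
    (hinf : ∃ w : Place K L, w.ord x < 0 ∧
      (∀ l ∈ w.toValuationSubring, π T l ∈ w.toValuationSubring) ∧
      (-(w.ord x) ≤ orderOf (π T) ∨ N = 1))
    {F' : Type*} [Field F'] [Algebra K F'] [HasCanonicalDivisor (K := K) (F := F')]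
    (e : F ≃ₐ[K] F') :
    (genus K F' : ℚ) = genusFormula N := by
  let i1 : MulSemiringAction SL(2, ℤ) L := MulSemiringAction.compHom L π
  have hsmul : ∀ (g : SL(2, ℤ)) (l : L), g • l = π g l := fun _ _ => rfl
  have i2 : SMulCommClass SL(2, ℤ) K L := ⟨fun g c l => (map_smul (π g) c l)⟩
  have hπ : MulSemiringAction.toAlgAut SL(2, ℤ) K L = π := by
    ext g l
    exact hsmul g l
  refine genus_X0_of_data N hx (hπ ▸ hfin) hK F hF hker hxF hgen ?_ ?_ ?_ e
  · rw [hπ]; exact h0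
  · rw [hπ]; exact h1728
  · rw [hπ]; exact hinf

end Fermat.FF
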