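import Mathlib
import Fermat.Agent.FF.Rel
import Fermat.Agent.FF.GenLocal
import Fermat.Prelude.Def_AlgebraicCurve_Correspondence

/-!
# Global corollaries of the relative local theory

`F/K` a function field of one variable (`IsFF1`), `F'/F` finite; any `K`, any characteristic, no
separability: norm formula and fundamental identity, also in the `Along` form.
-/

set_option autoImplicit false

noncomputable section

open AlgebraicCurve

namespace Fermat.FF.Rel

section

variable (K F F' : Type*) [Field K] [Field F] [Field F'] [Algebra K F] [Algebra K F']
  [Algebra F F'] [IsScalarTower K F F'] [FiniteDimensional F F'] [IsFF1 K F]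

omit [Algebra K F'] [IsScalarTower K F F'] in
theorem finiteAt (v : Place K F) : FiniteAt F' v :=
  ⟨Fermat.FF.Gen.finite_integralClosure_valuationSubring F' v⟩

theorem normFormula : Divisor.PushforwardNormFormula K F F' :=
  pushforwardNormFormula K F F' fun v => finiteAt K F F' v

theorem sumRamificationInertia' [HasPrincipalDivisors K F'] : SumRamificationInertia K F F' :=
  sumRamificationInertia K F F' fun v => finiteAt K F F' v

theorem fundamentalIdentity [HasPrincipalDivisors K F'] : FundamentalIdentity K F F' :=
  haveI := sumRamificationInertia' K F F'
  inferInstance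

end

section Along

variable {K F F' : Type*} [Field K] [Field F] [Field F'] [Algebra K F] [Algebra K F']
  [IsFF1 K F]

theorem fundamentalIdentityAlong (φ : F →ₐ[K] F') (hφ : φ.toRingHom.IsIntegral)
    (hfin : FiniteAlong K φ) [HasPrincipalDivisors K F'] : FundamentalIdentityAlong K φ hφ := by
  letI := algebraAlong φ
  haveI := isScalarTower_along φ
  haveI := isIntegral_along φ hφ
  haveI : Module.Finite F F' := hfin
  exact fundamentalIdentity K F F'

theorem normFormulaAlong (φ : F →ₐ[K] F') (hfin : FiniteAlong K φ) :
    NormFormulaAlong K φ hfin := by
  letI := algebraAlong φ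
  haveI := isScalarTower_along φ
  haveI : Module.Finite F F' := hfin
  exact normFormula K F F'

end Along

end Fermat.FF.Rel
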