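import Mathlib
import Fermat.Agent.J.Field
import Fermat.Agent.J1.Orders
import Fermat.Agent.FF.PlaceOfVal

set_option autoImplicit false
set_option linter.unusedSectionVars false

/-!
# Places of the field of modular functions of level `N`

`localL τ : FunN K N →+* ℂ((w))` local expansion at `τ ∈ ℍ`;
`infL : FunN K N →+* ℂ((q_N))` expansion at infinity.
-/

noncomputable section

open AlgebraicCurve UpperHalfPlane FermatJ Matrix
open scoped MatrixGroups ComplexConjugate Manifold

namespace Fermat.FF.FunN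

/-! ### Preliminaries on orders of Laurent series -/

theorem orderTop_twist {R : Type*} [CommRing R] (u : Rˣ) (φ : LaurentSeries R) :
    (twist u φ).orderTop = φ.orderTop := by
  have hle : ∀ (u : Rˣ) (φ : LaurentSeries R), φ.orderTop ≤ (twist u φ).orderTop := by
    intro u φ
    rw [HahnSeries.le_orderTop_iff_forall]
    intro j hj
    rw [coeff_twist, HahnSeries.coeff_eq_zero_of_lt_orderTop hj, mul_zero]
  refine le_antisymm ?_ (hle u φ)
  have h2 : twist u⁻¹ (twist u φ) = φ := by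
    ext k
    rw [coeff_twist, coeff_twist, ← mul_assoc, ← Units.val_mul, ← mul_zpow, inv_mul_cancel,
      _root_.one_zpow, Units.val_one, one_mul]
  calc (twist u φ).orderTop ≤ (twist u⁻¹ (twist u φ)).orderTop := hle _ _
    _ = φ.orderTop := by rw [h2]

theorem orderTop_ofPowerSeries_nonneg (P : PowerSeries ℂ) :
    0 ≤ (HahnSeries.ofPowerSeries ℤ ℂ P).orderTop := by
  rw [HahnSeries.le_orderTop_iff_forall]
  intro j hj
  exact ModularCurve.ofPowerSeries_coeff_of_neg _ (by exact_mod_cast hj)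

theorem orderTop_ofPowerSeries {P : PowerSeries ℂ} {n : ℕ} (h : P.order = n) :
    (HahnSeries.ofPowerSeries ℤ ℂ P).orderTop = ((n : ℤ) : WithTop ℤ) := by
  obtain ⟨h1, h2⟩ := (PowerSeries.order_eq_nat).mp h
  refine HahnSeries.orderTop_eq_of_le ?_ ?_
  · rw [HahnSeries.mem_support, HahnSeries.ofPowerSeries_apply_coeff]; exact h1
  · intro g hg
    rw [HahnSeries.mem_support] at hg
    by_contra hlt
    rw [not_le] at hlt
    apply hg
    rcases lt_or_ge g 0 with h0 | h0
    · exact ModularCurve.ofPowerSeries_coeff_of_neg _ h0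
    · obtain ⟨m, rfl⟩ := Int.eq_ofNat_of_zero_le h0
      rw [HahnSeries.ofPowerSeries_apply_coeff]
      exact h2 m (by exact_mod_cast hlt)

/-! ### The disc coordinate under `SL(2, ℤ)` -/

theorem exists_wc_smul' (γ : SL(2, ℤ)) (τ₁ : ℍ) :
    ∃ u : ℂˣ, ∀ τ, wc (γ • τ₁) (γ • τ) = u * wc τ₁ τ := by
  have hd0 : denom γ (τ₁ : ℂ) ≠ 0 := denom_ne_zero _ τ₁
  have hdc : conj (denom γ (τ₁ : ℂ)) ≠ 0 := by
    rwa [ne_eq, map_eq_zero]
  refine ⟨Units.mk0 (conj (denom γ (τ₁ : ℂ)) / denom γ (τ₁ : ℂ)) (div_ne_zero hdc hd0),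
    fun τ => ?_⟩
  rw [Units.val_mk0]
  have hdet : ((γ 0 0 : ℤ) : ℂ) * (γ 1 1 : ℤ) - (γ 0 1 : ℤ) * (γ 1 0 : ℤ) = 1 := by
    have := γ.det_coe
    rw [Matrix.det_fin_two] at this
    exact_mod_cast congrArg (Int.cast : ℤ → ℂ) this
  have hτ : ∀ τ : ℍ, ((γ • τ : ℍ) : ℂ) =
      ((γ 0 0 : ℤ) * (τ : ℂ) + (γ 0 1 : ℤ)) / denom γ (τ : ℂ) := by
    intro τ
    rw [UpperHalfPlane.coe_specialLinearGroup_apply, ModularGroup.denom_apply]
    simp
  have hτc : conj ((γ • τ₁ : ℍ) : ℂ) =
      ((γ 0 0 : ℤ) * conj (τ₁ : ℂ) + (γ 0 1 : ℤ)) / conj (denom γ (τ₁ : ℂ)) := by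
    rw [hτ]
    simp [map_div₀]
  have hd : denom γ (τ : ℂ) ≠ 0 := denom_ne_zero _ τ
  have h3 := sub_conj_ne_zero τ₁ τ
  have h4 := sub_conj_ne_zero (γ • τ₁) (γ • τ)
  rw [wc, wc, div_eq_iff h4]
  rw [hτc, hτ, hτ]
  have e1 : denom γ (τ : ℂ) = (γ 1 0 : ℤ) * (τ : ℂ) + (γ 1 1 : ℤ) := ModularGroup.denom_apply γ τ
  have e2 : denom γ (τ₁ : ℂ) = (γ 1 0 : ℤ) * (τ₁ : ℂ) + (γ 1 1 : ℤ) :=
    ModularGroup.denom_apply γ τ₁
  have e3 : conj (denom γ (τ₁ : ℂ)) = (γ 1 0 : ℤ) * conj (τ₁ : ℂ) + (γ 1 1 : ℤ) := by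
    rw [e2]; simp
  field_simp
  rw [e3, e1, e2]
  ring

/-! ### Local expansions as ring homomorphisms -/

variable {K : Type*} [Field K] [IsAlgClosed K] [Algebra ℚ K] [Algebra K ℂ] {N : ℕ} [NeZero N]

/-- Local expansion at `τ₀`. -/
def localHom (τ₀ : ℍ) : holo K N →+* LaurentSeries ℂ :=
  (HahnSeries.ofPowerSeries ℤ ℂ).comp
  { toFun := fun f => localPS τ₀ f.1
    map_one' := localPS_unique (mdiff_of_mem (1 : holo K N).2) (HasPS.one _)
    map_mul' := fun f g => localPS_unique (mdiff_of_mem (f * g).2)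
      ((hasPS_local τ₀ (mdiff_of_mem f.2)).mul (hasPS_local τ₀ (mdiff_of_mem g.2)))
    map_zero' := localPS_unique (mdiff_of_mem (0 : holo K N).2) (HasPS.zero _)
    map_add' := fun f g => localPS_unique (mdiff_of_mem (f + g).2)
      ((hasPS_local τ₀ (mdiff_of_mem f.2)).add (hasPS_local τ₀ (mdiff_of_mem g.2))) }

theorem localHom_apply (τ₀ : ℍ) (f : holo K N) :
    localHom τ₀ f = HahnSeries.ofPowerSeries ℤ ℂ (localPS τ₀ f.1) := rfl

theorem localHom_injective (τ₀ : ℍ) : Function.Injective (localHom (K := K) (N := N) τ₀) := by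
  rw [injective_iff_map_eq_zero]
  intro f hf
  rw [localHom_apply, map_eq_zero_iff _ HahnSeries.ofPowerSeries_injective] at hf
  have h := hasPS_local τ₀ (mdiff_of_mem f.2)
  rw [hf] at h
  ext τ
  have h1 := h τ
  simp only [map_zero, zero_mul] at h1
  exact h1.unique hasSum_zero

/-- Local expansion at `τ₀` of elements of `FunN K N`. -/
def localL (τ₀ : ℍ) : FunN K N →+* LaurentSeries ℂ :=
  IsFractionRing.lift (A := holo K N) (localHom_injective τ₀)

theorem localL_algebraMap (τ₀ : ℍ) (f : holo K N) :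
    localL τ₀ (algebraMap (holo K N) (FunN K N) f) =
      HahnSeries.ofPowerSeries ℤ ℂ (localPS τ₀ f.1) :=
  IsFractionRing.lift_algebraMap (localHom_injective τ₀) f

theorem localPS_const (τ₀ : ℍ) (c : ℂ) : localPS τ₀ (fun _ => c) = PowerSeries.C c :=
  localPS_unique mdifferentiable_const (HasPS.C _ c)

theorem localL_const (τ₀ : ℍ) (c : K) :
    localL τ₀ (algebraMap K (FunN K N) c) = HahnSeries.C (algebraMap K ℂ c) := by
  rw [IsScalarTower.algebraMap_apply K (holo K N) (FunN K N), localL_algebraMap]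
  have : localPS τ₀ (algebraMap K (holo K N) c).1 = PowerSeries.C (algebraMap K ℂ c) :=
    localPS_const τ₀ _
  rw [this, HahnSeries.ofPowerSeries_C]

/-- Equivariance of local expansions. -/
theorem exists_localL_actN (γ : SL(2, ℤ)) (τ₀ : ℍ) : ∃ u : ℂˣ, ∀ l : FunN K N,
    localL τ₀ l = twist u (localL (γ • τ₀) (actN K N γ l)) := by
  obtain ⟨u, hu⟩ := exists_wc_smul' γ τ₀
  refine ⟨u, fun l => ?_⟩
  have h : (localL τ₀ : FunN K N →+* LaurentSeries ℂ) = ((twist u).comp
      (localL (γ • τ₀))).comp ((actN K N γ : FunN K N ≃ₐ[K] FunN K N) : FunN K N →+* FunN K N) := by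
    apply IsLocalization.ringHom_ext (nonZeroDivisors (holo K N))
    ext1 f
    simp only [RingHom.comp_apply, RingHom.coe_coe, actN_algebraMap, localL_algebraMap,
      twist_ofPowerSeries]
    congr 1
    apply localPS_unique (mdiff_of_mem f.2)
    have h1 := hasPS_local (γ • τ₀) (mdiff_of_mem (actHolo γ f).2)
    intro τ
    have h2 := h1 (γ • τ)
    rw [actHolo_apply, inv_smul_smul, hu] at h2
    refine h2.congr_fun ?_ 
    intro n
    simp only [PowerSeries.coeff_rescale]
    ring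
  exact DFunLike.congr_fun h l

theorem orderTop_localL_actN (γ : SL(2, ℤ)) (τ₀ : ℍ) (l : FunN K N) :
    (localL (γ • τ₀) (actN K N γ l)).orderTop = (localL τ₀ l).orderTop := by
  obtain ⟨u, hu⟩ := exists_localL_actN (K := K) (N := N) γ τ₀
  rw [hu, orderTop_twist]

/-! ### Expansion at infinity -/

/-- Expansion at infinity in `q_N`, with complex coefficients. -/
def infHom : holo K N →+* LaurentSeries ℂ :=
  (ModularCurve.coeffMap (algebraMap K ℂ)).comp (expInf (K := K) (N := N)).toRingHom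

theorem infHom_injective : Function.Injective (infHom (K := K) (N := N)) :=
  toC_injective.comp expInf_injective

/-- Expansion at infinity in `q_N`, with complex coefficients. -/
def infL : FunN K N →+* LaurentSeries ℂ :=
  IsFractionRing.lift (A := holo K N) infHom_injective

theorem infL_algebraMap (f : holo K N) :
    infL (algebraMap (holo K N) (FunN K N) f) = toC (expInf f) :=
  IsFractionRing.lift_algebraMap infHom_injective f

theorem infL_eq {f : holo K N} {φ : LaurentSeries ℂ} (h : HasExp (qc N) f.1 φ) :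
    infL (algebraMap (holo K N) (FunN K N) f) = φ := by
  rw [infL_algebraMap]
  exact (hasExp_expInf f).unique (eventually_mem_range_qc N) h

theorem infL_const (c : K) :
    infL (algebraMap K (FunN K N) c) = HahnSeries.C (algebraMap K ℂ c) := by
  rw [IsScalarTower.algebraMap_apply K (holo K N) (FunN K N)]
  exact infL_eq (HasExp.const _ _)

theorem exists_qc_T (N : ℕ) : ∃ u : ℂˣ, ∀ τ, qc N (ModularGroup.T • τ) = u * qc N τ := by
  refine ⟨Units.mk0 (Complex.exp (2 * Real.pi * Complex.I * 1 / N)) (Complex.exp_ne_zero _),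
    fun τ => ?_⟩
  rw [Units.val_mk0, qc, qc, Function.Periodic.qParam, Function.Periodic.qParam,
    ← Complex.exp_add, UpperHalfPlane.modular_T_smul, UpperHalfPlane.coe_vadd]
  congr 1
  push_cast
  ring

theorem exists_infL_actN_T : ∃ u : ℂˣ, ∀ l : FunN K N,
    infL l = twist u (infL (actN K N ModularGroup.T l)) := by
  obtain ⟨u, hu⟩ := exists_qc_T N
  refine ⟨u, fun l => ?_⟩
  have h : (infL : FunN K N →+* LaurentSeries ℂ) = ((twist u).comp infL).comp
      ((actN K N ModularGroup.T : FunN K N ≃ₐ[K] FunN K N) : FunN K N →+* FunN K N) := by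
    apply IsLocalization.ringHom_ext (nonZeroDivisors (holo K N))
    ext1 f
    simp only [RingHom.comp_apply, RingHom.coe_coe, actN_algebraMap]
    apply infL_eq
    have h1 := (hasExp_expInf (actHolo ModularGroup.T f)).twist (t' := qc N)
      (σ := fun τ => ModularGroup.T • τ) u hu
    rw [infL_algebraMap]
    refine h1.congr fun τ => ?_
    rw [actHolo_apply, inv_smul_smul]
  exact DFunLike.congr_fun h l

theorem orderTop_infL_actN_T (l : FunN K N) :
    (infL (actN K N ModularGroup.T l)).orderTop = (infL l).orderTop := by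
  obtain ⟨u, hu⟩ := exists_infL_actN_T (K := K) (N := N)
  rw [hu l, orderTop_twist]

/-! ### The function `j` -/

theorem jf_mem_gens (N : ℕ) : jf ∈ gens N := by
  refine ⟨1, 0, 1, inferInstance, inferInstance, by simp, by norm_num, ?_⟩
  funext τ
  rw [jabd]
  congr 1
  apply UpperHalfPlane.ext
  simp [aff]

variable (K N) in
/-- `j` in the ring of holomorphic functions. -/
def jH : holo K N := ⟨jf, Algebra.subset_adjoin (jf_mem_gens N)⟩

variable (K N) in
/-- `j` in the field of modular functions. -/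
def jL : FunN K N := algebraMap (holo K N) (FunN K N) (jH K N)

theorem actN_jL (γ : SL(2, ℤ)) : actN K N γ (jL K N) = jL K N := by
  have h : actHolo γ (jH K N) = jH K N := Subtype.ext (funext fun τ => jf_smul γ⁻¹ τ)
  rw [jL, actN_algebraMap, h]

theorem localL_jL_sub (τ₀ : ℍ) (a : K) :
    localL τ₀ (jL K N - algebraMap K (FunN K N) a) =
      HahnSeries.ofPowerSeries ℤ ℂ (localPS τ₀ jf - PowerSeries.C (algebraMap K ℂ a)) := by
  rw [RingHom.map_sub, localL_const, jL, localL_algebraMap, map_sub, HahnSeries.ofPowerSeries_C]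
  rfl

theorem orderTop_toC_expAbd (M : ℕ) [NeZero M] (u : Kˣ) :
    (toC (expAbd K M u)).orderTop = ((-(M : ℤ) : ℤ) : WithTop ℤ) := by
  refine HahnSeries.orderTop_eq_of_le ?_ ?_
  · rw [HahnSeries.mem_support, toC, ModularCurve.coeffMap_coeff, coeff_expAbd_self]
    exact (map_ne_zero _).mpr (Units.ne_zero _)
  · intro g hg
    rw [HahnSeries.mem_support, toC, ModularCurve.coeffMap_coeff] at hg
    by_contra hlt
    rw [not_le] at hlt
    exact hg (by rw [coeff_expAbd_of_lt M u hlt, map_zero])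

theorem infL_jL : (infL (jL K N)).orderTop = ((-(N : ℤ) : ℤ) : WithTop ℤ) := by
  have hj : jf = jabd 1 0 1 := by
    funext τ
    rw [jabd]
    congr 1
    apply UpperHalfPlane.ext
    simp [aff]
  have hf : Fact (1 ∣ N) := ⟨one_dvd N⟩
  have h1 : HasExp (qc N) (jH K N).1 (toC (expAbd K (1 * (N / 1)) (zetaK K 0 1))) := by
    have := hasExp_jabd (K := K) 1 0 1 N
    rwa [← hj] at this
  rw [jL, infL_eq h1, orderTop_toC_expAbd]
  simp

/-! ### Places -/

theorem const_orderTop_nonneg (c : ℂ) : 0 ≤ (HahnSeries.C c : LaurentSeries ℂ).orderTop := by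
  rw [HahnSeries.le_orderTop_iff_forall]
  intro j hj
  have hj' : j ≠ 0 := by
    rintro rfl
    exact lt_irrefl _ hj
  exact HahnSeries.coeff_single_of_ne hj'

/-- The place at a point `τ₀` where `j(τ₀) ∈ K`. -/
theorem exists_place_local (τ₀ : ℍ) (a : K) (ha : jf τ₀ = algebraMap K ℂ a) (n : ℕ)
    (hn : (localPS τ₀ jf - PowerSeries.C (algebraMap K ℂ a)).order = n) :
    ∃ w : Place K (FunN K N), (∀ l, l ∈ w.toValuationSubring ↔ 0 ≤ (localL τ₀ l).orderTop) ∧
      ∃ e : ℕ, 0 < e ∧ (∀ l : FunN K N, l ≠ 0 →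
        (localL τ₀ l).orderTop = ((e * w.ord l : ℤ) : WithTop ℤ)) ∧
        (n : ℤ) = e * w.ord (jL K N - algebraMap K (FunN K N) a) := by
  have hn0 : 1 ≤ n := by
    rw [Nat.one_le_iff_ne_zero]
    rintro rfl
    have h1 : (localPS τ₀ jf - PowerSeries.C (algebraMap K ℂ a)).coeff 0 = 0 := by
      rw [map_sub, ← (hasPS_local τ₀ mdifferentiable_jf).coeff_zero (wc_self τ₀), ha]
      simp
    exact (PowerSeries.order_eq_nat.mp hn).1 h1
  have h2 : (localL τ₀ (jL K N - algebraMap K (FunN K N) a)).orderTop = ((n : ℤ) : WithTop ℤ) := by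
    rw [localL_jL_sub, orderTop_ofPowerSeries hn]
  have h0 : jL K N - algebraMap K (FunN K N) a ≠ 0 := by
    intro h0
    rw [h0, RingHom.map_zero, HahnSeries.orderTop_zero] at h2
    exact WithTop.top_ne_coe h2
  have h3 : (localL τ₀ (jL K N - algebraMap K (FunN K N) a)⁻¹).orderTop < 0 := by
    have := addVal_inv ((HahnSeries.addVal ℤ ℂ).comap (localL (K := K) (N := N) τ₀)) h0
      (n := n) h2
    have h4 : (localL τ₀ (jL K N - algebraMap K (FunN K N) a)⁻¹).orderTop =
      ((-n : ℤ) : WithTop ℤ) := this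
    rw [h4]
    exact_mod_cast (by omega : (-(n : ℤ)) < 0)
  obtain ⟨w, hw1, e, he, hw2⟩ := exists_place_of_hom (K := K) (localL (K := K) (N := N) τ₀)
    (fun c => by rw [localL_const]; exact const_orderTop_nonneg _) _ h3
  refine ⟨w, hw1, e, he, hw2, ?_⟩
  have h5 := hw2 _ h0
  rw [h2] at h5
  exact_mod_cast h5

/-- The place at infinity. -/
theorem exists_place_inf : ∃ w : Place K (FunN K N),
    (∀ l, l ∈ w.toValuationSubring ↔ 0 ≤ (infL l).orderTop) ∧
      ∃ e : ℕ, 0 < e ∧ (∀ l : FunN K N, l ≠ 0 →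
        (infL l).orderTop = ((e * w.ord l : ℤ) : WithTop ℤ)) ∧
        -(N : ℤ) = e * w.ord (jL K N) := by
  have h2 := infL_jL (K := K) (N := N)
  have h0 : jL K N ≠ 0 := by
    intro h0
    rw [h0, RingHom.map_zero, HahnSeries.orderTop_zero] at h2
    exact WithTop.top_ne_coe h2
  have h3 : (infL (jL K N)).orderTop < 0 := by
    rw [h2]
    have := Nat.pos_of_ne_zero (NeZero.ne N)
    exact_mod_cast (by omega : (-(N : ℤ)) < 0)
  obtain ⟨w, hw1, e, he, hw2⟩ := exists_place_of_hom (K := K) (infL (K := K) (N := N))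
    (fun c => by rw [infL_const]; exact const_orderTop_nonneg _) _ h3
  refine ⟨w, hw1, e, he, hw2, ?_⟩
  have h5 := hw2 _ h0
  rw [h2] at h5
  exact_mod_cast h5

/-! ### The local data for `genus_X0_of_hom` -/

theorem hgen (a : K) (h0 : a ≠ 0) (h1 : a ≠ 1728) : ∃ w : Place K (FunN K N),
    0 < w.ord (jL K N - algebraMap K (FunN K N) a) ∧
      w.ord (jL K N - algebraMap K (FunN K N) a) ≤ 1 := by
  obtain ⟨τ₀, hτ⟩ := jf_surjective (algebraMap K ℂ a)
  have hn := order_of_generic (τ₀ := τ₀) (by rw [hτ]; exact (map_ne_zero _).mpr h0)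
    (by
      rw [hτ]
      intro h
      apply h1
      apply (algebraMap K ℂ).injective
      rw [h, map_ofNat])
  rw [hτ] at hn
  obtain ⟨w, -, e, he, -, h⟩ := exists_place_local (N := N) τ₀ a hτ 1 (by exact_mod_cast hn)
  refine ⟨w, ?_, ?_⟩
  · by_contra h2
    rw [not_lt] at h2
    have : (1 : ℤ) ≤ e := by exact_mod_cast he
    push_cast at h
    nlinarith
  · have : (1 : ℤ) ≤ e := by exact_mod_cast he
    push_cast at h
    by_contra h2
    rw [not_le] at h2
    nlinarith

theorem h0 : ∃ w : Place K (FunN K N), 0 < w.ord (jL K N) ∧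
    (∀ l ∈ w.toValuationSubring, actN K N (ModularGroup.S * ModularGroup.T) l ∈
      w.toValuationSubring) ∧ w.ord (jL K N) ≤ 3 := by
  obtain ⟨h1, h2, h3⟩ := order_rho
  obtain ⟨w, hw, e, he, -, h⟩ := exists_place_local (K := K) (N := N) rho 0
    (by rw [h1, map_zero]) 3 (by rw [map_zero, map_zero, sub_zero]; exact_mod_cast h2)
  rw [map_zero, sub_zero] at h
  have he' : (1 : ℤ) ≤ e := by exact_mod_cast he
  push_cast at h
  refine ⟨w, ?_, ?_, ?_⟩
  · by_contra h2
    rw [not_lt] at h2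
    nlinarith
  · intro l hl
    rw [hw] at hl ⊢
    rw [← orderTop_localL_actN (ModularGroup.S * ModularGroup.T), h3] at hl
    exact hl
  · have h4 : 0 < w.ord (jL K N) := by
      by_contra h2
      rw [not_lt] at h2
      nlinarith
    nlinarith

theorem h1728 : ∃ w : Place K (FunN K N), 0 < w.ord (jL K N - algebraMap K (FunN K N) 1728) ∧
    (∀ l ∈ w.toValuationSubring, actN K N ModularGroup.S l ∈ w.toValuationSubring) ∧
    w.ord (jL K N - algebraMap K (FunN K N) 1728) ≤ 2 := by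
  obtain ⟨h1, h2, h3⟩ := order_I
  obtain ⟨w, hw, e, he, -, h⟩ := exists_place_local (K := K) (N := N) UpperHalfPlane.I 1728
    (by rw [h1, map_ofNat]) 2 (by rw [map_ofNat]; exact_mod_cast h2)
  have he' : (1 : ℤ) ≤ e := by exact_mod_cast he
  push_cast at h
  refine ⟨w, ?_, ?_, ?_⟩
  · by_contra h2
    rw [not_lt] at h2
    nlinarith
  · intro l hl
    rw [hw] at hl ⊢
    rw [← orderTop_localL_actN ModularGroup.S, h3] at hl
    exact hl
  · have h4 : 0 < w.ord (jL K N - algebraMap K (FunN K N) 1728) := by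
      by_contra h2
      rw [not_lt] at h2
      nlinarith
    nlinarith

theorem hinf : ∃ w : Place K (FunN K N), w.ord (jL K N) < 0 ∧
    (∀ l ∈ w.toValuationSubring, actN K N ModularGroup.T l ∈ w.toValuationSubring) ∧
    -(w.ord (jL K N)) ≤ N := by
  obtain ⟨w, hw, e, he, -, h⟩ := exists_place_inf (K := K) (N := N)
  have he' : (1 : ℤ) ≤ e := by exact_mod_cast he
  have hN : (1 : ℤ) ≤ N := by exact_mod_cast Nat.pos_of_ne_zero (NeZero.ne N)
  have h4 : w.ord (jL K N) < 0 := by
    by_contra h2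
    rw [not_lt] at h2
    nlinarith
  refine ⟨w, h4, ?_, ?_⟩
  · intro l hl
    rw [hw] at hl ⊢
    rw [orderTop_infL_actN_T]
    exact hl
  · nlinarith

end Fermat.FF.FunN
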